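import Fermat.Agent.S55.L.Restrict

/-!
# S55 (L), F1: Kummer theory for a Kummer datum
TASK S55/L-Kummer.

Direct cocycle proofs (no long exact sequence needed):
* `κ(b) = [g ↦ ι⁻¹(g β - β)]`, `p β = b`.  Surjective: a level cocycle `y : H → μ` gives the level
  cocycle `ι ∘ y` in `A`, which is `g β - β` by Hilbert 90 (`h90_top`), and `p β` is
  invariant.  Kernel: `g β - β = g ζ - ζ` iff `β - ζ` invariant iff `b ∈ p A^H`.
* `ι_*` injective on `H²`: if `ι ∘ z = d1 y` then `p y` is a level 1-cocycle, `p y = d0 a`, `a = p a'`,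
  `y - d0 a'` is killed by `p`, so it is `ι ∘ y''` with `y''` level, and `z = d1 y''`.
* image of `ι_*` = `p`-torsion: `p z = d1 y`; `y' := s ∘ y` with `s` a set theoretic section of
  multiplication by `p`; `z - d1 y'` is killed by `p`.
-/

set_option autoImplicit false

noncomputable section

namespace Fermat.Agent.S55

variable {p : ℕ} [Fact p.Prime] {H : Type} [Group H] {L : Levels H}

namespace KummerDatum

variable (D : KummerDatum p H L)

/-- Hilbert 90 for the whole group. -/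
theorem h90_top : Z1 L D.α ≤ B1 D.α :=
  LAux.Z1_le_B1_of_top D.α (D.h90 ⊤ L.isOpen_top)

/-- `p • ι x = 0`. -/
theorem p_smul_ι (x : ZMod p) : p • D.ι x = 0 := by
  rw [← map_nsmul]
  simp

/-- every `b ∈ A^H` has a Kummer cocycle, for every choice of a `p`-th root `β`. -/
theorem exists_kummer_cocycle (b : ↥(H0 D.α)) (β : D.A) (hβ : p • β = (b : D.A)) :
    ∃ y : ↥(Z1 L D.μ), ∀ g, D.ι ((y : H → ZMod p) g) = D.α g β - β := by
  have h1 : ∀ g, ∃ x, D.ι x = D.α g β - β := by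
    intro g
    apply D.ι_surj
    rw [smul_sub, ← map_nsmul, hβ, b.2 g, sub_self]
  choose y hy using h1
  refine ⟨⟨y, mem_Z1.mpr ⟨fun g h => ?_, ?_⟩⟩, hy⟩
  · apply D.ι_inj
    rw [map_add, ← D.ι_equiv, hy, hy, hy, map_sub, map_mul, Module.End.mul_apply]
    abel
  · apply Levels.IsLevel₁.of_comp D.ι_inj
    have h2 : D.ι ∘ y = d0 D.α β := by
      funext g
      exact hy g
    rw [h2]
    exact d0_isLevel β

/-- two Kummer cocycles of the same element are cohomologous -/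
theorem kummer_mk_eq_mk (b : ↥(H0 D.α)) (β β' : D.A) (y y' : ↥(Z1 L D.μ))
    (h1 : p • β = (b : D.A)) (h2 : ∀ g, D.ι ((y : H → ZMod p) g) = D.α g β - β)
    (h1' : p • β' = (b : D.A)) (h2' : ∀ g, D.ι ((y' : H → ZMod p) g) = D.α g β' - β') :
    H1.mk L D.μ y = H1.mk L D.μ y' := by
  rw [← sub_eq_zero, ← map_sub, H1.mk_eq_zero_iff]
  obtain ⟨x, hx⟩ := D.ι_surj (β - β') (by rw [smul_sub, h1, h1', sub_self])
  refine ⟨x, fun g => D.ι_inj ?_⟩
  have h3 : ((y - y' : ↥(Z1 L D.μ)) : H → ZMod p) g =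
      (y : H → ZMod p) g - (y' : H → ZMod p) g := rfl
  rw [h3, map_sub, map_sub, h2, h2', ← D.ι_equiv, hx, map_sub]
  abel

theorem kummer_ιc_mem_Z1 {y : H → ZMod p} (hy : y ∈ Z1 L D.μ) :
    (fun g => D.ι (y g)) ∈ Z1 L D.α := by
  rw [mem_Z1] at hy ⊢
  refine ⟨fun g h => ?_, hy.2.comp D.ι⟩
  rw [hy.1, map_add, D.ι_equiv]

theorem exists_kappa :
    ∃ κ : ↥(H0 D.α) →+ H1 L D.μ,
      (∀ (b : ↥(H0 D.α)) (β : D.A) (y : ↥(Z1 L D.μ)), p • β = (b : D.A) →
        (∀ g, D.ι ((y : H → ZMod p) g) = D.α g β - β) → κ b = H1.mk L D.μ y) ∧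
      Function.Surjective κ ∧ (∀ b, κ b = 0 ↔ ∃ c : ↥(H0 D.α), b = p • c) := by
  choose β hβ using fun b : ↥(H0 D.α) => D.div (b : D.A)
  choose y hy using fun b : ↥(H0 D.α) => D.exists_kummer_cocycle b (β b) (hβ b)
  have key : ∀ (b : ↥(H0 D.α)) (β' : D.A) (y' : ↥(Z1 L D.μ)), p • β' = (b : D.A) →
      (∀ g, D.ι ((y' : H → ZMod p) g) = D.α g β' - β') → H1.mk L D.μ (y b) = H1.mk L D.μ y' :=
    fun b β' y' h1 h2 => D.kummer_mk_eq_mk b (β b) β' (y b) y' (hβ b) (hy b) h1 h2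
  let κ : ↥(H0 D.α) →+ H1 L D.μ := AddMonoidHom.mk' (fun b => H1.mk L D.μ (y b)) (by
    intro b b'
    rw [← map_add]
    apply key (b + b') (β b + β b') (y b + y b')
    · rw [smul_add, hβ, hβ]; rfl
    · intro g
      have h3 : ((y b + y b' : ↥(Z1 L D.μ)) : H → ZMod p) g =
        (y b : H → ZMod p) g + (y b' : H → ZMod p) g := rfl
      rw [h3, map_add, hy, hy, map_add]
      abel)
  refine ⟨κ, key, ?_, ?_⟩
  · intro x
    obtain ⟨z, rfl⟩ := H1.mk_surjective L D.μ x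
    obtain ⟨β', hβ'⟩ := mem_B1.mp (D.h90_top (D.kummer_ιc_mem_Z1 z.2))
    have hinv : p • β' ∈ H0 D.α := by
      intro g
      rw [map_nsmul, ← sub_eq_zero, ← smul_sub, ← hβ' g, D.p_smul_ι]
    exact ⟨⟨p • β', hinv⟩, key _ β' z rfl hβ'⟩
  · intro b
    constructor
    · intro h
      obtain ⟨x, hx⟩ := (H1.mk_eq_zero_iff (y b)).mp h
      have hinv : β b - D.ι x ∈ H0 D.α := by
        intro g
        have h1 := hy b g
        rw [hx, map_sub, ← D.ι_equiv] at h1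
        rw [map_sub, sub_eq_sub_iff_sub_eq_sub]
        exact h1.symm
      refine ⟨⟨β b - D.ι x, hinv⟩, Subtype.ext ?_⟩
      show (b : D.A) = p • (β b - D.ι x)
      rw [smul_sub, hβ, D.p_smul_ι, sub_zero]
    · rintro ⟨c, rfl⟩
      have h1 := key (p • c) (c : D.A) 0 rfl (fun g => by
        rw [c.2 g, sub_self]
        exact map_zero D.ι)
      rw [map_zero] at h1
      exact h1

/-- the Kummer map `A^H → H¹(H, μ)`. -/
def kappa : ↥(H0 D.α) →+ H1 L D.μ := Classical.choose D.exists_kappa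

theorem kappa_eq (b : ↥(H0 D.α)) (β : D.A) (y : ↥(Z1 L D.μ)) (h1 : p • β = (b : D.A))
    (h2 : ∀ g, D.ι ((y : H → ZMod p) g) = D.α g β - β) : D.kappa b = H1.mk L D.μ y :=
  (Classical.choose_spec D.exists_kappa).1 b β y h1 h2

theorem kappa_surjective : Function.Surjective D.kappa :=
  (Classical.choose_spec D.exists_kappa).2.1

theorem kappa_eq_zero_iff (b : ↥(H0 D.α)) : D.kappa b = 0 ↔ ∃ c : ↥(H0 D.α), b = p • c :=
  (Classical.choose_spec D.exists_kappa).2.2 b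

/-- `κ` commutes with restriction. -/
theorem res_kappa (V : Subgroup H) (hV : L.IsOpen V) (b : ↥(H0 D.α)) :
    (Pair.res L D.μ V).map1 (D.kappa b) = (D.res V hV).kappa ((Pair.res L D.α V).map0 b) := by
  obtain ⟨β, hβ⟩ := D.div (b : D.A)
  obtain ⟨y, hy⟩ := D.exists_kummer_cocycle b β hβ
  rw [D.kappa_eq b β y hβ hy, Pair.map1_mk]
  exact ((D.res V hV).kappa_eq ((Pair.res L D.α V).map0 b) β ((Pair.res L D.μ V).z1 y) hβ
    (fun g => hy g)).symm

/-- `ι ∘ z`. -/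
def ιc {T : Type} (z : T → ZMod p) : T → D.A := fun t => D.ι (z t)

@[simp] lemma ιc_apply {T : Type} (z : T → ZMod p) (t : T) : D.ιc z t = D.ι (z t) := rfl

theorem ιc_mem_Z1 {y : H → ZMod p} (hy : y ∈ Z1 L D.μ) : D.ιc y ∈ Z1 L D.α :=
  D.kummer_ιc_mem_Z1 hy

theorem ιc_mem_Z2 {z : H × H → ZMod p} (hz : z ∈ Z2 L D.μ) : D.ιc z ∈ Z2 L D.α := by
  rw [mem_Z2] at hz ⊢
  refine ⟨fun g h j => ?_, hz.2.comp D.ι⟩
  simp only [ιc_apply]
  rw [D.ι_equiv, ← map_add, ← map_add, hz.1]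

/-- `ι ∘ d1 y = d1 (ι ∘ y)` -/
theorem kummer_ιc_d1 (y : H → ZMod p) : D.ιc (d1 D.μ y) = d1 D.α (D.ιc y) := by
  funext g
  simp only [ιc_apply, d1_apply, map_add, map_sub, D.ι_equiv]

theorem ιc_mem_B2 {z : H × H → ZMod p} (hz : z ∈ B2 L D.μ) : D.ιc z ∈ B2 L D.α := by
  obtain ⟨y, hy, rfl⟩ := hz
  exact ⟨D.ιc y, Levels.IsLevel₁.comp hy D.ι, (D.kummer_ιc_d1 y).symm⟩

/-- a level cochain killed by `p` comes from `μ` -/
theorem kummer_exists_ιc₁ {y : H → D.A} (hy : L.IsLevel₁ y) (h : ∀ g, p • y g = 0) :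
    ∃ y' : H → ZMod p, L.IsLevel₁ y' ∧ D.ιc y' = y := by
  choose y' hy' using fun g => D.ι_surj (y g) (h g)
  have h1 : D.ιc y' = y := funext hy'
  refine ⟨y', Levels.IsLevel₁.of_comp D.ι_inj ?_, h1⟩
  have h2 : D.ι ∘ y' = y := h1
  rw [h2]
  exact hy

theorem kummer_exists_ιc₂ {z : H × H → D.A} (hz : L.IsLevel₂ z) (h : ∀ g, p • z g = 0) :
    ∃ z' : H × H → ZMod p, L.IsLevel₂ z' ∧ D.ιc z' = z := by
  choose z' hz' using fun g => D.ι_surj (z g) (h g)
  have h1 : D.ιc z' = z := funext hz'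
  refine ⟨z', Levels.IsLevel₂.of_comp D.ι_inj ?_, h1⟩
  have h2 : D.ι ∘ z' = z := h1
  rw [h2]
  exact hz

theorem kummer_ιc_injective {T : Type} {z z' : T → ZMod p} (h : D.ιc z = D.ιc z') : z = z' :=
  funext fun t => D.ι_inj (congrFun h t)

/-- `ι_* : H²(μ) → H²(A)` is injective, cochain form. -/
theorem mem_B2_of_ιc_mem_B2 {z : H × H → ZMod p} (hz : z ∈ Z2 L D.μ)
    (h : D.ιc z ∈ B2 L D.α) : z ∈ B2 L D.μ := by
  have _ := hz
  obtain ⟨y, hy, hyz⟩ := h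
  have hy' : L.IsLevel₁ y := hy
  -- `p • y` is a level cocycle
  have h1 : p • y ∈ Z1 L D.α := by
    refine ⟨?_, (C1 ℤ D.A L).nsmul_mem hy p⟩
    rw [SetLike.mem_coe, LinearMap.mem_ker, map_nsmul, hyz]
    funext g
    exact D.p_smul_ι _
  obtain ⟨a, ha⟩ := mem_B1.mp (D.h90_top h1)
  obtain ⟨a', ha'⟩ := D.div a
  have h2 : L.IsLevel₁ (y - d0 D.α a') := (C1 ℤ D.A L).sub_mem hy (d0_isLevel a')
  obtain ⟨y'', hy'', hyy⟩ := D.kummer_exists_ιc₁ h2 (fun g => by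
    have h3 : p • y g = D.α g a - a := ha g
    rw [Pi.sub_apply, smul_sub, h3, d0_apply, smul_sub, ← map_nsmul, ha', sub_self])
  refine ⟨y'', hy'', D.kummer_ιc_injective ?_⟩
  rw [D.kummer_ιc_d1, hyy, map_sub, d1_d0, sub_zero, hyz]

/-- the image of `ι_*` is the `p`-torsion of `H²(A)`, cochain form. -/
theorem exists_ιc_of_p_smul_mem_B2 {z : H × H → D.A} (hz : z ∈ Z2 L D.α)
    (h : p • z ∈ B2 L D.α) : ∃ z' ∈ Z2 L D.μ, z - D.ιc z' ∈ B2 L D.α := by
  obtain ⟨y, hy, hyz⟩ := h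
  have hy' : L.IsLevel₁ y := hy
  choose s hs using D.div
  have hsy : L.IsLevel₁ (s ∘ y) := hy'.comp s
  have hB : d1 D.α (s ∘ y) ∈ B2 L D.α := ⟨s ∘ y, hsy, rfl⟩
  have hw : z - d1 D.α (s ∘ y) ∈ Z2 L D.α := (Z2 L D.α).sub_mem hz (B2_le_Z2 hB)
  have hp : p • (s ∘ y) = y := funext fun g => hs (y g)
  obtain ⟨z', hz', hzz⟩ := D.kummer_exists_ιc₂ (mem_Z2.mp hw).2 (fun g => by
    have h3 : p • (z - d1 D.α (s ∘ y)) = 0 := by
      rw [smul_sub, ← map_nsmul, hp, hyz, sub_self]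
    exact congrFun h3 g)
  refine ⟨z', mem_Z2.mpr ⟨fun g h j => D.ι_inj ?_, hz'⟩, ?_⟩
  · have h4 := (mem_Z2.mp hw).1 g h j
    rw [← hzz] at h4
    simp only [ιc_apply] at h4
    rw [map_add, map_add, ← D.ι_equiv]
    exact h4
  · rw [hzz, sub_sub_cancel]
    exact hB

theorem exists_ι2 : ∃ f : H2 L D.μ →+ H2 L D.α, ∀ z : ↥(Z2 L D.μ),
    f (H2.mk L D.μ z) = H2.mk L D.α ⟨D.ιc z, D.ιc_mem_Z2 z.2⟩ := by
  let F : ↥(Z2 L D.μ) → H2 L D.α := fun z => H2.mk L D.α ⟨D.ιc z, D.ιc_mem_Z2 z.2⟩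
  have hadd : ∀ z z', F (z + z') = F z + F z' := by
    intro z z'
    show H2.mk L D.α _ = H2.mk L D.α _ + H2.mk L D.α _
    rw [← map_add]
    congr 1
    apply Subtype.ext
    funext g
    exact map_add D.ι _ _
  have hsub : ∀ z z', F (z - z') = F z - F z' := by
    intro z z'
    show H2.mk L D.α _ = H2.mk L D.α _ - H2.mk L D.α _
    rw [← map_sub]
    congr 1
    apply Subtype.ext
    funext g
    exact map_sub D.ι _ _
  have hwd : ∀ z z', H2.mk L D.μ z = H2.mk L D.μ z' → F z = F z' := by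
    intro z z' h
    rw [← sub_eq_zero, ← map_sub, Submodule.mkQ_apply, Submodule.Quotient.mk_eq_zero,
      Submodule.mem_comap] at h
    rw [← sub_eq_zero, ← hsub]
    show H2.mk L D.α _ = 0
    rw [Submodule.mkQ_apply, Submodule.Quotient.mk_eq_zero, Submodule.mem_comap]
    exact D.ιc_mem_B2 h
  choose r hr using H2.mk_surjective L D.μ
  refine ⟨AddMonoidHom.mk' (fun x => F (r x)) ?_, fun z => hwd _ _ (hr _)⟩
  intro x x'
  rw [← hadd]
  apply hwd
  rw [hr, map_add, hr, hr]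

/-- `ι_* : H²(H, μ) → H²(H, A)`. -/
def ι2 : H2 L D.μ →+ H2 L D.α := Classical.choose D.exists_ι2

theorem ι2_mk (z : ↥(Z2 L D.μ)) :
    D.ι2 (H2.mk L D.μ z) = H2.mk L D.α ⟨D.ιc z, D.ιc_mem_Z2 z.2⟩ :=
  Classical.choose_spec D.exists_ι2 z

theorem ι2_injective : Function.Injective D.ι2 := by
  rw [injective_iff_map_eq_zero]
  intro x hx
  obtain ⟨z, rfl⟩ := H2.mk_surjective L D.μ x
  rw [ι2_mk, Submodule.mkQ_apply, Submodule.Quotient.mk_eq_zero, Submodule.mem_comap] at hx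
  rw [Submodule.mkQ_apply, Submodule.Quotient.mk_eq_zero, Submodule.mem_comap]
  exact D.mem_B2_of_ιc_mem_B2 z.2 hx

theorem exists_ι2_eq (x : H2 L D.α) (hx : p • x = 0) : ∃ x' : H2 L D.μ, D.ι2 x' = x := by
  obtain ⟨z, rfl⟩ := H2.mk_surjective L D.α x
  rw [← map_nsmul, Submodule.mkQ_apply, Submodule.Quotient.mk_eq_zero, Submodule.mem_comap] at hx
  obtain ⟨z', hz', h⟩ := D.exists_ιc_of_p_smul_mem_B2 z.2 hx
  refine ⟨H2.mk L D.μ ⟨z', hz'⟩, ?_⟩
  rw [ι2_mk, eq_comm, ← sub_eq_zero, ← map_sub, Submodule.mkQ_apply,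
    Submodule.Quotient.mk_eq_zero, Submodule.mem_comap]
  exact h

/-- `ι_*` commutes with restriction. -/
theorem res_ι2 (V : Subgroup H) (hV : L.IsOpen V) (x : H2 L D.μ) :
    (Pair.res L D.α V).map2 (D.ι2 x) = (D.res V hV).ι2 ((Pair.res L D.μ V).map2 x) := by
  obtain ⟨z, rfl⟩ := H2.mk_surjective L D.μ x
  rw [ι2_mk, Pair.map2_mk, Pair.map2_mk]
  exact ((D.res V hV).ι2_mk ((Pair.res L D.μ V).z2 z)).symm

end KummerDatum

namespace LocalDatum

variable (D : LocalDatum p H L)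

theorem kummer_finite_torP : Finite ↥(torP p ↥(H0 D.α)) := by
  have hmem : ∀ x : ↥(torP p ↥(H0 D.α)), ((x : ↥(H0 D.α)) : D.A) ∈ Set.range D.ι := by
    intro x
    have h1 : p • (x : ↥(H0 D.α)) = 0 := x.2
    exact D.ι_surj _ (congrArg Subtype.val h1)
  refine Finite.of_injective (β := Set.range D.ι) (fun x => ⟨_, hmem x⟩) ?_
  intro x x' h
  have h2 : ((x : ↥(H0 D.α)) : D.A) = ((x' : ↥(H0 D.α)) : D.A) :=
    congrArg (fun y : Set.range D.ι => (y : D.A)) h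
  exact Subtype.ext (Subtype.ext h2)

/-- the `p`-torsion of `A^H` is finite and nonzero in cardinality. -/
theorem card_torP_ne_zero : Nat.card ↥(torP p ↥(H0 D.α)) ≠ 0 := by
  have := D.kummer_finite_torP
  exact Nat.card_pos.ne'

/-- for a split datum `A^H[p]` has `p` elements. -/
theorem card_torP_of_split (hs : D.IsSplit) : Nat.card ↥(torP p ↥(H0 D.α)) = p := by
  have hinv : ∀ t : ZMod p, D.ι t ∈ H0 D.α := by
    intro t g
    rw [D.ι_equiv, hs g t]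
  let f : ZMod p → ↥(torP p ↥(H0 D.α)) := fun t =>
    ⟨⟨D.ι t, hinv t⟩, Subtype.ext (D.p_smul_ι t)⟩
  have hf : Function.Bijective f := by
    constructor
    · intro t t' h
      exact D.ι_inj (congrArg (fun x : ↥(torP p ↥(H0 D.α)) => ((x : ↥(H0 D.α)) : D.A)) h)
    · intro x
      have h1 : p • (x : ↥(H0 D.α)) = 0 := x.2
      obtain ⟨t, ht⟩ := D.ι_surj _ (congrArg Subtype.val h1)
      exact ⟨t, Subtype.ext (Subtype.ext ht)⟩
  rw [← Nat.card_congr (Equiv.ofBijective f hf), Nat.card_zmod]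

/-- `#H¹(H, μ) = p^(1+n) #A^H[p]`. -/
theorem card_H1_μ :
    Nat.card (H1 L D.μ) = p ^ (1 + D.n) * Nat.card ↥(torP p ↥(H0 D.α)) := by
  rw [← D.loc1_top]
  have hker : D.kappa.ker = (nsmulAddMonoidHom (α := ↥(H0 D.α)) p).range := by
    ext b
    rw [AddMonoidHom.mem_ker, D.kappa_eq_zero_iff, AddMonoidHom.mem_range]
    constructor
    · rintro ⟨c, rfl⟩; exact ⟨c, rfl⟩
    · rintro ⟨c, rfl⟩; exact ⟨c, rfl⟩
  have e := QuotientAddGroup.quotientKerEquivOfSurjective D.kappa D.kappa_surjective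
  rw [← Nat.card_congr e.toEquiv, hker]

theorem kummer_finite_H1_μ : Finite (H1 L D.μ) := by
  apply Nat.finite_of_card_ne_zero
  rw [D.card_H1_μ]
  exact mul_ne_zero (pow_ne_zero _ (Fact.out : p.Prime).ne_zero) D.card_torP_ne_zero

theorem finite_H1_μ : FiniteDimensional (ZMod p) (H1 L D.μ) := by
  have := D.kummer_finite_H1_μ
  exact Module.Finite.of_finite

/-- `dim H¹(H, μ) = 2 + n` for a split datum. -/
theorem finrank_H1_μ (hs : D.IsSplit) : Module.finrank (ZMod p) (H1 L D.μ) = 2 + D.n := by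
  have := D.kummer_finite_H1_μ
  have h1 := D.card_H1_μ
  rw [D.card_torP_of_split hs, ← pow_succ, Module.natCard_eq_pow_finrank (K := ZMod p),
    Nat.card_zmod] at h1
  have h2 := Nat.pow_right_injective (Fact.out : p.Prime).two_le h1
  omega

end LocalDatum

end Fermat.Agent.S55

end
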