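import Fermat.Agent.S55.L.Cyc

/-!
# S55 (L), F2 (Cyc), part b: a class which dies on `ker χ` is cyclic
TASK S55/L-CycRes.

`α : Representation ℤ H A` smooth, `χ : H →* Multiplicative (ZMod m)` surjective level character,
`N = χ.ker`, Hilbert 90 for `N`.  Then every `x ∈ H²(H,A)` with `res_N x = 0` is `⟨χ,b⟩`.

PROOF (blueprint F2).  Let `Ω = ZMod m` with `H` acting by `g • k = χ(g) + k` (`CycSet χ` below):
finite, transitive, smooth, the stabiliser of `0` is `N`.  `Fn = Fun α Ω`; `R f k = f (k+1)` commutes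
with `H`.
(a) `0 → A -const→ Fn → Q → 0`  (`constSES α Ω`, `Q = Fn/A`),
(b) `0 → Q -(R-1)→ Fn -Sum→ A → 0`  (`R - 1` kills exactly the constants; `Sum f = 0` iff
    `f = (R-1) F`, `F k = ∑_{i < k} f i`).
Shapiro (`ev_bijective1/2`, `ev_comp_const2`): `H^i(H,Fn) ≅ H^i(N,A)`, `sh ∘ const_* = res`.
LES(a) (`exact_δ1_i2`): `res x = 0 ⇒ const_* x = 0 ⇒ x = δ1_a u`, `u ∈ H¹(H,Q)`.
LES(b) (`exact_δ0_i1`): `H¹(H,Fn) = H¹(N,A) = 0` so `u = δ0_b b`, `b ∈ A^H`.
Explicitly (`δ0_eq`, `δ1_eq`): lift of `b` to `Fn`: `b·δ_0`;  `g(b δ_0) - b δ_0 = b δ_{χ g} - b δ_0 =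
(R-1) F_g`, `F_g = - b ∑_{j=1}^{χ~(g)} δ_j`;  `g F_h - F_{gh} + F_g = - carry(g,h) b · 1`.
Hence `x = δ1_a δ0_b b = -⟨χ,b⟩ = ⟨χ,-b⟩`.
-/

set_option autoImplicit false

noncomputable section

namespace Fermat.Agent.S55

variable {H : Type} [Group H] {A : Type} [AddCommGroup A]

/-- `ZMod m` with `H` acting through `χ` by translation. -/
def CycSet {m : ℕ} (_χ : H →* Multiplicative (ZMod m)) : Type := ZMod m

instance {m : ℕ} (χ : H →* Multiplicative (ZMod m)) : MulAction H (CycSet χ) where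
  smul g k := (Multiplicative.toAdd (χ g) + (show ZMod m from k) : ZMod m)
  one_smul k := by
    change (Multiplicative.toAdd (χ 1) + (show ZMod m from k) : ZMod m) = k
    simp
  mul_smul g h k := by
    change (Multiplicative.toAdd (χ (g * h)) + (show ZMod m from k) : ZMod m) =
      Multiplicative.toAdd (χ g) + (Multiplicative.toAdd (χ h) + (show ZMod m from k))
    simp [add_assoc]

namespace CycRes

section ops

variable {m : ℕ} [NeZero m]

/-- `(R - 1) f k = f (k+1) - f k` -/
def rm1 (A : Type) [AddCommGroup A] (m : ℕ) : (ZMod m → A) →ₗ[ℤ] (ZMod m → A) where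
  toFun f k := f (k + 1) - f k
  map_add' f f' := by ext k; simp; abel
  map_smul' c f := by ext k; simp [smul_sub]

omit [NeZero m] in
@[simp] lemma rm1_apply (f : ZMod m → A) (k : ZMod m) : rm1 A m f k = f (k + 1) - f k := rfl

/-- the antiderivative -/
def anti (f : ZMod m → A) (k : ZMod m) : A := ∑ i ∈ Finset.range k.val, f (i : ZMod m)

lemma sum_range_eq (f : ZMod m → A) : ∑ i ∈ Finset.range m, f (i : ZMod m) = ∑ k, f k := by
  refine Finset.sum_nbij' (fun i => (i : ZMod m)) (fun k => k.val) ?_ ?_ ?_ ?_ ?_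
  · intro i _; exact Finset.mem_univ _
  · intro k _; exact Finset.mem_range.2 (ZMod.val_lt k)
  · intro i hi; exact ZMod.val_cast_of_lt (Finset.mem_range.1 hi)
  · intro k _; exact ZMod.natCast_zmod_val k
  · intro i _; rfl

lemma rm1_anti (f : ZMod m → A) (hf : ∑ k, f k = 0) : rm1 A m (anti f) = f := by
  ext k
  rw [rm1_apply]
  unfold anti
  by_cases hk : k.val + 1 < m
  · have h1 : (k + 1).val = k.val + 1 := by
      have hm : 1 < m := by omega
      have : Fact (1 < m) := ⟨hm⟩
      rw [ZMod.val_add_of_lt, ZMod.val_one]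
      rw [ZMod.val_one]; exact hk
    rw [h1, Finset.sum_range_succ, ZMod.natCast_zmod_val]
    abel
  · have hlt := ZMod.val_lt k
    have hkm : k.val + 1 = m := by omega
    have h1 : k + 1 = 0 := by
      have : ((k.val + 1 : ℕ) : ZMod m) = 0 := by rw [hkm]; exact ZMod.natCast_self m
      rwa [Nat.cast_add, ZMod.natCast_zmod_val, Nat.cast_one] at this
    rw [h1, ZMod.val_zero, Finset.range_zero, Finset.sum_empty]
    have h2 := sum_range_eq f
    have h3 : Finset.range m = Finset.range (k.val + 1) := by rw [hkm]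
    rw [h3, Finset.sum_range_succ, ZMod.natCast_zmod_val, hf] at h2
    rw [zero_sub, neg_eq_iff_add_eq_zero]
    exact h2

lemma sum_rm1 (f : ZMod m → A) : ∑ k, rm1 A m f k = 0 := by
  simp only [rm1_apply, Finset.sum_sub_distrib]
  rw [sub_eq_zero]
  exact Equiv.sum_comp (Equiv.addRight (1 : ZMod m)) f

lemma eq_const_of_rm1_eq_zero (f : ZMod m → A) (hf : rm1 A m f = 0) (k : ZMod m) : f k = f 0 := by
  have h1 : ∀ k, f (k + 1) = f k := fun k => by
    have := congrFun hf k
    rwa [rm1_apply, Pi.zero_apply, sub_eq_zero] at this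
  have h2 : ∀ n : ℕ, f (n : ZMod m) = f 0 := by
    intro n
    induction n with
    | zero => simp
    | succ n ih => rw [Nat.cast_succ, h1, ih]
  rw [← ZMod.natCast_zmod_val k]
  exact h2 _

end ops

section cycset

variable {m : ℕ} [NeZero m] (χ : H →* Multiplicative (ZMod m))

instance instFintypeCycSet : Fintype (CycSet χ) := inferInstanceAs (Fintype (ZMod m))

instance instNonemptyCycSet : Nonempty (CycSet χ) := ⟨(0 : ZMod m)⟩

omit [NeZero m] in
lemma smul_def (g : H) (k : CycSet χ) :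
    g • k = (Multiplicative.toAdd (χ g) + (show ZMod m from k) : ZMod m) := rfl

omit [NeZero m] in
lemma mem_ker_iff_smul (v : H) (k : CycSet χ) : v ∈ χ.ker ↔ v • k = k := by
  rw [smul_def, MonoidHom.mem_ker]
  constructor
  · intro h
    rw [h]
    exact zero_add (show ZMod m from k)
  · intro h
    have h1 : Multiplicative.toAdd (χ v) = 0 := add_eq_right.1 h
    exact Multiplicative.toAdd.injective h1

lemma smoothSet (L : Levels H) (hχ : L.IsLevel₁ χ) : L.SmoothSet (CycSet χ) :=
  ⟨fun w => L.isOpen_mono (isOpen_ker_of_isLevel χ hχ) fun v hv => (mem_ker_iff_smul χ v w).1 hv⟩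

omit [NeZero m] in
lemma isPretransitive (hs : Function.Surjective χ) : MulAction.IsPretransitive H (CycSet χ) := by
  refine ⟨fun x y => ?_⟩
  obtain ⟨g, hg⟩ := hs (Multiplicative.ofAdd ((show ZMod m from y) - (show ZMod m from x)))
  refine ⟨g, ?_⟩
  rw [smul_def, hg]
  exact sub_add_cancel (show ZMod m from y) (show ZMod m from x)

/-- `R - 1` on `Fun α (CycSet χ)` -/
def rm1' (A : Type) [AddCommGroup A] : (CycSet χ → A) →ₗ[ℤ] (CycSet χ → A) := rm1 A m

variable (α : Representation ℤ H A)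

omit [NeZero m] in
lemma rm1'_comm (h : H) (f : CycSet χ → A) :
    rm1' χ A (Fun α (CycSet χ) h f) = Fun α (CycSet χ) h (rm1' χ A f) := by
  funext k
  change α h (f (h⁻¹ • (show CycSet χ from ((show ZMod m from k) + 1 : ZMod m)))) -
      α h (f (h⁻¹ • k)) =
    α h (f (((show ZMod m from (h⁻¹ • k)) + 1 : ZMod m)) - f (h⁻¹ • k))
  rw [map_sub]
  congr 3
  exact (add_assoc (Multiplicative.toAdd (χ h⁻¹)) (show ZMod m from k) 1).symm

omit [NeZero m] in
lemma range_const_le_ker :
    LinearMap.range (constMap ℤ A (CycSet χ)) ≤ LinearMap.ker (rm1' χ A) := by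
  rintro _ ⟨a, rfl⟩
  rw [LinearMap.mem_ker]
  funext k
  exact sub_self a

/-- the exact sequence `0 → Fun/A -(R-1)→ Fun -Σ→ A → 0` -/
def sesB : SES (cokerRep (constMap ℤ A (CycSet χ)) (constMap_comm α (CycSet χ)))
    (Fun α (CycSet χ)) α where
  i := (LinearMap.range (constMap ℤ A (CycSet χ))).liftQ (rm1' χ A) (range_const_le_ker χ)
  π := sumMap ℤ A (CycSet χ)
  i_comm h a := by
    obtain ⟨f, rfl⟩ := Submodule.mkQ_surjective _ a
    exact rm1'_comm χ α h f
  π_comm := sumMap_comm α (CycSet χ)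
  inj := by
    rw [← LinearMap.ker_eq_bot, Submodule.ker_liftQ_eq_bot']
    refine le_antisymm (range_const_le_ker χ) ?_
    intro f hf
    refine ⟨f (0 : ZMod m), ?_⟩
    funext k
    exact (eq_const_of_rm1_eq_zero (m := m) f hf k).symm
  surj := sumMap_surjective (CycSet χ)
  exact := by
    intro f
    rw [sumMap_apply]
    constructor
    · intro hf
      exact ⟨Submodule.mkQ _ (anti (m := m) f), rm1_anti (m := m) f hf⟩
    · rintro ⟨a, rfl⟩
      obtain ⟨F, rfl⟩ := Submodule.mkQ_surjective _ a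
      exact sum_rm1 (m := m) F

lemma sesB_i_mk (F : CycSet χ → A) (k : ZMod m) :
    (sesB χ α).i (Submodule.mkQ _ F) k = F (k + 1 : ZMod m) - F k := rfl

/-- the explicit antiderivative of `b δ_c - b δ_0` -/
def yc (b : A) (c : ℕ) : ZMod m → A := fun k => if 0 < k.val ∧ k.val ≤ c then -b else 0

lemma val_add_one_cases (k : ZMod m) :
    (k.val + 1 < m ∧ (k + 1).val = k.val + 1) ∨ (k.val + 1 = m ∧ (k + 1).val = 0) := by
  have hlt := ZMod.val_lt k
  by_cases hk : k.val + 1 < m
  · left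
    refine ⟨hk, ?_⟩
    have hm : 1 < m := by omega
    have : Fact (1 < m) := ⟨hm⟩
    rw [ZMod.val_add_of_lt, ZMod.val_one]
    rw [ZMod.val_one]; exact hk
  · right
    have hkm : k.val + 1 = m := by omega
    refine ⟨hkm, ?_⟩
    have h1 : k + 1 = 0 := by
      have : ((k.val + 1 : ℕ) : ZMod m) = 0 := by rw [hkm]; exact ZMod.natCast_self m
      rwa [Nat.cast_add, ZMod.natCast_zmod_val, Nat.cast_one] at this
    rw [h1, ZMod.val_zero]

lemma val_add_cases (x y : ZMod m) :
    (x + y).val = x.val + y.val ∨ (x + y).val + m = x.val + y.val := by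
  by_cases h : x.val + y.val < m
  · left; exact ZMod.val_add_of_lt h
  · right; exact (ZMod.val_add_val_of_le (not_lt.1 h)).symm

/-- `(R - 1) (yc b c) = b δ_c - b δ_0` -/
lemma yc_add_one_sub (b : A) {c : ℕ} (hc : c < m) (k : ZMod m) :
    yc b c (k + 1) - yc b c k = (if k.val = c then b else 0) - (if k.val = 0 then b else 0) := by
  unfold yc
  have hlt := ZMod.val_lt k
  rcases val_add_one_cases k with ⟨h1, h2⟩ | ⟨h1, h2⟩
  · rw [h2]
    split_ifs <;> first | (exfalso; omega) | simp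
  · rw [h2]
    split_ifs <;> first | (exfalso; omega) | simp

omit [NeZero m] in
/-- the carry identity -/
lemma yc_carry (b : A) {j j' a c e t : ℕ} (hj : j < m) (hj' : j' < m) (ha : a < m) (hc : c < m)
    (he : e < m) (het : e + m * t = a + c) (hjj : j' + a = j ∨ j' + a = j + m) :
    t • (-b) = (if 0 < j' ∧ j' ≤ c then -b else 0) - (if 0 < j ∧ j ≤ e then -b else 0) +
      (if 0 < j ∧ j ≤ a then -b else 0) := by
  have ht : t = 0 ∨ t = 1 := by
    have : t < 2 := by
      by_contra h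
      have h2 : 2 ≤ t := not_lt.1 h
      have h3 : m * 2 ≤ m * t := Nat.mul_le_mul_left m h2
      omega
    omega
  rcases ht with rfl | rfl
  · rw [mul_zero] at het
    split_ifs <;> first | (exfalso; omega) | simp
  · rw [mul_one] at het
    split_ifs <;> first | (exfalso; omega) | simp

end cycset

end CycRes

variable (L : Levels H) (α : Representation ℤ H A) [Smooth L α]
variable {m : ℕ} [NeZero m] (χ : H →* Multiplicative (ZMod m)) (hχ : L.IsLevel₁ χ)

open CycRes in
/-- (F2d) -/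
theorem exists_cycCl_of_res_eq_zero (hs : Function.Surjective χ)
    (h90 : Z1 (L.sub χ.ker) (rsub α χ.ker) ≤ B1 (rsub α χ.ker))
    (x : H2 L α) (hx : (Pair.res L α χ.ker).map2 x = 0) :
    ∃ b : ↥(H0 α), x = cycCl L α χ hχ b := by
  classical
  have hsm : L.SmoothSet (CycSet χ) := smoothSet χ L hχ
  have htr : MulAction.IsPretransitive H (CycSet χ) := isPretransitive χ hs
  have hx0 : ∀ v, v ∈ χ.ker ↔ v • (show CycSet χ from (0 : ZMod m)) = (0 : ZMod m) :=
    fun v => mem_ker_iff_smul χ v _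
  -- step 1: `x` dies in `Fun`
  have h1 : (Pair.const α (CycSet χ) L).map2 x = 0 := by
    apply (ev_bijective2 L α (CycSet χ) χ.ker _ hx0).1
    rw [map_zero]
    have := LinearMap.congr_fun
      (ev_comp_const2 L α (CycSet χ) χ.ker _ (fun v hv => (hx0 v).1 hv)) x
    rw [LinearMap.comp_apply] at this
    rw [this, hx]
  -- step 2
  obtain ⟨u, hu⟩ := ((constSES α (CycSet χ)).exact_δ1_i2 L x).1 h1
  -- step 3
  have hsub : Subsingleton (H1 (L.sub χ.ker) (rsub α χ.ker)) := LAux.subsingleton_H1_of_le h90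
  have h3 : ((sesB χ α).iP L).map1 u = 0 :=
    (ev_bijective1 L α (CycSet χ) χ.ker _ hx0).1 (Subsingleton.elim _ _)
  obtain ⟨b, hb⟩ := ((sesB χ α).exact_δ0_i1 L u).1 h3
  refine ⟨-b, ?_⟩
  have hbinv : ∀ g, α g (b : A) = b := fun g => b.2 g
  -- the explicit cochain
  let y : H → (CycSet χ → A) := fun g => yc (b : A) (chv χ g)
  have hy : L.IsLevel₁ y :=
    hχ.comp (fun z => yc (m := m) (b : A) (Multiplicative.toAdd z).val)
  let β : CycSet χ → A := (Pi.single (0 : ZMod m) (b : A) : ZMod m → A)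
  have hβ : (sesB χ α).π β = b := by
    change sumMap ℤ A (CycSet χ) β = b
    rw [sumMap_apply]
    exact Fintype.sum_pi_single' (0 : ZMod m) (b : A)
  have hyinv : ∀ (g : H) (c : ℕ) (k : ZMod m), α g (yc (b : A) c k) = yc (b : A) c k := by
    intro g c k
    unfold yc
    split_ifs
    · rw [map_neg, hbinv]
    · rw [map_zero]
  -- `g⁻¹ • k + χ g = k`
  have hsm' : ∀ (g : H) (k : ZMod m),
      (show ZMod m from g⁻¹ • (show CycSet χ from k)) + Multiplicative.toAdd (χ g) = k := by
    intro g k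
    change (Multiplicative.toAdd (χ g⁻¹) + k) + Multiplicative.toAdd (χ g) = k
    rw [map_inv, toAdd_inv]
    abel
  have hz1 : ∀ g, (sesB χ α).i (Submodule.mkQ _ (y g)) = Fun α (CycSet χ) g β - β := by
    intro g
    funext k
    change yc (b : A) (chv χ g) ((show ZMod m from k) + 1) - yc (b : A) (chv χ g) k =
      α g ((Pi.single (0 : ZMod m) (b : A) : ZMod m → A) (g⁻¹ • k)) -
        (Pi.single (0 : ZMod m) (b : A) : ZMod m → A) k
    rw [yc_add_one_sub (b : A) (chv_lt χ g), Pi.single_apply, Pi.single_apply]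
    have e1 : (show ZMod m from g⁻¹ • k) = 0 ↔ (show ZMod m from k).val = chv χ g := by
      have h := hsm' g k
      constructor
      · intro h0
        rw [h0, zero_add] at h
        rw [← h]; rfl
      · intro h0
        have h4 : Multiplicative.toAdd (χ g) = (show ZMod m from k) :=
          (ZMod.val_injective m h0).symm
        rw [h4] at h
        exact add_eq_right.1 h
    have e2 : (show ZMod m from k) = 0 ↔ (show ZMod m from k).val = 0 :=
      (ZMod.val_eq_zero _).symm
    congr 1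
    · by_cases h0 : (show ZMod m from k).val = chv χ g
      · rw [if_pos h0, if_pos (e1.2 h0), hbinv]
      · rw [if_neg h0, if_neg (fun h => h0 (e1.1 h)), map_zero]
    · by_cases h0 : (show ZMod m from k).val = 0
      · rw [if_pos h0, if_pos (e2.2 h0)]
      · rw [if_neg h0, if_neg (fun h => h0 (e2.1 h))]
  let zb : ↥(Z1 L (cokerRep (constMap ℤ A (CycSet χ)) (constMap_comm α (CycSet χ)))) :=
    ⟨fun g => Submodule.mkQ _ (y g), (sesB χ α).mem_Z1_of_i_eq L hz1⟩
  have hu' : u = H1.mk L (cokerRep (constMap ℤ A (CycSet χ)) (constMap_comm α (CycSet χ))) zb := by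
    rw [← hb]
    exact (sesB χ α).δ0_eq L b β hβ zb hz1
  rw [← hu, hu']
  refine (constSES α (CycSet χ)).δ1_eq L zb y hy (fun g => rfl)
    ⟨cyc χ ((-b : ↥(H0 α)) : A), cyc_mem_Z2 L α χ hχ (-b)⟩ ?_
  intro g h
  funext k
  change ((chv χ g + chv χ h) / m) • (-(b : A)) =
    α g (yc (b : A) (chv χ h) (g⁻¹ • k)) - yc (b : A) (chv χ (g * h)) k + yc (b : A) (chv χ g) k
  rw [hyinv]
  refine yc_carry (m := m) (b : A) (ZMod.val_lt (show ZMod m from k))
    (ZMod.val_lt (show ZMod m from g⁻¹ • k)) (chv_lt χ g) (chv_lt χ h) (chv_lt χ (g * h))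
    (chv_mul χ g h) ?_
  have h5 := val_add_cases (show ZMod m from g⁻¹ • k) (Multiplicative.toAdd (χ g))
  rw [hsm' g k] at h5
  rcases h5 with h5 | h5
  · left; exact h5.symm
  · right; exact h5.symm

end Fermat.Agent.S55

end
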