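import Fermat.Agent.S55.L.Restrict

/-!
# S55 (L), F2 (Cyc), part a: characters, norms, cyclic classes; the coboundary criterion
TASK S55/L-Cyc.

`α : Representation ℤ H A` smooth, `χ : H →* Multiplicative (ZMod m)` a surjective level character
with kernel `N = χ.ker`.  `cyc χ b (g,h) = carry(g,h) • b`.  The norm `A^N → A^H` is
`cores0 L α N hN` (`cores0_coe`: `c ↦ ∑ᶠ x : H ⧸ N, α x.out c`).

* `cyc χ b` is a level 2-cocycle for `b ∈ A^H`.
* (F2c) `cyc χ b` is a coboundary iff `b` is a norm from `A^N` (needs Hilbert 90 for `N`).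
  DIRECT PROOF.  `σ` with `χ σ = 1`; `g` acts on `A^N` as `σ^(χ~ g)`.
  (⇐) `b = ∑_{j<m} σ^j c`: `cyc χ b = d1 y`, `y g = ∑_{j < χ~(g)} σ^j c`.
  (⇒) `cyc χ b = d1 y`; `carry = 0` on `N × N` so `y|N` is a cocycle `= d0 a`; replace `y` by
  `y - d0 a`: `y|N = 0`; then `d1 y (g,n) = 0`, `d1 y (n,g) = 0` give `y(gn) = y(g)`, `n y(g) = y(g)`;
  with `c = y σ`: `y(σ^i) = ∑_{j<i} σ^j c` for `i ≤ m-1` and `d1 y (σ^(m-1), σ) = b` gives `b = Nm c`.
* (H90 for the cyclic quotient) `c ∈ A^N`, `Nm c = 0` ⇒ `c = σ a - a` with `a ∈ A^N`: the cochain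
  `y g = ∑_{j < χ~(g)} σ^j c` is a level cocycle of `H`, `= d0 a` by Hilbert 90 for `H`.
-/

set_option autoImplicit false
set_option linter.unusedSectionVars false

noncomputable section

namespace Fermat.Agent.S55

variable {H : Type} [Group H] {L : Levels H} {A : Type} [AddCommGroup A]

section chars

variable {m : ℕ} [NeZero m] (χ : H →* Multiplicative (ZMod m))

lemma chv_lt (g : H) : chv χ g < m := ZMod.val_lt _

lemma chv_cast (g : H) : ((chv χ g : ℕ) : ZMod m) = Multiplicative.toAdd (χ g) := by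
  simp [chv]

/-- `χ~(gh) + m carry(g,h) = χ~(g) + χ~(h)`. -/
theorem chv_mul (g h : H) :
    chv χ (g * h) + m * ((chv χ g + chv χ h) / m) = chv χ g + chv χ h := by
  have h1 : chv χ (g * h) = (chv χ g + chv χ h) % m := by
    simp only [chv, map_mul, toAdd_mul, ZMod.val_add]
  rw [h1]
  exact Nat.mod_add_div _ _

theorem chv_eq_zero_iff (g : H) : chv χ g = 0 ↔ g ∈ χ.ker := by
  rw [chv, ZMod.val_eq_zero, MonoidHom.mem_ker, toAdd_eq_zero]

theorem isOpen_ker_of_isLevel (hχ : L.IsLevel₁ χ) : L.IsOpen χ.ker :=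
  (Levels.isLevel₁_monoidHom_iff χ).1 hχ

theorem index_ker_of_surjective (hs : Function.Surjective χ) : χ.ker.index = m := by
  rw [Subgroup.index_ker, MonoidHom.range_eq_top.mpr hs, Nat.card_congr Subgroup.topEquiv.toEquiv,
    Nat.card_congr Multiplicative.toAdd, Nat.card_zmod]

lemma Cyc.map_pow (σ : H) (hσ : χ σ = Multiplicative.ofAdd 1) (i : ℕ) :
    χ (σ ^ i) = Multiplicative.ofAdd (i : ZMod m) := by
  rw [_root_.map_pow, hσ, ← ofAdd_nsmul, nsmul_eq_mul, mul_one]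

lemma Cyc.chv_pow (σ : H) (hσ : χ σ = Multiplicative.ofAdd 1) (i : ℕ) (hi : i < m) :
    chv χ (σ ^ i) = i := by
  rw [chv, Cyc.map_pow χ σ hσ, toAdd_ofAdd, ZMod.val_natCast_of_lt hi]

/-- if `χ g = i` then `g ∈ σ^i N`. -/
lemma Cyc.exists_eq_pow_mul' (σ : H) (hσ : χ σ = Multiplicative.ofAdd 1) (g : H) (i : ℕ)
    (hi : χ g = Multiplicative.ofAdd (i : ZMod m)) : ∃ n ∈ χ.ker, g = σ ^ i * n := by
  refine ⟨(σ ^ i)⁻¹ * g, ?_, by group⟩
  rw [MonoidHom.mem_ker, map_mul, map_inv, Cyc.map_pow χ σ hσ, hi, inv_mul_cancel]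

/-- `g ∈ σ^(χ~ g) N`. -/
theorem exists_eq_pow_mul (σ : H) (hσ : χ σ = Multiplicative.ofAdd 1) (g : H) :
    ∃ n ∈ χ.ker, g = σ ^ chv χ g * n :=
  Cyc.exists_eq_pow_mul' χ σ hσ g _ (by rw [chv_cast]; rfl)

end chars

/-- every normal open subgroup of prime index is the kernel of a surjective level character. -/
theorem exists_char_of_index_prime {p : ℕ} [Fact p.Prime] (N : Subgroup H) [N.Normal]
    (hN : L.IsOpen N) (hidx : N.index = p) :
    ∃ χ : H →* Multiplicative (ZMod p), L.IsLevel₁ χ ∧ Function.Surjective χ ∧ χ.ker = N := by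
  subst hidx
  have hcyc : IsCyclic (H ⧸ N) := isCyclic_of_prime_card (p := N.index) rfl
  let e : Multiplicative (ZMod N.index) ≃* H ⧸ N := zmodCyclicMulEquiv hcyc
  let χ : H →* Multiplicative (ZMod N.index) := e.symm.toMonoidHom.comp (QuotientGroup.mk' N)
  have hker : χ.ker = N := by
    ext x
    rw [MonoidHom.mem_ker]
    show e.symm (QuotientGroup.mk' N x) = 1 ↔ _
    rw [EmbeddingLike.map_eq_one_iff, QuotientGroup.mk'_apply, QuotientGroup.eq_one_iff]
  refine ⟨χ, (Levels.isLevel₁_monoidHom_iff χ).2 (by rw [hker]; exact hN), ?_, hker⟩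
  exact e.symm.surjective.comp (QuotientGroup.mk'_surjective N)

/-- a nontrivial character to `ℤ/p` is surjective. -/
theorem surjective_of_ne_one {p : ℕ} [Fact p.Prime] (χ : H →* Multiplicative (ZMod p))
    (h : χ ≠ 1) : Function.Surjective χ := by
  have hcard : Nat.card (Multiplicative (ZMod p)) = p := by
    rw [Nat.card_congr Multiplicative.toAdd, Nat.card_zmod]
  have : Fact (Nat.card (Multiplicative (ZMod p))).Prime := ⟨by rw [hcard]; exact Fact.out⟩
  rcases Subgroup.eq_bot_or_eq_top_of_prime_card χ.range with h1 | h1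
  · exfalso
    apply h
    ext1 g
    have : χ g ∈ χ.range := ⟨g, rfl⟩
    rw [h1, Subgroup.mem_bot] at this
    simpa using this
  · exact MonoidHom.range_eq_top.mp h1

variable (L) (α : Representation ℤ H A) [Smooth L α]

/-- the group of norms from `A^N`. -/
def normSub (N : Subgroup H) (hN : L.IsOpen N) : Submodule ℤ ↥(H0 α) :=
  LinearMap.range (cores0 L α N hN)

variable {m : ℕ} [NeZero m] (χ : H →* Multiplicative (ZMod m)) (hχ : L.IsLevel₁ χ)

namespace Cyc

omit [Smooth L α] in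
/-- `g` acts on `c ∈ A^N` as `σ^i` if `χ g = i`. -/
lemma act_eq (σ : H) (hσ : χ σ = Multiplicative.ofAdd 1) (c : ↥(H0 (rsub α χ.ker))) (g : H)
    (i : ℕ) (hi : χ g = Multiplicative.ofAdd (i : ZMod m)) :
    α g (c : A) = α (σ ^ i) (c : A) := by
  obtain ⟨n, hn, rfl⟩ := exists_eq_pow_mul' χ σ hσ g i hi
  rw [map_mul, Module.End.mul_apply]
  congr 1
  exact c.2 ⟨n, hn⟩

omit [Smooth L α] in
lemma act_act (σ : H) (hσ : χ σ = Multiplicative.ofAdd 1) (c : ↥(H0 (rsub α χ.ker))) (g : H)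
    (j : ℕ) : α g (α (σ ^ j) (c : A)) = α (σ ^ (chv χ g + j)) (c : A) := by
  rw [← Module.End.mul_apply, ← map_mul]
  refine act_eq α χ σ hσ c _ _ ?_
  rw [map_mul, map_pow χ σ hσ, Nat.cast_add, chv_cast, ofAdd_add, ofAdd_toAdd]

omit [Smooth L α] in
lemma act_add_m (σ : H) (hσ : χ σ = Multiplicative.ofAdd 1) (c : ↥(H0 (rsub α χ.ker)))
    (j : ℕ) : α (σ ^ (m + j)) (c : A) = α (σ ^ j) (c : A) := by
  refine act_eq α χ σ hσ c _ _ ?_
  rw [map_pow χ σ hσ, Nat.cast_add, ZMod.natCast_self, zero_add]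

/-- partial sums `∑_{j<i} σ^j c`. -/
def psum (σ : H) (c : A) (i : ℕ) : A := ∑ j ∈ Finset.range i, α (σ ^ j) c

omit [Smooth L α] in
lemma psum_add_mul (σ : H) (hσ : χ σ = Multiplicative.ofAdd 1) (c : ↥(H0 (rsub α χ.ker)))
    (r q : ℕ) : psum α σ (c : A) (r + m * q) = psum α σ (c : A) r + q • psum α σ (c : A) m := by
  induction q with
  | zero => simp
  | succ q ih =>
    have e : r + m * (q + 1) = m + (r + m * q) := by ring
    rw [e, psum, Finset.sum_range_add]
    simp only [act_add_m α χ σ hσ c]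
    change psum α σ (c : A) m + psum α σ (c : A) (r + m * q) = _
    rw [ih, succ_nsmul]
    abel

omit [Smooth L α] in
/-- the key identity: `g y(h) + y(g) = y(gh) + carry(g,h) Nm c` for `y g = ∑_{j<χ~ g} σ^j c`. -/
lemma psum_cocycle (σ : H) (hσ : χ σ = Multiplicative.ofAdd 1) (c : ↥(H0 (rsub α χ.ker)))
    (g h : H) :
    α g (psum α σ (c : A) (chv χ h)) + psum α σ (c : A) (chv χ g) =
      psum α σ (c : A) (chv χ (g * h)) + ((chv χ g + chv χ h) / m) • psum α σ (c : A) m := by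
  rw [← psum_add_mul α χ σ hσ c, chv_mul]
  conv_rhs => rw [psum, Finset.sum_range_add]
  rw [add_comm]
  congr 1
  rw [psum, map_sum]
  exact Finset.sum_congr rfl fun j _ => act_act α χ σ hσ c g j

omit [Smooth L α] in
include hχ in
lemma psum_isLevel (σ : H) (c : A) : L.IsLevel₁ (fun g => psum α σ c (chv χ g)) :=
  hχ.comp (fun t => psum α σ c (Multiplicative.toAdd t).val)

end Cyc

/-- the norm in cyclic form. -/
theorem cores0_cyclic (hs : Function.Surjective χ) (σ : H) (hσ : χ σ = Multiplicative.ofAdd 1)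
    (c : ↥(H0 (rsub α χ.ker))) :
    ((cores0 L α χ.ker (isOpen_ker_of_isLevel χ hχ) c : ↥(H0 α)) : A) =
      ∑ i ∈ Finset.range m, α (σ ^ i) (c : A) := by
  have := L.finite_quotient (isOpen_ker_of_isLevel χ hχ)
  let _ := Fintype.ofFinite (H ⧸ χ.ker)
  rw [cores0_coe, finsum_eq_sum_of_fintype]
  have hF : ∀ g : H, α ((g : H ⧸ χ.ker)).out (c : A) = α g (c : A) := fun g => by
    obtain ⟨u, hu⟩ := QuotientGroup.mk_out_eq_mul χ.ker g
    rw [hu, map_mul, Module.End.mul_apply]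
    congr 1
    exact c.2 u
  symm
  refine Finset.sum_nbij (fun i => ((σ ^ i : H) : H ⧸ χ.ker)) (fun _ _ => Finset.mem_univ _)
    ?_ ?_ (fun i _ => (hF _).symm)
  · intro i hi j hj hij
    have hi' : i < m := Finset.mem_range.mp hi
    have hj' : j < m := Finset.mem_range.mp hj
    have h1 : (σ ^ i)⁻¹ * σ ^ j ∈ χ.ker := QuotientGroup.eq.mp hij
    rw [MonoidHom.mem_ker, map_mul, map_inv, inv_mul_eq_one] at h1
    rw [← Cyc.chv_pow χ σ hσ i hi', ← Cyc.chv_pow χ σ hσ j hj', chv, chv, h1]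
  · intro q _
    obtain ⟨g, rfl⟩ := QuotientGroup.mk_surjective q
    obtain ⟨n, hn, hg⟩ := exists_eq_pow_mul χ σ hσ g
    refine ⟨chv χ g, Finset.mem_coe.mpr (Finset.mem_range.mpr (chv_lt χ g)), ?_⟩
    show ((σ ^ chv χ g : H) : H ⧸ χ.ker) = (g : H ⧸ χ.ker)
    rw [QuotientGroup.eq, inv_mul_eq_iff_eq_mul.mpr hg]
    exact hn

include hχ in
theorem cyc_mem_Z2 (b : ↥(H0 α)) : cyc χ (b : A) ∈ Z2 L α := by
  rw [mem_Z2]
  refine ⟨fun g h j => ?_, ?_⟩
  · simp only [cyc_apply, map_nsmul, b.2 g, ← add_nsmul]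
    congr 1
    have h1 := chv_mul χ h j
    have h2 := chv_mul χ g (h * j)
    have h3 := chv_mul χ g h
    have h4 := chv_mul χ (g * h) j
    rw [mul_assoc] at h4
    have hm : 0 < m := Nat.pos_of_ne_zero (NeZero.ne m)
    apply Nat.eq_of_mul_eq_mul_left hm
    rw [mul_add, mul_add]
    omega
  · obtain ⟨U, hU, h⟩ := hχ
    exact ⟨U, hU, fun g g' s hs s' hs' => by simp only [cyc_apply, chv, h g s hs, h g' s' hs']⟩

/-- the class of the cyclic cocycle. -/
def cycCl (b : ↥(H0 α)) : H2 L α := H2.mk L α ⟨cyc χ (b : A), cyc_mem_Z2 L α χ hχ b⟩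

theorem cycCl_add (b b' : ↥(H0 α)) :
    cycCl L α χ hχ (b + b') = cycCl L α χ hχ b + cycCl L α χ hχ b' := by
  rw [cycCl, cycCl, cycCl, ← map_add]
  congr 1
  apply Subtype.ext
  funext g
  simp

theorem cycCl_neg (b : ↥(H0 α)) : cycCl L α χ hχ (-b) = - cycCl L α χ hχ b := by
  rw [cycCl, cycCl, ← map_neg]
  congr 1
  apply Subtype.ext
  funext g
  simp

/-- `m • ⟨χ,b⟩ = 0`  (`m • b` is the norm of `b`; or `m • cyc χ b = d1 (g ↦ χ~(g) • b)`). -/
theorem smul_cycCl (b : ↥(H0 α)) : m • cycCl L α χ hχ b = 0 := by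
  rw [cycCl, ← map_nsmul, H2.mk_eq_zero_iff]
  refine ⟨fun g => chv χ g • (b : A), hχ.comp (fun t => (Multiplicative.toAdd t).val • (b : A)),
    fun g h => ?_⟩
  have e : (m * ((chv χ g + chv χ h) / m)) • (b : A) + chv χ (g * h) • (b : A) =
      chv χ h • (b : A) + chv χ g • (b : A) := by
    rw [← add_nsmul, ← add_nsmul]
    congr 1
    have := chv_mul χ g h
    omega
  show m • cyc χ (b : A) (g, h) = α g (chv χ h • (b : A)) - chv χ (g * h) • (b : A)
    + chv χ g • (b : A)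
  rw [cyc_apply, map_nsmul, b.2 g, smul_smul, eq_sub_of_add_eq e]
  abel

/-- (F2c) -/
theorem cycCl_eq_zero_iff (hs : Function.Surjective χ)
    (h90 : Z1 (L.sub χ.ker) (rsub α χ.ker) ≤ B1 (rsub α χ.ker)) (b : ↥(H0 α)) :
    cycCl L α χ hχ b = 0 ↔ b ∈ normSub L α χ.ker (isOpen_ker_of_isLevel χ hχ) := by
  obtain ⟨σ, hσ⟩ := hs (Multiplicative.ofAdd 1)
  have hm : 0 < m := Nat.pos_of_ne_zero (NeZero.ne m)
  constructor
  · intro h0
    rw [cycCl, H2.mk_eq_zero_iff] at h0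
    obtain ⟨y, hy, hyE⟩ := h0
    replace hyE : ∀ g h, cyc χ (b : A) (g, h) = α g (y h) - y (g * h) + y g := hyE
    rcases Nat.lt_or_ge 1 m with hm1 | hm1
    swap
    · -- `m = 1`: the norm is the identity
      have hm' : m = 1 := by omega
      subst hm'
      refine ⟨⟨(b : A), fun n => b.2 n⟩, Subtype.ext ?_⟩
      rw [cores0_cyclic L α χ hχ hs σ hσ]
      simp
    have hcar0 : ∀ g h : H, chv χ g + chv χ h < m → cyc χ (b : A) (g, h) = 0 := fun g h hlt => by
      rw [cyc_apply, Nat.div_eq_of_lt hlt, zero_smul]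
    have hker0 : ∀ n ∈ χ.ker, chv χ n = 0 := fun n hn => (chv_eq_zero_iff χ n).mpr hn
    -- `y` restricted to `N` is a cocycle, hence a coboundary
    have hz : (fun n : χ.ker => y n) ∈ Z1 (L.sub χ.ker) (rsub α χ.ker) := by
      rw [mem_Z1]
      refine ⟨fun n n' => ?_, (Pair.res L α χ.ker).c1_isLevel hy⟩
      have h1 := hyE n n'
      rw [hcar0 _ _ (by rw [hker0 _ n.2, hker0 _ n'.2]; exact hm)] at h1
      show y ((n : H) * (n' : H)) = α (n : H) (y n') + y n
      rw [← sub_eq_zero, ← neg_eq_zero, h1]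
      abel
    obtain ⟨a, ha⟩ := mem_B1.mp (h90 hz)
    replace ha : ∀ n ∈ χ.ker, y n = α n a - a := fun n hn => ha ⟨n, hn⟩
    -- normalise
    let y' : H → A := fun g => y g - (α g a - a)
    have hy'E : ∀ g h, cyc χ (b : A) (g, h) = α g (y' h) - y' (g * h) + y' g := fun g h => by
      rw [hyE]
      simp only [y', map_sub, map_mul, Module.End.mul_apply]
      abel
    have hy'N : ∀ n ∈ χ.ker, y' n = 0 := fun n hn => by
      simp only [y', ha n hn, sub_self]
    have hy'r : ∀ g, ∀ n ∈ χ.ker, y' (g * n) = y' g := fun g n hn => by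
      have h1 := hy'E g n
      rw [hcar0 _ _ (by rw [hker0 _ hn, add_zero]; exact chv_lt χ g), hy'N n hn, map_zero,
        zero_sub] at h1
      exact (neg_add_eq_zero.mp h1.symm)
    have hy'f : ∀ g, ∀ n ∈ χ.ker, α n (y' g) = y' g := fun g n hn => by
      have h1 := hy'E n g
      have h2 : y' (n * g) = y' g := by
        have e : n * g = g * (g⁻¹ * n * g) := by group
        rw [e]
        refine hy'r g _ ?_
        have := (inferInstance : χ.ker.Normal).conj_mem n hn g⁻¹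
        simpa using this
      rw [hcar0 _ _ (by rw [hker0 _ hn, zero_add]; exact chv_lt χ g), hy'N n hn, add_zero, h2] at h1
      exact (sub_eq_zero.mp h1.symm)
    let c : ↥(H0 (rsub α χ.ker)) := ⟨y' σ, fun n => hy'f σ n n.2⟩
    have hσ1 : chv χ σ = 1 := by
      have := Cyc.chv_pow χ σ hσ 1 hm1
      rwa [pow_one] at this
    have hind : ∀ i, i < m → y' (σ ^ i) = Cyc.psum α σ (c : A) i := by
      intro i
      induction i with
      | zero => intro _; rw [pow_zero, hy'N 1 χ.ker.one_mem]; simp [Cyc.psum]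
      | succ i ih =>
        intro hi
        have h1 := hy'E (σ ^ i) σ
        rw [hcar0 _ _ (by rw [Cyc.chv_pow χ σ hσ i (by omega), hσ1]; exact hi), ← pow_succ,
          ih (by omega)] at h1
        rw [Cyc.psum, Finset.sum_range_succ]
        change _ = Cyc.psum α σ (c : A) i + α (σ ^ i) (y' σ)
        rw [← sub_eq_zero, ← neg_eq_zero, h1]
        abel
    have hfin : (b : A) = Cyc.psum α σ (c : A) m := by
      obtain ⟨i, rfl⟩ : ∃ i, m = i + 1 := ⟨m - 1, by omega⟩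
      have h1 := hy'E (σ ^ i) σ
      have hmem : σ ^ (i + 1) ∈ χ.ker := by
        rw [MonoidHom.mem_ker, Cyc.map_pow χ σ hσ, ZMod.natCast_self]; rfl
      rw [cyc_apply, Cyc.chv_pow χ σ hσ i (by omega), hσ1, Nat.div_self hm, one_smul, ← pow_succ,
        hy'N _ hmem, hind i (by omega), sub_zero] at h1
      rw [Cyc.psum, Finset.sum_range_succ, h1, add_comm]
      rfl
    refine ⟨c, Subtype.ext ?_⟩
    rw [cores0_cyclic L α χ hχ hs σ hσ, hfin]
    rfl
  · rintro ⟨c, rfl⟩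
    rw [cycCl, H2.mk_eq_zero_iff]
    refine ⟨fun g => Cyc.psum α σ (c : A) (chv χ g), Cyc.psum_isLevel L α χ hχ σ _, fun g h => ?_⟩
    show cyc χ _ (g, h) = _
    rw [cyc_apply, cores0_cyclic L α χ hχ hs σ hσ c]
    have := Cyc.psum_cocycle α χ σ hσ c g h
    change _ = _ + _ • ∑ i ∈ Finset.range m, α (σ ^ i) (c : A) at this
    rw [sub_add_eq_add_sub, this]
    abel

/-- Hilbert 90 for the cyclic quotient. -/
theorem exists_sub_of_norm_eq_zero (hs : Function.Surjective χ) (h90 : Z1 L α ≤ B1 α)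
    (σ : H) (hσ : χ σ = Multiplicative.ofAdd 1) (c : ↥(H0 (rsub α χ.ker)))
    (hc : cores0 L α χ.ker (isOpen_ker_of_isLevel χ hχ) c = 0) :
    ∃ a : ↥(H0 (rsub α χ.ker)), (c : A) = α σ (a : A) - a := by
  have hN0 : Cyc.psum α σ (c : A) m = 0 := by
    have := cores0_cyclic L α χ hχ hs σ hσ c
    rw [hc] at this
    exact this.symm
  have hm : 0 < m := Nat.pos_of_ne_zero (NeZero.ne m)
  rcases Nat.lt_or_ge 1 m with hm1 | hm1
  · have hz : (fun g => Cyc.psum α σ (c : A) (chv χ g)) ∈ Z1 L α := by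
      rw [mem_Z1]
      refine ⟨fun g h => ?_, Cyc.psum_isLevel L α χ hχ σ _⟩
      have := Cyc.psum_cocycle α χ σ hσ c g h
      rw [hN0, smul_zero, add_zero] at this
      exact this.symm
    obtain ⟨a, ha⟩ := mem_B1.mp (h90 hz)
    refine ⟨⟨a, fun n => ?_⟩, ?_⟩
    · have h1 := ha n
      rw [(chv_eq_zero_iff χ _).mpr n.2] at h1
      simp only [Cyc.psum, Finset.range_zero, Finset.sum_empty] at h1
      exact (sub_eq_zero.mp h1.symm)
    · have h1 := ha σ
      have h2 : chv χ σ = 1 := by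
        have := Cyc.chv_pow χ σ hσ 1 hm1
        rwa [pow_one] at this
      rw [h2] at h1
      simpa [Cyc.psum] using h1
  · have hm' : m = 1 := by omega
    subst hm'
    refine ⟨0, ?_⟩
    simpa [Cyc.psum] using hN0

/-- the restriction of a cyclic class to the kernel of the character vanishes. -/
theorem res_cycCl (b : ↥(H0 α)) : (Pair.res L α χ.ker).map2 (cycCl L α χ hχ b) = 0 := by
  rw [cycCl, Pair.map2_mk]
  have : (Pair.res L α χ.ker).z2 ⟨cyc χ (b : A), cyc_mem_Z2 L α χ hχ b⟩ = 0 := by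
    apply Subtype.ext
    funext g
    show cyc χ (b : A) ((g.1 : H), (g.2 : H)) = 0
    rw [cyc_apply, (chv_eq_zero_iff χ _).mpr g.1.2, (chv_eq_zero_iff χ _).mpr g.2.2]
    simp
  rw [this, map_zero]

end Fermat.Agent.S55

end
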