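import Fermat.Agent.S55.L.Index

/-!
# S55 (L), ALG1: the Herbrand (Chevalley) lemma for a cyclic group of prime order

`σ` an automorphism of order dividing `p` of an abelian group `B`; `Nm = 1 + σ + ⋯ + σ^(p-1)`.
`q(X) = [X : pX] / #X[p]`,  `h(B) = [B^σ : Nm B] / [ker Nm : (σ-1)B]`.
If `q(B)` and `q(B^σ)` are defined then `h(B)` is defined and `h(B)^(p-1) = q(B^σ)^p / q(B)`.

PROOF. `M := (σ-1)B`, `0 → B^σ → B → M → 0`.  `q` is multiplicative (`Ind.index_ses` for
multiplication by `p`), so `q(M)` is defined and `q(B) = q(B^σ) q(M)`.  On `M` we have `Nm = 0`,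
hence `p = ∏_{i=1}^{p-1} (1 - σ^i)` on `M` (evaluate `∏ (X - ζ^i) = 1 + X + ⋯ + X^(p-1)`, i.e. the
polynomial identity `∏_{i=1}^{p-1} (1 - X^i) ≡ p  mod (1 + X + ⋯ + X^(p-1))` in `ℤ[X]`), and
`1 - σ^i` has the same kernel and range as `1 - σ` (`1 - σ^i = (1-σ)(1+σ+⋯)`, and
`1 - σ = 1 - (σ^i)^j` for `i j ≡ 1 mod p`).  `(1-σ)M ⊇ pM` and `ker(1-σ|M) ⊆ M[p]` so `1 - σ` has an
index `r` on `M`, and `q(M) = r^(p-1)` by `Ind.index_comp`.  Finally
`[B^σ : Nm B] = [B^σ : pB^σ] / [Nm B : pB^σ]`, `Nm B / p B^σ ≅ B / (B^σ + ker Nm)`,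
`ker Nm / (σ-1)B`, ... : `h(B) = q(B^σ) / r` (this is multiplicativity of the Herbrand quotient;
direct proof: `h(B^σ) = q(B^σ)`, `h(M) = 1/r`).
-/

set_option autoImplicit false

namespace Fermat.Agent.S55
namespace Herbrand

open Finset Polynomial

/-- `∏_{i=1}^{p-1} (1 - X^i) ≡ p mod (1 + X + ⋯ + X^(p-1))`. -/
theorem poly_id (p : ℕ) [hp : Fact p.Prime] :
    ∃ Q : ℤ[X], ∏ i ∈ range (p - 1), (1 - X ^ (i + 1) : ℤ[X]) =
      C (p : ℤ) + Q * ∑ i ∈ range p, X ^ i := by
  obtain ⟨n, rfl⟩ : ∃ n, p = n + 1 := ⟨p - 1, (Nat.succ_pred_eq_of_pos hp.out.pos).symm⟩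
  have hζ : IsPrimitiveRoot (Complex.exp (2 * Real.pi * Complex.I / ((n + 1 : ℕ) : ℂ))) (n + 1) :=
    Complex.isPrimitiveRoot_exp (n + 1) (Nat.succ_ne_zero n)
  set ζ := Complex.exp (2 * Real.pi * Complex.I / ((n + 1 : ℕ) : ℂ)) with hζdef
  have h1 : aeval ζ (∏ i ∈ range n, (1 - X ^ (i + 1) : ℤ[X]) - C ((n + 1 : ℕ) : ℤ)) = 0 := by
    have := hζ.prod_one_sub_pow_eq_order
    simp [map_prod, this]
  have h2 : minpoly ℤ ζ ∣ (∏ i ∈ range n, (1 - X ^ (i + 1) : ℤ[X]) - C ((n + 1 : ℕ) : ℤ)) :=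
    minpoly.isIntegrallyClosed_dvd (hζ.isIntegral (Nat.succ_pos n)) h1
  rw [← cyclotomic_eq_minpoly hζ (Nat.succ_pos n), cyclotomic_prime] at h2
  obtain ⟨Q, hQ⟩ := h2
  refine ⟨Q, ?_⟩
  simp only [Nat.add_sub_cancel]
  rw [sub_eq_iff_eq_add] at hQ
  rw [hQ]; ring

variable {M : Type} [AddCommGroup M]

theorem ker_one_sub_le (x : AddMonoid.End M) (n : ℕ) :
    AddMonoidHom.ker (1 - x : AddMonoid.End M) ≤ AddMonoidHom.ker (1 - x ^ n : AddMonoid.End M) := by
  intro m hm
  have hm' : (1 - x : AddMonoid.End M) m = 0 := hm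
  change (1 - x ^ n : AddMonoid.End M) m = 0
  rw [← geom_sum_mul_neg x n]
  change (∑ i ∈ range n, x ^ i : AddMonoid.End M) ((1 - x : AddMonoid.End M) m) = 0
  rw [hm', map_zero]

theorem range_one_sub_pow_le (x : AddMonoid.End M) (n : ℕ) :
    AddMonoidHom.range (1 - x ^ n : AddMonoid.End M) ≤ AddMonoidHom.range (1 - x : AddMonoid.End M) := by
  rintro _ ⟨m, rfl⟩
  rw [← mul_neg_geom_sum x n]
  exact ⟨_, rfl⟩

theorem ker_range_eq (p : ℕ) [hp : Fact p.Prime] (s : AddMonoid.End M) (hs : s ^ p = 1) (i : ℕ)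
    (hi : ¬ p ∣ i) :
    AddMonoidHom.ker (1 - s ^ i : AddMonoid.End M) = AddMonoidHom.ker (1 - s : AddMonoid.End M) ∧
    AddMonoidHom.range (1 - s ^ i : AddMonoid.End M) =
      AddMonoidHom.range (1 - s : AddMonoid.End M) := by
  have hcop : Nat.Coprime i p := ((Nat.Prime.coprime_iff_not_dvd hp.out).2 hi).symm
  obtain ⟨j, hj⟩ : ∃ j, i * j ≡ 1 [MOD p] := Nat.exists_mul_mod_eq_one_of_coprime hcop hp.out.one_lt |>.imp
    (fun j hj => by
      have : 1 % p = 1 := Nat.mod_eq_of_lt hp.out.one_lt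
      unfold Nat.ModEq; rw [hj.2, this])
  have hsj : (s ^ i) ^ j = s := by
    rw [← pow_mul]
    have h1 : s ^ (i * j) = s ^ ((i * j) % p) := by
      conv_lhs => rw [← Nat.div_add_mod (i * j) p, pow_add, pow_mul, hs, one_pow, one_mul]
    rw [h1, hj, Nat.mod_eq_of_lt hp.out.one_lt, pow_one]
  constructor
  · apply le_antisymm
    · have := ker_one_sub_le (s ^ i) j
      rwa [hsj] at this
    · exact ker_one_sub_le s i
  · apply le_antisymm
    · exact range_one_sub_pow_le s i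
    · have := range_one_sub_pow_le (s ^ i) j
      rwa [hsj] at this

theorem fred_prod_aux (p : ℕ) [hp : Fact p.Prime] (s : AddMonoid.End M) (hs : s ^ p = 1)
    (h : Ind.Fred (1 - s : AddMonoid.End M)) (n : ℕ) (hn : n < p) :
    ∃ f : M →+ M, f = (aeval s (∏ i ∈ range n, (1 - X ^ (i + 1) : ℤ[X])) : AddMonoid.End M) ∧
      Ind.Fred f ∧
      f.range.index * Nat.card (AddMonoidHom.ker (1 - s : AddMonoid.End M)) ^ n =
        (AddMonoidHom.range (1 - s : AddMonoid.End M)).index ^ n * Nat.card f.ker := by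
  induction n with
  | zero =>
    have hr : (AddMonoidHom.id M).range = ⊤ :=
      AddMonoidHom.range_eq_top.2 (fun x => ⟨x, rfl⟩)
    have hk : (AddMonoidHom.id M).ker = ⊥ :=
      (AddMonoidHom.ker_eq_bot_iff _).2 (fun x y hxy => hxy)
    refine ⟨AddMonoidHom.id M, ?_, ?_, ?_⟩
    · simp only [range_zero, prod_empty, map_one]; rfl
    · unfold Ind.Fred
      rw [hr, hk]; simp
    · rw [hr, hk]; simp
  | succ n ih =>
    obtain ⟨f, hf, hF, hI⟩ := ih (by omega)
    have hg := ker_range_eq p s hs (n + 1)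
      (by intro hd; exact absurd (Nat.le_of_dvd (Nat.succ_pos n) hd) (by omega))
    obtain ⟨g, hgdef⟩ : ∃ g : M →+ M, g = (1 - s ^ (n + 1) : AddMonoid.End M) := ⟨_, rfl⟩
    rw [← hgdef] at hg
    have hG : Ind.Fred g := Ind.fred_congr hg.1.symm hg.2.symm h
    refine ⟨f.comp g, ?_, Ind.fred_comp hF hG, ?_⟩
    · rw [prod_range_succ, map_mul, ← hf]
      simp only [map_sub, map_one, map_pow, aeval_X]
      rw [← hgdef]; rfl
    · have h1 := Ind.index_comp hF hG
      rw [hg.1, hg.2] at h1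
      have hkf : Nat.card f.ker ≠ 0 := hF.2
      apply Nat.eq_of_mul_eq_mul_right (Nat.pos_of_ne_zero hkf)
      generalize Nat.card (AddMonoidHom.ker (1 - s : AddMonoid.End M)) = k at *
      generalize (AddMonoidHom.range (1 - s : AddMonoid.End M)).index = c at *
      generalize (f.comp g).range.index = cfg at *
      generalize Nat.card (f.comp g).ker = kfg at *
      generalize f.range.index = cf at *
      generalize Nat.card f.ker = kf at *
      calc cfg * k ^ (n + 1) * kf = (cfg * (kf * k)) * k ^ n := by ring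
        _ = (cf * k ^ n) * c * kfg := by rw [h1]; ring
        _ = c ^ (n + 1) * kfg * kf := by rw [hI]; ring

theorem fred_one_sub (p : ℕ) (s : AddMonoid.End M) (hN : ∑ i ∈ range p, s ^ i = 0)
    (h : Ind.Fred (nsmulAddMonoidHom (α := M) p)) : Ind.Fred (1 - s : AddMonoid.End M) := by
  constructor
  · have hle : (nsmulAddMonoidHom (α := M) p).range ≤
        AddMonoidHom.range (1 - s : AddMonoid.End M) := by
      rintro _ ⟨m, rfl⟩
      have h1 : (∑ i ∈ range p, (1 - s ^ i) : AddMonoid.End M) = (p : AddMonoid.End M) := by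
        rw [sum_sub_distrib, hN]; simp
      have h2 : nsmulAddMonoidHom (α := M) p m = ∑ i ∈ range p, (1 - s ^ i : AddMonoid.End M) m := by
        have : (p : AddMonoid.End M) m = p • m := AddMonoid.End.natCast_apply p m
        rw [nsmulAddMonoidHom_apply, ← this, ← h1]
        exact AddMonoidHom.finsetSum_apply _ _ _
      rw [h2]
      exact sum_mem (fun i _ => range_one_sub_pow_le s i ⟨m, rfl⟩)
    exact ne_zero_of_dvd_ne_zero h.1 (AddSubgroup.index_dvd_of_le hle)
  · have hle : AddMonoidHom.ker (1 - s : AddMonoid.End M) ≤ (nsmulAddMonoidHom (α := M) p).ker := by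
      intro m hm
      have h0 : ∀ i, (s ^ i : AddMonoid.End M) m = m := by
        intro i
        have : (1 - s ^ i : AddMonoid.End M) m = 0 := ker_one_sub_le s i hm
        have h3 : (1 - s ^ i : AddMonoid.End M) m = m - (s ^ i : AddMonoid.End M) m := rfl
        rw [h3, sub_eq_zero] at this
        exact this.symm
      have h1 : (∑ i ∈ range p, s ^ i : AddMonoid.End M) m = ∑ i ∈ range p, (s ^ i : AddMonoid.End M) m :=
        AddMonoidHom.finsetSum_apply _ _ _
      rw [hN] at h1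
      simp only [h0, sum_const, card_range] at h1
      change p • m = 0
      rw [← h1]; rfl
    exact ne_zero_of_dvd_ne_zero h.2 (AddSubgroup.card_dvd_of_le hle)

theorem index_mulP (p : ℕ) [hp : Fact p.Prime] (s : AddMonoid.End M) (hs : s ^ p = 1)
    (hN : ∑ i ∈ range p, s ^ i = 0) (h : Ind.Fred (1 - s : AddMonoid.End M)) :
    (nsmulAddMonoidHom (α := M) p).range.index *
        Nat.card (AddMonoidHom.ker (1 - s : AddMonoid.End M)) ^ (p - 1) =
      (AddMonoidHom.range (1 - s : AddMonoid.End M)).index ^ (p - 1) *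
        Nat.card (nsmulAddMonoidHom (α := M) p).ker := by
  obtain ⟨f, hf, -, hI⟩ := fred_prod_aux p s hs h (p - 1) (Nat.sub_lt hp.out.pos one_pos)
  obtain ⟨Q, hQ⟩ := poly_id p
  have hfp : f = nsmulAddMonoidHom (α := M) p := by
    rw [hf, hQ]
    simp only [map_add, map_mul, map_sum, map_pow, aeval_X, hN, mul_zero, add_zero]
    ext m
    have : (aeval s (C (p : ℤ)) : AddMonoid.End M) = (p : AddMonoid.End M) := by
      simp
    rw [this]
    exact AddMonoid.End.natCast_apply p m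
  rw [hfp] at hI
  exact hI


variable {B : Type} [AddCommGroup B]

/-- restriction of an endomorphism to a stable subgroup. -/
def resH (f : B →+ B) (H : AddSubgroup B) (h : ∀ x ∈ H, f x ∈ H) : ↥H →+ ↥H :=
  (f.comp H.subtype).codRestrict H (fun x => h x x.2)

@[simp] theorem resH_coe (f : B →+ B) (H : AddSubgroup B) (h : ∀ x ∈ H, f x ∈ H) (x : ↥H) :
    ((resH f H h x : ↥H) : B) = f x := rfl

theorem resH_range_index (f : B →+ B) (H : AddSubgroup B) (h : ∀ x ∈ H, f x ∈ H) :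
    (resH f H h).range.index = (H.map f).relIndex H := by
  have : (resH f H h).range = (H.map f).addSubgroupOf H := by
    ext ⟨x, hx⟩
    rw [AddMonoidHom.mem_range, AddSubgroup.mem_addSubgroupOf, AddSubgroup.mem_map]
    constructor
    · rintro ⟨y, hy⟩
      exact ⟨y, y.2, congrArg Subtype.val hy⟩
    · rintro ⟨y, hy, hxy⟩
      exact ⟨⟨y, hy⟩, Subtype.ext hxy⟩
  rw [this]; rfl

theorem resH_ker_card (f : B →+ B) (H : AddSubgroup B) (h : ∀ x ∈ H, f x ∈ H) :
    Nat.card (resH f H h).ker = Nat.card ↥(H ⊓ f.ker) := by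
  have : (resH f H h).ker = (H ⊓ f.ker).addSubgroupOf H := by
    ext ⟨x, hx⟩
    rw [AddMonoidHom.mem_ker, AddSubgroup.mem_addSubgroupOf, AddSubgroup.mem_inf,
      AddMonoidHom.mem_ker]
    constructor
    · intro hy
      exact ⟨hx, congrArg Subtype.val hy⟩
    · rintro ⟨-, hy⟩
      exact Subtype.ext hy
  rw [this]
  exact Nat.card_congr (AddSubgroup.addSubgroupOfEquivOfLe inf_le_left).toEquiv

theorem core (D N P : B →+ B) (hND : ∀ x, N (D x) = 0) (hDN : ∀ x, D (N x) = 0)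
    (hNP : ∀ x, D x = 0 → N x = P x) :
    ∃ a b t : ℕ, (D.ker.map P).relIndex D.ker = a * N.range.relIndex D.ker ∧
      (D.range.map D).relIndex D.range = b * a ∧
      D.range.relIndex N.ker = t * b ∧
      Nat.card ↥(D.range ⊓ D.ker) * t = Nat.card ↥(D.ker ⊓ P.ker) := by
  have hMZ : D.range ≤ N.ker := by
    rintro _ ⟨x, rfl⟩; exact hND x
  have hIF : N.range ≤ D.ker := by
    rintro _ ⟨x, rfl⟩; exact hDN x
  have hFP : D.ker.map P = D.ker.map N := by
    ext y
    simp only [AddSubgroup.mem_map]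
    constructor
    · rintro ⟨x, hx, rfl⟩; exact ⟨x, hx, hNP x hx⟩
    · rintro ⟨x, hx, rfl⟩; exact ⟨x, hx, (hNP x hx).symm⟩
  have hFp : D.ker ⊓ P.ker = D.ker ⊓ N.ker := by
    ext x
    simp only [AddSubgroup.mem_inf, AddMonoidHom.mem_ker]
    constructor
    · rintro ⟨h1, h2⟩; exact ⟨h1, by rw [hNP x h1, h2]⟩
    · rintro ⟨h1, h2⟩; exact ⟨h1, by rw [← hNP x h1, h2]⟩
  refine ⟨(D.ker ⊔ N.ker).index, (D.range ⊔ D.ker ⊓ N.ker).relIndex N.ker,
    D.range.relIndex (D.ker ⊓ N.ker), ?_, ?_, ?_, ?_⟩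
  · rw [hFP, ← AddSubgroup.relIndex_mul_relIndex (D.ker.map N) N.range D.ker
      (AddSubgroup.map_le_range _ _) hIF]
    congr 1
    rw [AddMonoidHom.range_eq_map, AddSubgroup.relIndex_map_map, top_sup_eq,
      AddSubgroup.relIndex_top_right]
  · rw [← AddSubgroup.relIndex_mul_relIndex (D.range.map D) (N.ker.map D) D.range
      (AddSubgroup.map_mono hMZ) (AddSubgroup.map_le_range _ _)]
    congr 1
    · rw [AddSubgroup.relIndex_map_map]
      have h1 : N.ker ⊔ D.ker = N.ker ⊔ (D.range ⊔ D.ker) := by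
        rw [← sup_assoc, sup_eq_left.2 hMZ]
      rw [h1, AddSubgroup.relIndex_sup_right, ← AddSubgroup.inf_relIndex_right,
        sup_inf_assoc_of_le _ hMZ]
    · conv_lhs => rw [AddMonoidHom.range_eq_map]
      rw [AddSubgroup.relIndex_map_map, top_sup_eq, AddSubgroup.relIndex_top_right, sup_comm]
  · rw [← AddSubgroup.relIndex_mul_relIndex D.range (D.range ⊔ D.ker ⊓ N.ker) N.ker le_sup_left
      (sup_le hMZ inf_le_right), AddSubgroup.relIndex_sup_left]
  · rw [hFp, ← AddSubgroup.inf_relIndex_right, ← AddSubgroup.relIndex_bot_left,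
      ← AddSubgroup.relIndex_bot_left]
    have h1 : D.range ⊓ (D.ker ⊓ N.ker) = D.range ⊓ D.ker := by
      rw [← inf_assoc]
      exact inf_eq_left.2 (inf_le_left.trans hMZ)
    rw [h1]
    apply AddSubgroup.relIndex_mul_relIndex _ _ _ bot_le
    rw [← h1]; exact inf_le_right

theorem main (p : ℕ) [hp : Fact p.Prime] (σ : AddMonoid.End B) (hσ : σ ^ p = 1)
    (D N P : B →+ B) (hD : D = (1 - σ : AddMonoid.End B))
    (hN : N = (∑ i ∈ range p, σ ^ i : AddMonoid.End B)) (hP : P = nsmulAddMonoidHom (α := B) p)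
    (hB1 : P.range.index ≠ 0) (hB2 : Nat.card P.ker ≠ 0)
    (hF1 : (D.ker.map P).relIndex D.ker ≠ 0) :
    N.range.relIndex D.ker ≠ 0 ∧ D.range.relIndex N.ker ≠ 0 ∧
    N.range.relIndex D.ker ^ (p - 1) * (P.range.index * Nat.card ↥(D.ker ⊓ P.ker) ^ p) =
      D.range.relIndex N.ker ^ (p - 1) * ((D.ker.map P).relIndex D.ker ^ p * Nat.card P.ker) := by
  have hDx : ∀ x, D x = x - σ x := by
    intro x; rw [hD]; rfl
  have hNx : ∀ x, N x = ∑ i ∈ range p, (σ ^ i : AddMonoid.End B) x := by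
    intro x; rw [hN]; exact AddMonoidHom.finsetSum_apply _ _ _
  have hPx : ∀ x, P x = p • x := by
    intro x; rw [hP]; rfl
  have hND : ∀ x, N (D x) = 0 := by
    intro x
    have : (∑ i ∈ range p, σ ^ i : AddMonoid.End B) * (1 - σ) = 0 := by
      rw [geom_sum_mul_neg, hσ, sub_self]
    rw [hN, hD]
    exact DFunLike.congr_fun this x
  have hDN : ∀ x, D (N x) = 0 := by
    intro x
    have : (1 - σ) * (∑ i ∈ range p, σ ^ i : AddMonoid.End B) = 0 := by
      rw [mul_neg_geom_sum, hσ, sub_self]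
    rw [hN, hD]
    exact DFunLike.congr_fun this x
  have hfix : ∀ x, D x = 0 → ∀ i, (σ ^ i : AddMonoid.End B) x = x := by
    intro x hx i
    have hx' : x ∈ AddMonoidHom.ker (1 - σ : AddMonoid.End B) := by
      rw [hD] at hx; exact hx
    have h1 : (1 - σ ^ i : AddMonoid.End B) x = 0 := ker_one_sub_le σ i hx'
    have h3 : (1 - σ ^ i : AddMonoid.End B) x = x - (σ ^ i : AddMonoid.End B) x := rfl
    rw [h3, sub_eq_zero] at h1
    exact h1.symm
  have hNP : ∀ x, D x = 0 → N x = P x := by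
    intro x hx
    rw [hNx, hPx]
    simp only [hfix x hx, sum_const, card_range]
  obtain ⟨a, b, t, h1, h2, h3, h4⟩ := core D N P hND hDN hNP
  have hPF : ∀ x ∈ D.ker, P x ∈ D.ker := fun x hx => by
    rw [hP]; exact D.ker.nsmul_mem hx p
  have hσM : ∀ x ∈ D.range, σ x ∈ D.range := by
    rintro _ ⟨x, rfl⟩
    refine ⟨σ x, ?_⟩
    rw [hD]
    change σ x - σ (σ x) = σ (x - σ x)
    rw [map_sub]
  have hDM : ∀ x ∈ D.range, D x ∈ D.range := fun x _ => ⟨x, rfl⟩
  have hfK : nsmulAddMonoidHom (α := ↥D.ker) p = resH P D.ker hPF := by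
    ext x; simp [hP]
  have hFredK : Ind.Fred (nsmulAddMonoidHom (α := ↥D.ker) p) := by
    rw [hfK]
    refine ⟨by rw [resH_range_index]; exact hF1, ?_⟩
    rw [resH_ker_card]
    exact ne_zero_of_dvd_ne_zero hB2 (AddSubgroup.card_dvd_of_le inf_le_right)
  have hFredB : Ind.Fred P := ⟨hB1, hB2⟩
  have hi : Function.Injective D.ker.subtype := Subtype.val_injective
  have hπ : Function.Surjective D.rangeRestrict := D.rangeRestrict_surjective
  have hex : ∀ b, D.rangeRestrict b = 0 ↔ ∃ x, D.ker.subtype x = b := by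
    intro b
    constructor
    · intro hb
      exact ⟨⟨b, congrArg Subtype.val hb⟩, rfl⟩
    · rintro ⟨x, rfl⟩
      exact Subtype.ext x.2
  have hc1 : ∀ x, D.ker.subtype (nsmulAddMonoidHom (α := ↥D.ker) p x) = P (D.ker.subtype x) := by
    intro x; simp [hP]
  have hc2 : ∀ b, D.rangeRestrict (P b) =
      nsmulAddMonoidHom (α := ↥D.range) p (D.rangeRestrict b) := by
    intro b; rw [hP]; simp [map_nsmul]
  have hFredM := Ind.fred_right hi hπ hex hc1 hc2 hFredK hFredB
  have hses := Ind.index_ses hi hπ hex hc1 hc2 hFredK hFredB hFredM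
  obtain ⟨s, hsdef⟩ : ∃ s : AddMonoid.End ↥D.range, s = resH σ D.range hσM := ⟨_, rfl⟩
  have hspow : ∀ (i : ℕ) (m : ↥D.range),
      (((s ^ i : AddMonoid.End ↥D.range) m : ↥D.range) : B) = (σ ^ i : AddMonoid.End B) m := by
    intro i
    induction i with
    | zero => intro m; rfl
    | succ i ih =>
      intro m
      rw [pow_succ, pow_succ]
      change (((s ^ i : AddMonoid.End ↥D.range) (s m) : ↥D.range) : B) =
        (σ ^ i : AddMonoid.End B) (σ m)
      rw [ih, hsdef]; rfl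
  have hs : s ^ p = 1 := by
    ext m
    rw [hspow, hσ]; rfl
  have hNs : ∑ i ∈ range p, s ^ i = 0 := by
    ext m
    have e1 : (∑ i ∈ range p, s ^ i : AddMonoid.End ↥D.range) m =
        ∑ i ∈ range p, (s ^ i : AddMonoid.End ↥D.range) m := AddMonoidHom.finsetSum_apply _ _ _
    rw [e1, AddSubgroup.val_finsetSum]
    simp only [hspow]
    rw [← hNx]
    obtain ⟨x, hx⟩ := m.2
    rw [← hx, hND]; rfl
  have hFreds := fred_one_sub p s hNs hFredM
  have hprod := index_mulP p s hs hNs hFreds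
  have h1s : (1 - s : AddMonoid.End ↥D.range) = resH D D.range hDM := by
    ext m
    rw [hsdef]
    change (m : B) - σ m = D m
    rw [hDx]
  rw [h1s] at hprod hFreds
  rw [resH_range_index, resH_ker_card] at hprod
  have hcr : (D.range.map D).relIndex D.range ≠ 0 := by
    have := hFreds.1
    rwa [resH_range_index] at this
  have hkr : Nat.card ↥(D.range ⊓ D.ker) ≠ 0 := by
    have := hFreds.2
    rwa [resH_ker_card] at this
  rw [hfK, resH_range_index, resH_ker_card] at hses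
  have hqM2 : Nat.card (nsmulAddMonoidHom (α := ↥D.range) p).ker ≠ 0 := hFredM.2
  have hqF2 : Nat.card ↥(D.ker ⊓ P.ker) ≠ 0 :=
    ne_zero_of_dvd_ne_zero hB2 (AddSubgroup.card_dvd_of_le inf_le_right)
  generalize Nat.card (nsmulAddMonoidHom (α := ↥D.range) p).ker = qM2 at *
  generalize (nsmulAddMonoidHom (α := ↥D.range) p).range.index = qM1 at *
  generalize (D.range.map D).relIndex D.range = cr at *
  generalize Nat.card ↥(D.range ⊓ D.ker) = kr at *
  generalize (D.ker.map P).relIndex D.ker = qF1 at *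
  generalize Nat.card ↥(D.ker ⊓ P.ker) = qF2 at *
  generalize P.range.index = qB1 at *
  generalize Nat.card P.ker = qB2 at *
  generalize N.range.relIndex D.ker = h₀ at *
  generalize D.range.relIndex N.ker = h₁ at *
  obtain ⟨n, rfl⟩ : ∃ n, p = n + 1 := ⟨p - 1, (Nat.succ_pred_eq_of_pos hp.out.pos).symm⟩
  simp only [Nat.add_sub_cancel] at *
  subst h1 h2 h3
  have hb : b ≠ 0 := fun h => hcr (by rw [h, zero_mul])
  have ht : t ≠ 0 := by
    intro h
    rw [h, mul_zero] at h4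
    exact hqF2 h4.symm
  refine ⟨fun h => hF1 (by rw [h, mul_zero]), mul_ne_zero ht hb, ?_⟩
  apply Nat.eq_of_mul_eq_mul_right (Nat.pos_of_ne_zero (mul_ne_zero hqM2 (pow_ne_zero n hkr)))
  calc h₀ ^ n * (qB1 * qF2 ^ (n + 1)) * (qM2 * kr ^ n)
      = h₀ ^ n * qF2 ^ n * (qB1 * (qF2 * qM2)) * kr ^ n := by ring
    _ = h₀ ^ n * qF2 ^ n * (a * h₀) * qB2 * (qM1 * kr ^ n) := by rw [hses]; ring
    _ = h₀ ^ n * (kr * t) ^ n * (a * h₀) * qB2 * ((b * a) ^ n * qM2) := by rw [hprod, h4]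
    _ = (t * b) ^ n * ((a * h₀) ^ (n + 1) * qB2) * (qM2 * kr ^ n) := by ring

end Herbrand

open Finset

variable {B : Type} [AddCommGroup B]

/-- the fixed points of `σ`. -/
def fixσ (σ : AddMonoid.End B) : AddSubgroup B := AddMonoidHom.ker (σ - 1 : AddMonoid.End B)

/-- the norm `1 + σ + ⋯ + σ^(p-1)`. -/
def nmσ (p : ℕ) (σ : AddMonoid.End B) : AddMonoid.End B := ∑ i ∈ range p, σ ^ i

/-- multiplication by `p`. -/
abbrev mulP (p : ℕ) (B : Type) [AddCommGroup B] : B →+ B := nsmulAddMonoidHom (α := B) p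

/-- **Herbrand lemma for prime order.**  All indices are relative indices of subgroups of `B`:
`h₀ = [B^σ : Nm B]`, `h₁ = [ker Nm : (σ-1)B]`,
`h₀^(p-1) [B:pB] #B^σ[p]^p = h₁^(p-1) [B^σ:pB^σ]^p #B[p]`. -/
theorem herbrand_prime (p : ℕ) [Fact p.Prime] (σ : AddMonoid.End B) (hσ : σ ^ p = 1)
    (hB1 : (mulP p B).range.index ≠ 0) (hB2 : Nat.card (mulP p B).ker ≠ 0)
    (hF1 : ((fixσ σ).map (mulP p B)).relIndex (fixσ σ) ≠ 0) :
    (AddMonoidHom.range (nmσ p σ)).relIndex (fixσ σ) ≠ 0 ∧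
    (AddMonoidHom.range (σ - 1 : AddMonoid.End B)).relIndex (AddMonoidHom.ker (nmσ p σ)) ≠ 0 ∧
    (AddMonoidHom.range (nmσ p σ)).relIndex (fixσ σ) ^ (p - 1) *
        ((mulP p B).range.index * Nat.card ↥(fixσ σ ⊓ (mulP p B).ker) ^ p) =
      (AddMonoidHom.range (σ - 1 : AddMonoid.End B)).relIndex (AddMonoidHom.ker (nmσ p σ)) ^ (p - 1) *
        (((fixσ σ).map (mulP p B)).relIndex (fixσ σ) ^ p * Nat.card (mulP p B).ker) := by
  have hneg : (σ - 1 : AddMonoid.End B) = -(1 - σ : AddMonoid.End B) := (neg_sub 1 σ).symm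
  have hker : fixσ σ = AddMonoidHom.ker (1 - σ : AddMonoid.End B) := by
    ext x
    change (σ - 1 : AddMonoid.End B) x = 0 ↔ (1 - σ : AddMonoid.End B) x = 0
    rw [hneg]
    change -((1 - σ : AddMonoid.End B) x) = 0 ↔ _
    exact neg_eq_zero
  have hrange : AddMonoidHom.range (σ - 1 : AddMonoid.End B) =
      AddMonoidHom.range (1 - σ : AddMonoid.End B) := by
    ext x
    constructor
    · rintro ⟨y, rfl⟩
      refine ⟨-y, ?_⟩
      change -y - σ (-y) = σ y - y
      rw [map_neg]; abel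
    · rintro ⟨y, rfl⟩
      refine ⟨-y, ?_⟩
      change σ (-y) - -y = y - σ y
      rw [map_neg]; abel
  rw [hker] at hF1 ⊢
  rw [hrange]
  exact Herbrand.main p σ hσ _ _ _ rfl rfl rfl hB1 hB2 hF1

end Fermat.Agent.S55
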