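import Fermat.Agent.S55.L.Kummer
import Fermat.Agent.S55.L.Cyc
import Fermat.Agent.S55.L.Herbrand

/-!
# S55 (L), L1: the local norm index
TASK S55/L-NormIndex.

`D` a local datum, `χ : H →* Multiplicative (ZMod p)` a surjective level character, `N = χ.ker`.
Then `[A^H : Nm A^N] = p`.

PROOF.  `B := ↥(H0 (rsub D.α N))`, `σ ∈ End B` the action of an element `s` with `χ s = 1`
(`N` is normal, so `α s` preserves `A^N`); `σ^p = 1` since `s^p ∈ N`.  `fixσ σ ≅ A^H`
(`exists_eq_pow_mul`), `nmσ p σ` = the norm (`cores0_cyclic`).  `herbrand_prime`: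
`h₀^(p-1) [B:pB] #B^σ[p]^p = h₁^(p-1) [B^σ:pB^σ]^p #B[p]`.
`h₁ = [ker Nm : (σ-1)B] = 1` by `exists_sub_of_norm_eq_zero` (+ `D.h90_top`).
(Loc1) at `N` (index `p`) and at `⊤`: `[B:pB] = p^(1+np) #B[p]`, `[B^σ:pB^σ] = p^(1+n) #B^σ[p]`; the
torsion groups are finite and non empty (`card_torP_ne_zero`).  So `h₀^(p-1) = p^(p-1)`.
-/

set_option autoImplicit false

noncomputable section

namespace Fermat.Agent.S55

variable {p : ℕ} [Fact p.Prime] {H : Type} [Group H] {L : Levels H}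

namespace NormIndex

/-- the arithmetic at the end of the proof -/
theorem arith {h0 TB T n : ℕ} (hTB : TB ≠ 0) (hT : T ≠ 0)
    (h : h0 ^ (p - 1) * (p ^ (1 + n * p) * TB * T ^ p) =
      1 ^ (p - 1) * ((p ^ (1 + n) * T) ^ p * TB)) : h0 = p := by
  have hp : p ≠ 0 := (Fact.out : p.Prime).ne_zero
  have hp1 : p - 1 ≠ 0 := by have := (Fact.out : p.Prime).two_le; omega
  have e1 : (1 + n) * p = (p - 1) + (1 + n * p) := by
    have : 1 ≤ p := (Fact.out : p.Prime).one_lt.le
    have h2 : (1 + n) * p = p + n * p := by ring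
    omega
  have h2 : h0 ^ (p - 1) * (p ^ (1 + n * p) * TB * T ^ p)
      = p ^ (p - 1) * (p ^ (1 + n * p) * TB * T ^ p) := by
    rw [h, one_pow, one_mul, mul_pow, ← pow_mul, e1, pow_add]
    ring
  have hpos : p ^ (1 + n * p) * TB * T ^ p ≠ 0 :=
    mul_ne_zero (mul_ne_zero (pow_ne_zero _ hp) hTB) (pow_ne_zero _ hT)
  exact Nat.pow_left_injective (n := p - 1) hp1 (Nat.eq_of_mul_eq_mul_right (Nat.pos_of_ne_zero hpos) h2)

variable {A : Type} [AddCommGroup A] (α : Representation ℤ H A) (N : Subgroup H) [N.Normal]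

theorem apply_mem_H0 (s : H) (b : ↥(H0 (rsub α N))) : α s (b : A) ∈ H0 (rsub α N) := by
  rw [Representation.mem_invariants]
  intro n
  have h1 : s⁻¹ * (n : H) * s ∈ N := by
    have := ‹N.Normal›.conj_mem (n : H) n.2 s⁻¹
    simpa using this
  have h2 : α (s⁻¹ * (n : H) * s) (b : A) = b :=
    (Representation.mem_invariants _ _).mp b.2 ⟨_, h1⟩
  change α (n : H) (α s (b : A)) = α s (b : A)
  conv_rhs => rw [← h2]
  rw [← Module.End.mul_apply, ← Module.End.mul_apply, ← map_mul, ← map_mul]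
  congr 2
  group

/-- the action of `s` on `A^N` -/
def sig (s : H) : AddMonoid.End ↥(H0 (rsub α N)) where
  toFun b := ⟨α s (b : A), apply_mem_H0 α N s b⟩
  map_zero' := by apply Subtype.ext; simp
  map_add' x y := by apply Subtype.ext; simp

@[simp] theorem coe_sig (s : H) (b : ↥(H0 (rsub α N))) : ((sig α N s b : ↥(H0 (rsub α N))) : A) = α s b :=
  rfl

theorem coe_sig_pow (s : H) (i : ℕ) (b : ↥(H0 (rsub α N))) :
    (((sig α N s ^ i : AddMonoid.End _) b : ↥(H0 (rsub α N))) : A) = α (s ^ i) b := by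
  induction i generalizing b with
  | zero => simp
  | succ i ih =>
    rw [pow_succ]
    change ((((sig α N s) ^ i : AddMonoid.End _) (sig α N s b) : ↥(H0 (rsub α N))) : A) = _
    rw [ih, coe_sig, pow_succ, map_mul]
    rfl

theorem coe_nmσ (s : H) (m : ℕ) (b : ↥(H0 (rsub α N))) :
    ((nmσ m (sig α N s) b : ↥(H0 (rsub α N))) : A) = ∑ i ∈ Finset.range m, α (s ^ i) (b : A) := by
  unfold nmσ
  have : ((∑ i ∈ Finset.range m, sig α N s ^ i : AddMonoid.End _) b)
      = ∑ i ∈ Finset.range m, (sig α N s ^ i : AddMonoid.End _) b := by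
    exact AddMonoidHom.finsetSum_apply _ _ _
  rw [this, AddSubmonoidClass.coe_finsetSum]
  exact Finset.sum_congr rfl fun i _ => coe_sig_pow α N s i b

/-- the inclusion `A^H → A^N` -/
def incl : ↥(H0 α) →+ ↥(H0 (rsub α N)) where
  toFun x := ⟨(x : A), by
    rw [Representation.mem_invariants]
    intro n
    exact (Representation.mem_invariants _ _).mp x.2 (n : H)⟩
  map_zero' := rfl
  map_add' _ _ := rfl

omit [N.Normal] in
@[simp] theorem coe_incl (x : ↥(H0 α)) : ((incl α N x : ↥(H0 (rsub α N))) : A) = x := rfl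

omit [N.Normal] in
theorem incl_injective : Function.Injective (incl α N) := by
  intro x y h
  apply Subtype.ext
  exact congrArg (fun z : ↥(H0 (rsub α N)) => (z : A)) h

theorem mem_fixσ_iff (s : H) (b : ↥(H0 (rsub α N))) :
    b ∈ fixσ (sig α N s) ↔ α s (b : A) = b := by
  change sig α N s b - b = 0 ↔ _
  rw [sub_eq_zero]
  constructor
  · intro h; exact congrArg (fun z : ↥(H0 (rsub α N)) => (z : A)) h
  · intro h; exact Subtype.ext h

section char

variable (χ : H →* Multiplicative (ZMod p)) (s : H) (hs1 : χ s = Multiplicative.ofAdd 1)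

include hs1 in
theorem pow_p_mem_ker : s ^ p ∈ χ.ker := by
  rw [MonoidHom.mem_ker, map_pow, hs1, ← ofAdd_nsmul]
  simp

include hs1 in
theorem sig_pow_p : sig α χ.ker s ^ p = 1 := by
  ext b
  rw [coe_sig_pow]
  exact (Representation.mem_invariants _ _).mp b.2 ⟨_, pow_p_mem_ker χ s hs1⟩

include hs1 in
theorem range_incl : (incl α χ.ker).range = fixσ (sig α χ.ker s) := by
  ext b
  rw [mem_fixσ_iff]
  constructor
  · rintro ⟨x, rfl⟩
    exact (Representation.mem_invariants _ _).mp x.2 s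
  · intro hb
    have hpow : ∀ k : ℕ, α (s ^ k) (b : A) = b := by
      intro k
      induction k with
      | zero => simp
      | succ k ih => rw [pow_succ, map_mul, Module.End.mul_apply, hb, ih]
    refine ⟨⟨(b : A), ?_⟩, rfl⟩
    rw [Representation.mem_invariants]
    intro g
    obtain ⟨n, hn, hg⟩ := exists_eq_pow_mul χ s hs1 g
    have hnb : α n (b : A) = b := (Representation.mem_invariants _ _).mp b.2 ⟨n, hn⟩
    rw [hg, map_mul, Module.End.mul_apply, hnb, hpow]

include hs1 in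
theorem comap_map_mulP :
    ((fixσ (sig α χ.ker s)).map (mulP p ↥(H0 (rsub α χ.ker)))).comap (incl α χ.ker)
      = (mulP p ↥(H0 α)).range := by
  rw [← range_incl α χ s hs1]
  ext x
  constructor
  · rintro ⟨_, ⟨y, rfl⟩, hy⟩
    refine ⟨y, ?_⟩
    apply incl_injective α χ.ker
    rw [← hy]
    exact map_nsmul _ _ _
  · rintro ⟨y, rfl⟩
    refine ⟨incl α χ.ker y, ⟨y, rfl⟩, ?_⟩
    exact (map_nsmul (incl α χ.ker) p y).symm

include hs1 in
theorem fix_inf_ker :
    fixσ (sig α χ.ker s) ⊓ (mulP p ↥(H0 (rsub α χ.ker))).ker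
      = (torP p ↥(H0 α)).map (incl α χ.ker) := by
  rw [← range_incl α χ s hs1]
  ext b
  constructor
  · rintro ⟨⟨x, rfl⟩, hx⟩
    refine ⟨x, ?_, rfl⟩
    apply incl_injective α χ.ker
    have h1 : p • incl α χ.ker x = 0 := hx
    rw [map_zero, ← h1]
    exact map_nsmul _ _ _
  · rintro ⟨x, hx, rfl⟩
    refine ⟨⟨x, rfl⟩, ?_⟩
    have h1 : p • x = 0 := hx
    change p • incl α χ.ker x = 0
    rw [← map_nsmul, h1, map_zero]

variable (L) [Smooth L α] (hχ : L.IsLevel₁ χ) (hs : Function.Surjective χ)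

include hs1 hs in
theorem coe_cores0_eq (b : ↥(H0 (rsub α χ.ker))) :
    ((cores0 L α χ.ker (isOpen_ker_of_isLevel χ hχ) b : ↥(H0 α)) : A)
      = ((nmσ p (sig α χ.ker s) b : ↥(H0 (rsub α χ.ker))) : A) := by
  rw [cores0_cyclic L α χ hχ hs s hs1, coe_nmσ]

include hs1 hs in
theorem comap_range_nmσ :
    (AddMonoidHom.range (nmσ p (sig α χ.ker s))).comap (incl α χ.ker)
      = (normSub L α χ.ker (isOpen_ker_of_isLevel χ hχ)).toAddSubgroup := by
  ext x
  rw [AddSubgroup.mem_comap, Submodule.mem_toAddSubgroup]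
  constructor
  · rintro ⟨b, hb⟩
    refine ⟨b, Subtype.ext ?_⟩
    exact (coe_cores0_eq L α χ s hs1 hχ hs b).trans (congrArg Subtype.val hb)
  · rintro ⟨b, hb⟩
    refine ⟨b, Subtype.ext ?_⟩
    exact (coe_cores0_eq L α χ s hs1 hχ hs b).symm.trans (congrArg Subtype.val hb)

include hs1 hs hχ in
theorem ker_nmσ_le (h90 : Z1 L α ≤ B1 α) :
    AddMonoidHom.ker (nmσ p (sig α χ.ker s)) ≤
      AddMonoidHom.range (sig α χ.ker s - 1 : AddMonoid.End ↥(H0 (rsub α χ.ker))) := by
  intro c hc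
  have hc0 : nmσ p (sig α χ.ker s) c = 0 := hc
  have h1 : cores0 L α χ.ker (isOpen_ker_of_isLevel χ hχ) c = 0 := by
    apply Subtype.ext
    rw [coe_cores0_eq L α χ s hs1 hχ hs, hc0]
    rfl
  obtain ⟨a, ha⟩ := exists_sub_of_norm_eq_zero L α χ hχ hs h90 s hs1 c h1
  refine ⟨a, ?_⟩
  apply Subtype.ext
  rw [ha]
  rfl

end char

end NormIndex

namespace LocalDatum

variable (D : LocalDatum p H L) (χ : H →* Multiplicative (ZMod p)) (hχ : L.IsLevel₁ χ)

open NormIndex in
/-- (L1) the norm index is `p`. -/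
theorem index_normSub (hs : Function.Surjective χ) :
    (normSub L D.α χ.ker (isOpen_ker_of_isLevel χ hχ)).toAddSubgroup.index = p := by
  obtain ⟨s, hs1⟩ := hs (Multiplicative.ofAdd 1)
  have hN := isOpen_ker_of_isLevel χ hχ
  set σ := sig D.α χ.ker s with hσ
  -- the counting inputs
  have hTB : Nat.card ↥(torP p ↥(H0 (rsub D.α χ.ker))) ≠ 0 := (D.res χ.ker hN).card_torP_ne_zero
  have hT : Nat.card ↥(torP p ↥(H0 D.α)) ≠ 0 := D.card_torP_ne_zero
  have hp : p ≠ 0 := (Fact.out : p.Prime).ne_zero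
  have hB : (mulP p ↥(H0 (rsub D.α χ.ker))).range.index
      = p ^ (1 + D.n * p) * Nat.card ↥(torP p ↥(H0 (rsub D.α χ.ker))) := by
    have := D.loc1 χ.ker hN
    rw [index_ker_of_surjective χ hs] at this
    exact this
  have hF : ((fixσ σ).map (mulP p ↥(H0 (rsub D.α χ.ker)))).relIndex (fixσ σ)
      = p ^ (1 + D.n) * Nat.card ↥(torP p ↥(H0 D.α)) := by
    rw [← range_incl D.α χ s hs1, ← AddSubgroup.index_comap, range_incl D.α χ s hs1,
      comap_map_mulP D.α χ s hs1]
    exact D.loc1_top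
  have hcard : Nat.card ↥(fixσ σ ⊓ (mulP p ↥(H0 (rsub D.α χ.ker))).ker)
      = Nat.card ↥(torP p ↥(H0 D.α)) := by
    rw [fix_inf_ker D.α χ s hs1]
    exact (Nat.card_congr
      ((torP p ↥(H0 D.α)).equivMapOfInjective _ (incl_injective D.α χ.ker)).toEquiv).symm
  have hh1 : (AddMonoidHom.range (σ - 1 : AddMonoid.End ↥(H0 (rsub D.α χ.ker)))).relIndex
      (AddMonoidHom.ker (nmσ p σ)) = 1 :=
    AddSubgroup.relIndex_eq_one.mpr (ker_nmσ_le L D.α χ s hs1 hχ hs D.h90_top)
  have hh0 : (AddMonoidHom.range (nmσ p σ)).relIndex (fixσ σ)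
      = (normSub L D.α χ.ker (isOpen_ker_of_isLevel χ hχ)).toAddSubgroup.index := by
    rw [← range_incl D.α χ s hs1, ← AddSubgroup.index_comap,
      comap_range_nmσ L D.α χ s hs1 hχ hs]
  obtain ⟨-, -, key⟩ := herbrand_prime p σ (sig_pow_p D.α χ s hs1)
    (by rw [hB]; exact mul_ne_zero (pow_ne_zero _ hp) hTB) hTB
    (by rw [hF]; exact mul_ne_zero (pow_ne_zero _ hp) hT)
  rw [hh0, hh1, hB, hF, hcard] at key
  exact arith hTB hT key

/-- not everything is a norm. -/
theorem exists_not_mem_normSub (hs : Function.Surjective χ) :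
    ∃ b : ↥(H0 D.α), b ∉ normSub L D.α χ.ker (isOpen_ker_of_isLevel χ hχ) := by
  by_contra hcon
  have hall : ∀ b : ↥(H0 D.α), b ∈ normSub L D.α χ.ker (isOpen_ker_of_isLevel χ hχ) := by
    intro b
    by_contra hb
    exact hcon ⟨b, hb⟩
  have htop : (normSub L D.α χ.ker (isOpen_ker_of_isLevel χ hχ)).toAddSubgroup = ⊤ := by
    ext b
    simp only [Submodule.mem_toAddSubgroup, AddSubgroup.mem_top, iff_true]
    exact hall b
  have h1 := D.index_normSub χ hχ hs
  rw [htop, AddSubgroup.index_top] at h1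
  exact (Fact.out : p.Prime).one_lt.ne h1

/-- two non-norms are proportional modulo norms. -/
theorem exists_smul_sub_mem_normSub (hs : Function.Surjective χ) (b b' : ↥(H0 D.α))
    (hb : b ∉ normSub L D.α χ.ker (isOpen_ker_of_isLevel χ hχ)) :
    ∃ j : ℕ, b' - j • b ∈ normSub L D.α χ.ker (isOpen_ker_of_isLevel χ hχ) := by
  set S := (normSub L D.α χ.ker (isOpen_ker_of_isLevel χ hχ)).toAddSubgroup with hS
  have hcard : Nat.card (↥(H0 D.α) ⧸ S) = p := D.index_normSub χ hχ hs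
  have hb0 : (QuotientAddGroup.mk b : ↥(H0 D.α) ⧸ S) ≠ 0 := by
    rw [Ne, QuotientAddGroup.eq_zero_iff]
    exact hb
  obtain ⟨j, hj⟩ := mem_multiples_of_prime_card hcard hb0
    (g' := (QuotientAddGroup.mk b' : ↥(H0 D.α) ⧸ S))
  refine ⟨j, ?_⟩
  have h1 : (QuotientAddGroup.mk (b' - j • b) : ↥(H0 D.α) ⧸ S) = 0 := by
    rw [QuotientAddGroup.mk_sub, QuotientAddGroup.mk_nsmul, sub_eq_zero]
    exact hj.symm
  exact (QuotientAddGroup.eq_zero_iff _).mp h1

end LocalDatum

end Fermat.Agent.S55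

end
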