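import Fermat.Agent.S55.L.Bridge
import Fermat.Agent.S55.L.NormIndex
import Fermat.Agent.S55.Arith.CycFlat
import Fermat.Agent.S55.G.BridgeDefs

/-!
# S55 (L-Bridge): the local norm index in the `Fix`-language (`G.LocalNormIndexFix`)
-/

set_option autoImplicit false

noncomputable section

namespace Fermat.Agent.S55

open Places ExtCitation

variable (p : ℕ) [Fact p.Prime]

theorem Dg_one (l : Nat.Primes) :
    G.Dg l 1 = (haveI : Fact (l : ℕ).Prime := ⟨l.2⟩; Dq (l : ℕ)) := by
  haveI : Fact (l : ℕ).Prime := ⟨l.2⟩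
  unfold G.Dg
  ext x
  simp [Subgroup.mem_map]

/-- in a local field not every element is a norm from a cyclic extension of degree `p`. -/
theorem exists_not_isNormFrom (q : ℕ) [Fact q.Prime] (W W1 : Subgroup GQ)
    (hW : IsOpenIn (Dq q) W) (hW1 : IsOpenIn W W1) (hn : (W1.subgroupOf W).Normal)
    (hi : (W1.subgroupOf W).index = p) :
    ∃ b ∈ Places.Fix W, b ≠ 0 ∧ ¬ G.IsNormFrom p W W1 b := by
  have hopen : (Lall.sub W).IsOpen (W1.subgroupOf W) := by
    rw [isOpen_sub_iff]
    have : (W1.subgroupOf W).map W.subtype = W1 := by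
      rw [Subgroup.subgroupOf_map_subtype, inf_eq_left.2 hW1.1]
    rw [this]
    exact hW1
  obtain ⟨χ, hχ, hs, hker⟩ := exists_char_of_index_prime (L := Lall.sub W) (W1.subgroupOf W) hopen hi
  obtain ⟨b, hb⟩ := (locDatumW p q W hW).exists_not_mem_normSub χ hχ hs
  refine ⟨ofH0 b, ofH0_mem b, ofH0_ne_zero b, fun h => hb ?_⟩
  exact (mem_normSub_iff_isNormFrom p χ hχ hs hker hW1.1 b).2 h

theorem localNormIndexFix : G.LocalNormIndexFix p := by
  intro l W W1 hW hW1 hn hi _
  haveI : Fact (l : ℕ).Prime := ⟨l.2⟩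
  rw [Dg_one] at hW
  exact exists_not_isNormFrom p (l : ℕ) W W1 hW hW1 hn hi

end Fermat.Agent.S55

end
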