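import Fermat.Agent.S55.Coh.All

/-!
# S55 (L): abstract local theory -- definitions

Blueprint part 3, done abstractly.  A `KummerDatum p H L` is a group `H` with levels `L`, a smooth
`ℤ[H]`-module `A` (think: `A = Qbarˣ`, written additively) which is `p`-divisible, satisfies
Hilbert 90 for all open subgroups, and whose `p`-torsion is identified with a one dimensional
`𝔽_p`-representation `μ`.  A `LocalDatum` has in addition the counting input (Loc1).

Characters are `χ : H →* Multiplicative (ZMod m)` with `hχ : L.IsLevel₁ χ` (same convention as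
`Coh/Cup.lean`); the kernel is `χ.ker`.
-/

set_option autoImplicit false

noncomputable section

namespace Fermat.Agent.S55

/-- `B / pB`. -/
abbrev modP (p : ℕ) (B : Type) [AddCommGroup B] : Type :=
  B ⧸ (nsmulAddMonoidHom (α := B) p).range

/-- `B[p]`. -/
abbrev torP (p : ℕ) (B : Type) [AddCommGroup B] : AddSubgroup B :=
  (nsmulAddMonoidHom (α := B) p).ker

variable {H : Type} [Group H]

/-- the lift `χ~(g) ∈ {0, …, m-1}` of a character value. -/
def chv {m : ℕ} (χ : H →* Multiplicative (ZMod m)) (g : H) : ℕ := (Multiplicative.toAdd (χ g)).val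

/-- the cyclic 2-cochain `(g,h) ↦ carry(g,h) • b`,
`carry(g,h) = (χ~(g) + χ~(h) - χ~(gh)) / m = (χ~(g) + χ~(h)) / m ∈ {0,1}`. -/
def cyc {m : ℕ} {A : Type} [AddCommGroup A] (χ : H →* Multiplicative (ZMod m)) (b : A) :
    H × H → A := fun g => ((chv χ g.1 + chv χ g.2) / m) • b

@[simp] lemma cyc_apply {m : ℕ} {A : Type} [AddCommGroup A] (χ : H →* Multiplicative (ZMod m))
    (b : A) (g : H × H) : cyc χ b g = ((chv χ g.1 + chv χ g.2) / m) • b := rfl

/-- the norm `A^N → A^H`, `c ↦ ∑_{x ∈ H/N} x c`. -/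
def coNorm {A : Type} [AddCommGroup A] (α : Representation ℤ H A) (N : Subgroup H) (c : A) : A :=
  ∑ᶠ x : H ⧸ N, α x.out c

/-- **Kummer datum** (blueprint part 3, "field datum"). -/
structure KummerDatum (p : ℕ) [Fact p.Prime] (H : Type) [Group H] (L : Levels H) where
  /-- think `Qbarˣ`, additively -/
  A : Type
  [acg : AddCommGroup A]
  α : Representation ℤ H A
  [smoothα : Smooth L α]
  /-- `μ_p` as a one dimensional representation -/
  μ : Representation (ZMod p) H (ZMod p)
  [smoothμ : Smooth L μ]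
  ι : ZMod p →+ A
  ι_inj : Function.Injective ι
  ι_surj : ∀ a : A, p • a = 0 → ∃ x, ι x = a
  ι_equiv : ∀ (g : H) (x : ZMod p), α g (ι x) = ι (μ g x)
  div : ∀ a : A, ∃ b : A, p • b = a
  /-- Hilbert 90 for all open subgroups -/
  h90 : ∀ V : Subgroup H, L.IsOpen V → Z1 (L.sub V) (rsub α V) ≤ B1 (rsub α V)

attribute [instance] KummerDatum.acg KummerDatum.smoothα KummerDatum.smoothμ

/-- **Local datum**: a Kummer datum with the counting input (Loc1):
`#(A^V/p) = p^(1 + n [H:V]) #A^V[p]` for all open `V`. -/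
structure LocalDatum (p : ℕ) [Fact p.Prime] (H : Type) [Group H] (L : Levels H)
    extends KummerDatum p H L where
  n : ℕ
  loc1 : ∀ V : Subgroup H, L.IsOpen V →
    Nat.card (modP p ↥(H0 (rsub α V))) =
      p ^ (1 + n * V.index) * Nat.card ↥(torP p ↥(H0 (rsub α V)))

variable {p : ℕ} [Fact p.Prime] {L : Levels H}

/-- `μ_p ⊂ F`: the action on `μ` is trivial. -/
def KummerDatum.IsSplit (D : KummerDatum p H L) : Prop := ∀ (g : H) (x : ZMod p), D.μ g x = x

/-- (Loc2): a surjective level character `H → ℤ/p`. -/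
def Levels.HasChar (L : Levels H) (p : ℕ) : Prop :=
  ∃ χ : H →* Multiplicative (ZMod p), L.IsLevel₁ χ ∧ Function.Surjective χ

/-- the span of all symbols `y ∪ χ` in `H^2(H; μ)`. -/
def KummerDatum.line (D : KummerDatum p H L) : Submodule (ZMod p) (H2 L D.μ) :=
  Submodule.span (ZMod p)
    {x | ∃ (χ : H →* Multiplicative (ZMod p)) (hχ : L.IsLevel₁ χ) (y : H1 L D.μ),
      x = cup L D.μ χ hχ y}

end Fermat.Agent.S55

end
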