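import Fermat.Agent.S55.Arith.Kummer
import Fermat.Agent.S55.Places.Loc1
import Fermat.Agent.S55.Places.Roots
import Fermat.Agent.S55.L.Defs

/-!
# S55 (L-Bridge): the local datum of an open subgroup `W` of the decomposition group `Dq q`
TASK S55/L-Bridge.

`locDatumW p q W hW : LocalDatum p ↥W (Lall.sub W)` extends `gmDatum p W`, `n = locExp q p W`
(`= [Dq q : W]` if `q = p`, `0` otherwise).
(Loc1) for `V : Subgroup ↥W` open is `Places.loc1` for `W' = V.map W.subtype` (open in `W` by
`isOpen_sub_iff`, hence in `Dq q` by `IsOpenIn.trans`), transported along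
`H0 (rsub (rsub Gm W) V) = H0 (rsub Gm W') ≃+ Additive (Fix W')ˣ` (`LAux.H0_rsub_rsub`,
`mem_H0_Gm_iff`);  `locExp q p W' = locExp q p W * V.index` (tower formula for indices:
`Subgroup.relIndex_mul_relIndex`, `Subgroup.index_map_subtype`-like lemmas).
(Loc2) is `Places.loc2 p`.
-/

set_option autoImplicit false

noncomputable section

namespace Fermat.Agent.S55

open Places ExtCitation

/-- transport of `#(B/p)` along `B ≃+ Additive G`. -/
theorem card_modP_eq_index {B G : Type} [AddCommGroup B] [CommGroup G] (e : B ≃+ Additive G)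
    (p : ℕ) : Nat.card (modP p B) = (powMonoidHom p : G →* G).range.index := by
  have h1 : Nat.card (modP p B) = (nsmulAddMonoidHom (α := B) p).range.index := rfl
  rw [h1, ← Subgroup.index_toAddSubgroup, ← AddSubgroup.index_map_equiv _ e]
  congr 1
  ext x
  constructor
  · rintro ⟨_, ⟨b, rfl⟩, rfl⟩
    refine ⟨(e b).toMul, ?_⟩
    show (e b).toMul ^ p = (e (p • b)).toMul
    rw [map_nsmul]; rfl
  · rintro ⟨g, hg⟩
    refine ⟨_, ⟨e.symm (Additive.ofMul g), rfl⟩, ?_⟩
    show e (p • e.symm (Additive.ofMul g)) = x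
    rw [map_nsmul, e.apply_symm_apply]
    exact hg

/-- transport of `#B[p]` along `B ≃+ Additive G`. -/
theorem card_torP_eq_card_ker {B G : Type} [AddCommGroup B] [CommGroup G] (e : B ≃+ Additive G)
    (p : ℕ) : Nat.card ↥(torP p B) = Nat.card (powMonoidHom p : G →* G).ker := by
  apply Nat.card_congr
  refine (e.toEquiv.trans Additive.toMul).subtypeEquiv ?_
  intro b
  show p • b = 0 ↔ (e b).toMul ^ p = 1
  rw [← e.map_eq_zero_iff, map_nsmul]
  rfl

/-- invariants of `Gm` = units of the fixed field. -/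
theorem nonempty_H0_Gm_equiv (W : Subgroup GQ) :
    Nonempty (↥(H0 (rsub Gm W)) ≃+ Additive (Places.Fix W)ˣ) := by
  refine ⟨
    { toFun := fun x => Additive.ofMul (Units.mk0
        (⟨((x.1.toMul : Qbarˣ) : Qbar), (mem_H0_Gm_iff W _).1 x.2⟩ : Places.Fix W)
        (fun h => (x.1.toMul : Qbarˣ).ne_zero (congrArg Subtype.val h)))
      invFun := fun y => ⟨Additive.ofMul (Units.map
        ((Places.Fix W).val : Places.Fix W →* Qbar) y.toMul), (mem_H0_Gm_iff W _).2 (y.toMul : Places.Fix W).2⟩
      left_inv := ?_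
      right_inv := ?_
      map_add' := ?_ }⟩
  · intro x
    apply Subtype.ext
    apply Additive.toMul.injective
    apply Units.ext
    rfl
  · intro y
    apply Additive.toMul.injective
    apply Units.ext
    rfl
  · intro x y
    apply Additive.toMul.injective
    apply Units.ext
    rfl

variable (p : ℕ) [Fact p.Prime] (q : ℕ) [Fact q.Prime]

theorem locExp_map_subtype (W : Subgroup GQ) (hW : W ≤ Dq q) (V : Subgroup ↥W) :
    locExp q p (V.map W.subtype) = locExp q p W * V.index := by
  unfold locExp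
  split_ifs with h
  · have h1 := Subgroup.relIndex_mul_relIndex (V.map W.subtype) W (Dq q)
      (Subgroup.map_subtype_le V) hW
    have h2 : (V.map W.subtype).relIndex W = V.index := by
      unfold Subgroup.relIndex Subgroup.subgroupOf
      rw [Subgroup.comap_map_eq_self_of_injective W.subtype_injective]
    rw [h2] at h1
    unfold Subgroup.relIndex at h1
    rw [← h1, mul_comm]
  · rw [zero_mul]

theorem locDatumW_loc1 (W : Subgroup GQ) (hW : IsOpenIn (Dq q) W) (V : Subgroup ↥W)
    (hV : (Lall.sub W).IsOpen V) :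
    Nat.card (modP p ↥(H0 (rsub (rsub Gm W) V))) =
      p ^ (1 + locExp q p W * V.index) * Nat.card ↥(torP p ↥(H0 (rsub (rsub Gm W) V))) := by
  have hV' : IsOpenIn (Dq q) (V.map W.subtype) := hW.trans (isOpen_sub_iff.1 hV)
  rw [LAux.H0_rsub_rsub]
  obtain ⟨e⟩ := nonempty_H0_Gm_equiv (V.map W.subtype)
  rw [card_modP_eq_index e, card_torP_eq_card_ker e, Places.loc1 (Fact.out : p.Prime) hV',
    locExp_map_subtype p q W hW.1, mul_comm]

/-- the local datum of an open subgroup `W` of `Dq q`. -/
def locDatumW (W : Subgroup GQ) (hW : IsOpenIn (Dq q) W) : LocalDatum p ↥W (Lall.sub W) where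
  toKummerDatum := gmDatum p W
  n := locExp q p W
  loc1 := locDatumW_loc1 p q W hW

@[simp] lemma locDatumW_μ (W : Subgroup GQ) (hW : IsOpenIn (Dq q) W) :
    (locDatumW p q W hW).μ = rsub (mu p) W := rfl
@[simp] lemma locDatumW_α (W : Subgroup GQ) (hW : IsOpenIn (Dq q) W) :
    (locDatumW p q W hW).α = rsub Gm W := rfl
@[simp] lemma locDatumW_toKummerDatum (W : Subgroup GQ) (hW : IsOpenIn (Dq q) W) :
    (locDatumW p q W hW).toKummerDatum = gmDatum p W := rfl
@[simp] lemma locDatumW_n (W : Subgroup GQ) (hW : IsOpenIn (Dq q) W) :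
    (locDatumW p q W hW).n = locExp q p W := rfl

/-- the local datum of `Dq q`. -/
def locDatum : LocalDatum p ↥(Dq q) (Lall.sub (Dq q)) := locDatumW p q (Dq q) (IsOpenIn.refl _)

@[simp] lemma locDatum_μ : (locDatum p q).μ = rsub (mu p) (Dq q) := rfl
@[simp] lemma locDatum_α : (locDatum p q).α = rsub Gm (Dq q) := rfl
@[simp] lemma locDatum_toKummerDatum : (locDatum p q).toKummerDatum = gmDatum p (Dq q) := rfl

/-- (Loc2) -/
theorem hasChar_Dq : (Lall.sub (Dq q)).HasChar p := by
  have : NeZero p := ⟨(Fact.out : p.Prime).ne_zero⟩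
  obtain ⟨χ, hsurj, hopen, -⟩ := Places.loc2 (q := q) p
  exact ⟨χ, (Levels.isLevel₁_monoidHom_iff χ).2 (isOpen_sub_iff.2 hopen), hsurj⟩

end Fermat.Agent.S55

end
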