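import Fermat.Agent.S55.L.Local

/-!
# S55 (L), L6: local duality `H²(H;X) × Hom_H(X,μ) → H²(H;μ)`
TASKS S55/L-Duality-a (`duality_right`, `exists_class_of_functional`),
S55/L-Duality-b (`eq_zero_of_trivial`, `duality_Fun`), S55/L-Duality-c (`duality_left`).

`D` a local datum with a surjective level character, `p` odd; `dim H²(H;μ) = 1` (`finrank_H2_μ`).
* `duality_right`: `φ ≠ 0` is onto (`μ` is one dimensional), so `φ_*` is onto
  (`coeff_map2_surjective`), and `H²(H;μ) ≠ 0`.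
* `exists_class_of_functional`: the pairing `coeffPairing L ρ D.μ : Hom_H(X,μ) → Hom(H²(X), H²(μ))` is
  injective by `duality_right`; `H²(μ) ≅ ZMod p`; finite dimensional linear algebra
  (`LinearMap.flip_surjective_iff₁`-like lemmas, or `Subspace.dualMap`...) : every functional on
  `Hom_H(X,μ)` is `φ ↦ φ_* z`.
* `eq_zero_of_trivial`: trivial action on `X` and split `D`: `id_X = ∑ b_i ∘ ℓ_i` (basis and dual
  basis; `b_i : ZMod p → X`, `ℓ_i : X → ZMod p` are equivariant), so `w = ∑ (b_i)_* (ℓ_i)_* w`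
  (`coeff_map2_sum`, `coeff_map2_comp`, `coeff_map2_id`).
* `duality_Fun`: `Y = Fun ρ (H ⧸ N)`, `N` normal open acting trivially on `X` and `μ`.  Let
  `w = sh z₀ ∈ H²(N;X)`.  For a linear form `ℓ` on `X` put `F_ℓ : Fun ρ (H ⧸ N) → Fun μ (H ⧸ N)`,
  `(F_ℓ f)(x) = x ℓ(x⁻¹ f(x))` (well defined, equivariant; or conjugate `Pair.funMap` by
  `exists_untwist` for `ρ` and for `μ`), `ψ_ℓ = Sum ∘ F_ℓ ∈ Hom_H(Y,μ)`.  Then
  `sh_μ ((F_ℓ)_* z₀) = ℓ_* w` (same cochains) and `(ψ_ℓ)_* z₀ = cores (ℓ_* w)` (`cores2_sh`).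
  `cores : H²(N;μ) → H²(H;μ)` is onto (`cores2_surjective'`) between spaces of dimension one
  (`finrank_H2_μ_of_split` for `D.res N`, `finrank_H2_μ`), hence injective.  So `ℓ_* w = 0` for all
  `ℓ`, `w = 0` (`eq_zero_of_trivial` for `D.res N`), `z₀ = 0` (`sh_bijective2`).
* `duality_left`: `N` as above (`exists_good_subgroup` or directly), `sumSES ρ (H ⧸ N)`:
  `0 → R -i→ Y -π→ X → 0`.  `z = π_* z₀` (`map2_surjective`).  `Λ(ψ) := ψ_* z₀` is a functional on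
  `Hom_H(Y,μ)` (values in `H²(μ) ≅ ZMod p`) vanishing on `{φ ∘ π}` = kernel of the restriction
  `r : Hom_H(Y,μ) → Hom_H(R,μ)`; so `Λ = Λ' ∘ r` (`LinearMap.range_dualMap_eq_dualAnnihilator_ker`),
  `Λ'(φ) = φ_* z_R` (`exists_class_of_functional` for `R`); `ψ_* (z₀ - i_* z_R) = 0` for all `ψ`,
  so `z₀ = i_* z_R` (`duality_Fun`) and `z = π_* i_* z_R = 0`.
-/

set_option autoImplicit false

noncomputable section

namespace Fermat.Agent.S55

open Module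

variable {p : ℕ} [Fact p.Prime] {H : Type} [Group H] {L : Levels H}

namespace LocalDatum

variable (D : LocalDatum p H L) (hp2 : p ≠ 2) (hc : L.HasChar p)
variable {X : Type} [AddCommGroup X] [Module (ZMod p) X] [FiniteDimensional (ZMod p) X]
  (ρ : Representation (ZMod p) H X)

include hp2 hc in
/-- (L6) right nondegeneracy. -/
theorem duality_right [Smooth L ρ] (φ : X →ₗ[ZMod p] ZMod p)
    (hφ : ∀ g x, φ (ρ g x) = D.μ g (φ x))
    (h : ∀ z : H2 L ρ, (Pair.coeff L φ hφ).map2 z = 0) : φ = 0 := by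
  by_contra hne
  have hsurj : Function.Surjective φ := LinearMap.surjective hne
  have h2 := D.coeff_map2_surjective hp2 φ hφ hsurj
  have hsub : Subsingleton (H2 L D.μ) := by
    refine ⟨fun a b => ?_⟩
    obtain ⟨a', rfl⟩ := h2 a
    obtain ⟨b', rfl⟩ := h2 b
    rw [h a', h b']
  have h1 := D.finrank_H2_μ hp2 hc
  rw [Module.finrank_zero_of_subsingleton] at h1
  exact zero_ne_one h1

include hp2 hc in
/-- every functional on `Hom_H(X,μ)` comes from a class. -/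
theorem exists_class_of_functional [Smooth L ρ]
    (Λ : ↥(homSub ρ D.μ) →ₗ[ZMod p] H2 L D.μ) :
    ∃ z : H2 L ρ, ∀ φ : ↥(homSub ρ D.μ),
      (Pair.coeff L (φ : X →ₗ[ZMod p] ZMod p) φ.2).map2 z = Λ φ := by
  have h1 := D.finrank_H2_μ hp2 hc
  have hfin : FiniteDimensional (ZMod p) (H2 L D.μ) := D.finite_H2_μ hp2
  have e : H2 L D.μ ≃ₗ[ZMod p] ZMod p :=
    LinearEquiv.ofFinrankEq _ _ (by rw [h1, Module.finrank_self])
  -- the scalar valued pairing
  let B : ↥(homSub ρ D.μ) →ₗ[ZMod p] H2 L ρ →ₗ[ZMod p] ZMod p :=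
    (LinearMap.llcomp (ZMod p) (H2 L ρ) (H2 L D.μ) (ZMod p) e.toLinearMap) ∘ₗ
      coeffPairing L ρ D.μ
  have hB : ∀ φ z, B φ z = e ((Pair.coeff L (φ : X →ₗ[ZMod p] ZMod p) φ.2).map2 z) := by
    intro φ z
    change e (coeffPairing L ρ D.μ φ z) = _
    rw [coeffPairing_apply]
  have hinj : Function.Injective B := by
    rw [injective_iff_map_eq_zero]
    intro φ hφ
    apply Subtype.ext
    refine D.duality_right hp2 hc ρ (φ : X →ₗ[ZMod p] ZMod p) φ.2 (fun z => ?_)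
    have h2 : B φ z = 0 := by rw [hφ]; rfl
    rw [hB] at h2
    exact e.map_eq_zero_iff.1 h2
  have hsurj : Function.Surjective B.flip := LinearMap.flip_surjective_iff₁.2 hinj
  obtain ⟨z, hz⟩ := hsurj (e.toLinearMap ∘ₗ Λ)
  refine ⟨z, fun φ => ?_⟩
  have h2 : B.flip z φ = e (Λ φ) := by rw [hz]; rfl
  rw [LinearMap.flip_apply, hB] at h2
  exact e.injective h2

/-- a class with trivial coefficients is detected by linear forms. -/
theorem eq_zero_of_trivial (hs : D.IsSplit) (hρ : ∀ g, ρ g = 1) (w : H2 L ρ)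
    (h : ∀ (ℓ : X →ₗ[ZMod p] ZMod p) (hℓ : ∀ g x, ℓ (ρ g x) = D.μ g (ℓ x)),
      (Pair.coeff L ℓ hℓ).map2 w = 0) : w = 0 := by
  classical
  let b := Module.finBasis (ZMod p) X
  have hℓ : ∀ (ℓ : X →ₗ[ZMod p] ZMod p) (g : H) (x : X), ℓ (ρ g x) = D.μ g (ℓ x) := by
    intro ℓ g x
    rw [hρ g, hs g]
    rfl
  have hβ : ∀ (v : X) (g : H) (c : ZMod p),
      LinearMap.toSpanSingleton (ZMod p) X v (D.μ g c) =
        ρ g (LinearMap.toSpanSingleton (ZMod p) X v c) := by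
    intro v g c
    rw [hρ g, hs g]
    rfl
  have hcomp : ∀ (i : Fin (finrank (ZMod p) X)) (g : H) (x : X),
      (LinearMap.toSpanSingleton (ZMod p) X (b i) ∘ₗ b.coord i) (ρ g x) =
        ρ g ((LinearMap.toSpanSingleton (ZMod p) X (b i) ∘ₗ b.coord i) x) := by
    intro i g x
    rw [hρ g]
    rfl
  have hid : (LinearMap.id : X →ₗ[ZMod p] X) =
      ∑ i ∈ Finset.univ, LinearMap.toSpanSingleton (ZMod p) X (b i) ∘ₗ b.coord i := by
    ext x
    simp only [LinearMap.id_apply, LinearMap.sum_apply, LinearMap.comp_apply,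
      LinearMap.toSpanSingleton_apply, Module.Basis.coord_apply]
    exact (b.sum_repr x).symm
  have hsum : ∀ g x,
      (∑ i ∈ Finset.univ, LinearMap.toSpanSingleton (ZMod p) X (b i) ∘ₗ b.coord i) (ρ g x) =
      ρ g ((∑ i ∈ Finset.univ, LinearMap.toSpanSingleton (ZMod p) X (b i) ∘ₗ b.coord i) x) := by
    intro g x
    rw [hρ g]
    rfl
  rw [← coeff_map2_id L (fun _ _ => rfl) w, coeff_map2_congr L hid (fun _ _ => rfl) hsum w,
    coeff_map2_sum L Finset.univ _ hcomp hsum w]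
  refine Finset.sum_eq_zero (fun i _ => ?_)
  rw [coeff_map2_comp L (b.coord i) (LinearMap.toSpanSingleton (ZMod p) X (b i))
    (hℓ (b.coord i)) (hβ (b i)) (hcomp i) w, h (b.coord i) (hℓ (b.coord i)), map_zero]

include hp2 hc in
/-- left nondegeneracy for the induced modules. -/
theorem duality_Fun (N : Subgroup H) [N.Normal] (hN : L.IsOpen N) (hρ : ∀ n ∈ N, ρ n = 1)
    (hμ : N ≤ MonoidHom.ker D.μ) (z : H2 L (Fun ρ (H ⧸ N)))
    (h : ∀ (ψ : (H ⧸ N → X) →ₗ[ZMod p] ZMod p)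
      (hψ : ∀ g f, ψ (Fun ρ (H ⧸ N) g f) = D.μ g (ψ f)), (Pair.coeff L ψ hψ).map2 z = 0) :
    z = 0 := by
  have hsm : Smooth L ρ := Smooth.of_forall_eq_one hN hρ
  have hfinQ : Finite (H ⧸ N) := L.finite_quotient hN
  have hμ' : ∀ n ∈ N, D.μ n = 1 := fun n hn => MonoidHom.mem_ker.1 (hμ hn)
  obtain ⟨eρ, heρ, heρ'⟩ := exists_untwist ρ N hρ
  obtain ⟨eμ, heμ, heμ'⟩ := exists_untwist D.μ N hμ'
  have hs : (D.res N hN).IsSplit := by
    intro g x
    change D.μ (g : H) x = x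
    rw [hμ' g g.2]
    rfl
  -- corestriction is injective on `H²(μ)`
  have hinj : Function.Injective (cores2 L D.μ N hN) := by
    have h1 : finrank (ZMod p) (H2 (L.sub N) (rsub D.μ N)) = 1 :=
      (D.res N hN).finrank_H2_μ_of_split hs hp2
    have h2 : finrank (ZMod p) (H2 L D.μ) = 1 := D.finrank_H2_μ hp2 hc
    have hf1 : FiniteDimensional (ZMod p) (H2 (L.sub N) (rsub D.μ N)) :=
      Module.finite_of_finrank_pos (by rw [h1]; exact one_pos)
    have hf2 : FiniteDimensional (ZMod p) (H2 L D.μ) := D.finite_H2_μ hp2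
    exact (LinearMap.injective_iff_surjective_of_finrank_eq_finrank (h1.trans h2.symm)).2
      (D.cores2_surjective' hp2 D.μ N hN)
  apply (sh_bijective2 L ρ N hN).1
  rw [map_zero]
  refine (D.res N hN).eq_zero_of_trivial (rsub ρ N) hs (fun g => hρ g g.2) _ (fun ℓ hℓ => ?_)
  -- the twisted functional
  let F : (H ⧸ N → X) →ₗ[ZMod p] (H ⧸ N → ZMod p) :=
    eμ.symm.toLinearMap ∘ₗ (ℓ.compLeft (H ⧸ N)) ∘ₗ eρ.toLinearMap
  have hFdef : ∀ f, eμ (F f) = ℓ.compLeft (H ⧸ N) (eρ f) := by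
    intro f
    simp only [F, LinearMap.comp_apply, LinearEquiv.coe_coe, LinearEquiv.apply_symm_apply]
  have hF : ∀ g f, F (Fun ρ (H ⧸ N) g f) = Fun D.μ (H ⧸ N) g (F f) := by
    intro g f
    apply eμ.injective
    rw [heμ, hFdef, hFdef, heρ]
    rfl
  have hF1 : ∀ f, F f ((1 : H) : H ⧸ N) = ℓ (f ((1 : H) : H ⧸ N)) := by
    intro f
    have h1 := heμ' (F f) 1
    rw [inv_one, map_one, Module.End.one_apply] at h1
    rw [← h1, hFdef]
    change ℓ (eρ f ((1 : H) : H ⧸ N)) = _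
    rw [heρ', inv_one, map_one, Module.End.one_apply]
  have hψ : ∀ g f, (sumMap (ZMod p) (ZMod p) (H ⧸ N) ∘ₗ F) (Fun ρ (H ⧸ N) g f) =
      D.μ g ((sumMap (ZMod p) (ZMod p) (H ⧸ N) ∘ₗ F) f) := by
    intro g f
    rw [LinearMap.comp_apply, hF, sumMap_comm]
    rfl
  have h0 := h _ hψ
  rw [coeff_map2_comp L F (sumMap (ZMod p) (ZMod p) (H ⧸ N)) hF (sumMap_comm D.μ (H ⧸ N)) hψ z]
    at h0
  have h1 : cores2 L D.μ N hN ((Pair.sh L D.μ N).map2 ((Pair.coeff L F hF).map2 z)) = 0 := by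
    rw [cores2_sh]
    exact h0
  have h2 : (Pair.sh L D.μ N).map2 ((Pair.coeff L F hF).map2 z) = 0 :=
    hinj (by rw [h1, map_zero])
  have h3 : (Pair.sh L D.μ N).map2 ((Pair.coeff L F hF).map2 z) =
      (Pair.coeff (L.sub N) ℓ hℓ).map2 ((Pair.sh L ρ N).map2 z) := by
    rw [← LinearMap.comp_apply, ← LinearMap.comp_apply, ← Pair.map2_comp, ← Pair.map2_comp]
    have h4 : ((Pair.sh L D.μ N).comp (Pair.coeff L F hF)).map2 =
        ((Pair.coeff (L.sub N) ℓ hℓ).comp (Pair.sh L ρ N)).map2 :=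
      Pair.map2_congr rfl (LinearMap.ext fun f => hF1 f)
    rw [h4]
    rfl
  rw [← h3]
  exact h2

include hp2 hc in
/-- (L6) left nondegeneracy. -/
theorem duality_left [Smooth L ρ] (z : H2 L ρ)
    (h : ∀ (φ : X →ₗ[ZMod p] ZMod p) (hφ : ∀ g x, φ (ρ g x) = D.μ g (φ x)),
      (Pair.coeff L φ hφ).map2 z = 0) : z = 0 := by
  obtain ⟨N, P, hP, k, hNn, hN, -, hρ, hμ, -, -, -⟩ := D.exists_good_subgroup ρ
  have hfinQ : Finite (H ⧸ N) := L.finite_quotient hN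
  have hsmQ : L.SmoothSet (H ⧸ N) := L.smoothSet_quotient' hN
  -- the sequence `0 → R → Y → X → 0`
  let E := sumSES ρ (H ⧸ N)
  obtain ⟨z₀, hz₀⟩ := D.map2_surjective hp2 E z
  -- the functional `ψ ↦ ψ_* z₀`
  let Λ : ↥(homSub (Fun ρ (H ⧸ N)) D.μ) →ₗ[ZMod p] H2 L D.μ :=
    (coeffPairing L (Fun ρ (H ⧸ N)) D.μ).flip z₀
  have hΛ : ∀ ψ : ↥(homSub (Fun ρ (H ⧸ N)) D.μ),
      Λ ψ = (Pair.coeff L (ψ : (H ⧸ N → X) →ₗ[ZMod p] ZMod p) ψ.2).map2 z₀ := by
    intro ψ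
    change coeffPairing L (Fun ρ (H ⧸ N)) D.μ ψ z₀ = _
    rw [coeffPairing_apply]
  -- restriction to `R`
  let r : ↥(homSub (Fun ρ (H ⧸ N)) D.μ) →ₗ[ZMod p]
      ↥(homSub (kerRep (sumMap (ZMod p) X (H ⧸ N)) (sumMap_comm ρ (H ⧸ N))) D.μ) :=
    { toFun := fun ψ => ⟨(ψ : (H ⧸ N → X) →ₗ[ZMod p] ZMod p) ∘ₗ E.i, fun g x => by
        rw [LinearMap.comp_apply, E.i_comm, ψ.2]
        rfl⟩
      map_add' := fun _ _ => rfl
      map_smul' := fun _ _ => rfl }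
  have hker : LinearMap.ker r ≤ LinearMap.ker Λ := by
    intro ψ hψ
    rw [LinearMap.mem_ker] at hψ ⊢
    have h0 : ∀ x, (ψ : (H ⧸ N → X) →ₗ[ZMod p] ZMod p) (E.i x) = 0 := fun x =>
      congrArg (fun φ : ↥(homSub (kerRep (sumMap (ZMod p) X (H ⧸ N))
        (sumMap_comm ρ (H ⧸ N))) D.μ) => (φ : _ →ₗ[ZMod p] ZMod p) x) hψ
    -- `ψ` factors through `π`
    have hle : LinearMap.ker E.π ≤ LinearMap.ker (ψ : (H ⧸ N → X) →ₗ[ZMod p] ZMod p) := by
      intro y hy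
      obtain ⟨x, rfl⟩ := (E.exact y).1 hy
      exact h0 x
    obtain ⟨φ, hφ⟩ : ∃ φ : X →ₗ[ZMod p] ZMod p,
        φ ∘ₗ E.π = (ψ : (H ⧸ N → X) →ₗ[ZMod p] ZMod p) := by
      refine ⟨((LinearMap.ker E.π).liftQ _ hle) ∘ₗ
        (E.π.quotKerEquivOfSurjective E.surj).symm.toLinearMap, ?_⟩
      refine LinearMap.ext fun y => ?_
      simp only [LinearMap.comp_apply, LinearEquiv.coe_coe]
      have : (E.π.quotKerEquivOfSurjective E.surj).symm (E.π y) = Submodule.Quotient.mk y := by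
        rw [LinearEquiv.symm_apply_eq]
        rfl
      rw [this]
      rfl
    have hφe : ∀ g x, φ (ρ g x) = D.μ g (φ x) := by
      intro g x
      obtain ⟨y, rfl⟩ := E.surj x
      have e1 : ∀ y, φ (E.π y) = (ψ : (H ⧸ N → X) →ₗ[ZMod p] ZMod p) y := fun y => by
        rw [← hφ]
        rfl
      rw [← E.π_comm, e1, e1, ψ.2]
    rw [hΛ, coeff_map2_congr L hφ.symm ψ.2 (fun g f => by
      rw [LinearMap.comp_apply, E.π_comm, hφe]; rfl) z₀,
      coeff_map2_comp L E.π φ E.π_comm hφe _ z₀]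
    have : (Pair.coeff L E.π E.π_comm).map2 z₀ = z := hz₀
    rw [this, h φ hφe]
  -- `Λ` factors through `r`
  obtain ⟨Λ', hΛ'⟩ : ∃ Λ' : ↥(homSub (kerRep (sumMap (ZMod p) X (H ⧸ N))
      (sumMap_comm ρ (H ⧸ N))) D.μ) →ₗ[ZMod p] H2 L D.μ, ∀ ψ, Λ' (r ψ) = Λ ψ := by
    obtain ⟨Λ', hΛ'⟩ := LinearMap.exists_extend
      (((LinearMap.ker r).liftQ Λ hker) ∘ₗ r.quotKerEquivRange.symm.toLinearMap)
    refine ⟨Λ', fun ψ => ?_⟩
    have h1 := congrArg (fun f => f ⟨r ψ, LinearMap.mem_range_self r ψ⟩) hΛ'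
    simp only [LinearMap.comp_apply, Submodule.subtype_apply, LinearEquiv.coe_coe] at h1
    rw [h1]
    have : r.quotKerEquivRange.symm ⟨r ψ, LinearMap.mem_range_self r ψ⟩ =
        Submodule.Quotient.mk ψ := by
      rw [LinearEquiv.symm_apply_eq]
      rfl
    rw [this]
    rfl
  obtain ⟨zR, hzR⟩ := D.exists_class_of_functional hp2 hc
    (kerRep (sumMap (ZMod p) X (H ⧸ N)) (sumMap_comm ρ (H ⧸ N))) Λ'
  have hz₀' : z₀ - (E.iP L).map2 zR = 0 := by
    refine D.duality_Fun hp2 hc ρ N hN hρ hμ _ (fun ψ hψ => ?_)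
    rw [map_sub, sub_eq_zero]
    have h1 := hzR (r ⟨ψ, hψ⟩)
    rw [hΛ', hΛ] at h1
    rw [← h1]
    exact coeff_map2_comp L E.i ψ E.i_comm hψ _ zR
  rw [← hz₀, sub_eq_zero.1 hz₀']
  exact (E.exact_i2_π2 L).apply_apply_eq_zero zR

end LocalDatum

end Fermat.Agent.S55

end
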