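import Fermat.Agent.S55.L.Defs

/-!
# S55 (L): restriction of a datum to an open subgroup; two-level subgroups
TASK S55/L-Restrict.

`D.res V hV` is the datum on `↥V` (levels `L.sub V`, modules `rsub D.α V`, `rsub D.μ V`).
All theorems of (L) are stated for the top group of a datum; they are applied to open subgroups
through `res`.  The comparison lemmas below identify the objects attached to a subgroup
`V' : Subgroup ↥V` with those attached to `V'.map V.subtype : Subgroup H`
(use `Pair.subSub`, `Pair.isDense_subSub`, `Pair.IsDense.bijective*` of `Coh/CompareInst`, or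
direct proofs).
-/

set_option autoImplicit false

noncomputable section

namespace Fermat.Agent.S55

variable {k : Type} [CommRing k] {H : Type} [Group H] {L : Levels H}
variable {X : Type} [AddCommGroup X] [Module k X]

namespace LAux

theorem isOpen_sub_iff {V : Subgroup H} (hV : L.IsOpen V) (V' : Subgroup ↥V) :
    (L.sub V).IsOpen V' ↔ L.IsOpen (V'.map V.subtype) := by
  constructor
  · rintro ⟨U, hU, hle⟩
    refine L.isOpen_mono (L.isOpen_inf hU hV) fun x hx => ?_
    exact ⟨⟨x, hx.2⟩, hle (show ((⟨x, hx.2⟩ : V) : H) ∈ U from hx.1), rfl⟩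
  · intro h
    exact ⟨V'.map V.subtype, h, (Subgroup.comap_map_eq_self_of_injective V.subtype_injective V').le⟩

/-- invariants of a two-level subgroup. -/
theorem H0_rsub_rsub (ρ : Representation k H X) (V : Subgroup H) (V' : Subgroup ↥V) :
    H0 (rsub (rsub ρ V) V') = H0 (rsub ρ (V'.map V.subtype)) := by
  ext x
  constructor
  · rintro hx ⟨_, v, hv, rfl⟩
    exact hx ⟨v, hv⟩
  · intro hx v
    exact hx ⟨((v : V) : H), (v : V), v.2, rfl⟩

/-- the inverse of `Pair.subSub`. -/
def subSubInv (L : Levels H) (ρ : Representation k H X) (V : Subgroup H) (W : Subgroup V) :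
    Pair ((L.sub V).sub W) (rsub (rsub ρ V) W) (L.sub (W.map V.subtype))
      (rsub ρ (W.map V.subtype)) where
  f :=
    { toFun := fun w => ⟨⟨(w : H), Subgroup.map_subtype_le W w.2⟩, by
        obtain ⟨_, v, hv, rfl⟩ := w
        exact hv⟩
      map_one' := rfl
      map_mul' := fun _ _ => rfl }
  φ := LinearMap.id
  cont := by
    rintro U ⟨U1, ⟨U0, hU0, hle1⟩, hle⟩
    exact ⟨U0, hU0, fun x hx => hle (hle1 hx)⟩
  compat _ _ := rfl

/-- Hilbert 90 type statements pass to two-level subgroups. -/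
theorem Z1_le_B1_rsub_rsub (ρ : Representation k H X) (V : Subgroup H) (V' : Subgroup ↥V)
    (h : Z1 (L.sub (V'.map V.subtype)) (rsub ρ (V'.map V.subtype)) ≤
      B1 (rsub ρ (V'.map V.subtype))) :
    Z1 ((L.sub V).sub V') (rsub (rsub ρ V) V') ≤ B1 (rsub (rsub ρ V) V') := by
  intro z hz
  obtain ⟨x, hx⟩ := mem_B1.mp (h ((subSubInv L ρ V V').c1_mem_Z1 hz))
  exact mem_B1.mpr ⟨x, fun g => hx ⟨((g : V) : H), (g : V), g.2, rfl⟩⟩

/-- Hilbert 90 type statements: from `⊤` to the whole group. -/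
theorem Z1_le_B1_of_top (ρ : Representation k H X)
    (h : Z1 (L.sub ⊤) (rsub ρ ⊤) ≤ B1 (rsub ρ ⊤)) : Z1 L ρ ≤ B1 ρ := by
  intro z hz
  obtain ⟨x, hx⟩ := mem_B1.mp (h ((Pair.res L ρ ⊤).c1_mem_Z1 hz))
  exact mem_B1.mpr ⟨x, fun g => hx ⟨g, Subgroup.mem_top g⟩⟩

/-- `Z1 ≤ B1` means `H^1 = 0`. -/
theorem subsingleton_H1_of_le {ρ : Representation k H X} (h : Z1 L ρ ≤ B1 ρ) :
    Subsingleton (H1 L ρ) := by
  refine ⟨fun a b => ?_⟩
  have key : ∀ c : H1 L ρ, c = 0 := by
    intro c
    obtain ⟨z, rfl⟩ := H1.mk_surjective L ρ c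
    rw [H1.mk_eq_zero_iff]
    exact mem_B1.mp (h z.2)
  rw [key a, key b]

/-- transitivity of restriction (`i = 1`), for `W ≤ V` in `H`. -/
theorem res_res_map1_eq_zero_iff (ρ : Representation k H X) [Smooth L ρ] {W V : Subgroup H}
    (h : W ≤ V) (x : H1 L ρ) :
    (Pair.res (L.sub V) (rsub ρ V) (W.subgroupOf V)).map1 ((Pair.res L ρ V).map1 x) = 0 ↔
      (Pair.res L ρ W).map1 x = 0 := by
  have hcomp : (Pair.res L ρ W).map1 x = (Pair.subOf L ρ h).map1
      ((Pair.res (L.sub V) (rsub ρ V) (W.subgroupOf V)).map1 ((Pair.res L ρ V).map1 x)) := by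
    rw [← LinearMap.comp_apply, ← LinearMap.comp_apply, ← Pair.map1_comp, ← Pair.map1_comp]
    exact LinearMap.congr_fun (Pair.map1_congr rfl rfl) x
  rw [hcomp, map_eq_zero_iff _ (Pair.isDense_subOf L ρ h).bijective1.1]

/-- transitivity of restriction (`i = 2`), for `W ≤ V` in `H`. -/
theorem res_res_map2_eq_zero_iff (ρ : Representation k H X) [Smooth L ρ] {W V : Subgroup H}
    (h : W ≤ V) (x : H2 L ρ) :
    (Pair.res (L.sub V) (rsub ρ V) (W.subgroupOf V)).map2 ((Pair.res L ρ V).map2 x) = 0 ↔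
      (Pair.res L ρ W).map2 x = 0 := by
  have hcomp : (Pair.res L ρ W).map2 x = (Pair.subOf L ρ h).map2
      ((Pair.res (L.sub V) (rsub ρ V) (W.subgroupOf V)).map2 ((Pair.res L ρ V).map2 x)) := by
    rw [← LinearMap.comp_apply, ← LinearMap.comp_apply, ← Pair.map2_comp, ← Pair.map2_comp]
    exact LinearMap.congr_fun (Pair.map2_congr rfl rfl) x
  rw [hcomp, map_eq_zero_iff _ (Pair.isDense_subOf L ρ h).bijective2.1]

theorem res_map1_eq_zero_of_le (ρ : Representation k H X) {W V : Subgroup H} (h : W ≤ V)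
    (x : H1 L ρ) (hx : (Pair.res L ρ V).map1 x = 0) : (Pair.res L ρ W).map1 x = 0 := by
  have hcomp : (Pair.res L ρ W).map1 x = (Pair.resLE L ρ h).map1 ((Pair.res L ρ V).map1 x) := by
    rw [← LinearMap.comp_apply, ← Pair.map1_comp]
    exact LinearMap.congr_fun (Pair.map1_congr rfl rfl) x
  rw [hcomp, hx, map_zero]

theorem res_map2_eq_zero_of_le (ρ : Representation k H X) {W V : Subgroup H} (h : W ≤ V)
    (x : H2 L ρ) (hx : (Pair.res L ρ V).map2 x = 0) : (Pair.res L ρ W).map2 x = 0 := by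
  have hcomp : (Pair.res L ρ W).map2 x = (Pair.resLE L ρ h).map2 ((Pair.res L ρ V).map2 x) := by
    rw [← LinearMap.comp_apply, ← Pair.map2_comp]
    exact LinearMap.congr_fun (Pair.map2_congr rfl rfl) x
  rw [hcomp, hx, map_zero]

/-- restriction to `⊤` is injective. -/
theorem res_top_injective2 (ρ : Representation k H X) [Smooth L ρ] :
    Function.Injective (Pair.res L ρ ⊤).map2 := (Pair.isDense_res_top L ρ).bijective2.1

/-- an equivariant linear equivalence induces isomorphisms, hence equal dimensions. -/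
theorem finrank_H0_congr {X' : Type} [AddCommGroup X'] [Module k X']
    {ρ : Representation k H X} {σ : Representation k H X'} (e : X ≃ₗ[k] X')
    (he : ∀ h x, e (ρ h x) = σ h (e x)) :
    Module.finrank k ↥(H0 ρ) = Module.finrank k ↥(H0 σ) := by
  have hmap : (H0 ρ).map (e : X →ₗ[k] X') = H0 σ := by
    ext y
    constructor
    · rintro ⟨x, hx, rfl⟩ h
      have hx' : ρ h x = x := hx h
      show σ h (e x) = e x
      rw [← he, hx']
    · intro hy
      refine ⟨e.symm y, fun h => ?_, e.apply_symm_apply y⟩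
      have hy' : σ h y = y := hy h
      apply e.injective
      rw [he, e.apply_symm_apply, hy']
  exact (LinearEquiv.ofSubmodules e (H0 ρ) (H0 σ) hmap).finrank_eq

theorem nonempty_H1_equiv {X' : Type} [AddCommGroup X'] [Module k X']
    {ρ : Representation k H X} [Smooth L ρ] {σ : Representation k H X'} (e : X ≃ₗ[k] X')
    (he : ∀ h x, e (ρ h x) = σ h (e x)) : Nonempty (H1 L ρ ≃ₗ[k] H1 L σ) :=
  ⟨LinearEquiv.ofBijective _ (Pair.isDense_coeff L e he).bijective1⟩

theorem nonempty_H2_equiv {X' : Type} [AddCommGroup X'] [Module k X']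
    {ρ : Representation k H X} [Smooth L ρ] {σ : Representation k H X'} (e : X ≃ₗ[k] X')
    (he : ∀ h x, e (ρ h x) = σ h (e x)) : Nonempty (H2 L ρ ≃ₗ[k] H2 L σ) :=
  ⟨LinearEquiv.ofBijective _ (Pair.isDense_coeff L e he).bijective2⟩

end LAux

variable {p : ℕ} [Fact p.Prime]

/-- restriction of a Kummer datum to an open subgroup. -/
def KummerDatum.res (D : KummerDatum p H L) (V : Subgroup H) (hV : L.IsOpen V) :
    KummerDatum p ↥V (L.sub V) where
  A := D.A
  α := rsub D.α V
  smoothα := Smooth.rsub V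
  μ := rsub D.μ V
  smoothμ := Smooth.rsub V
  ι := D.ι
  ι_inj := D.ι_inj
  ι_surj := D.ι_surj
  ι_equiv g x := D.ι_equiv g x
  div := D.div
  h90 V' hV' := LAux.Z1_le_B1_rsub_rsub D.α V V' (D.h90 _ ((LAux.isOpen_sub_iff hV V').mp hV'))

theorem LocalDatum.res_loc1 (D : LocalDatum p H L) (V : Subgroup H) (hV : L.IsOpen V)
    (V' : Subgroup ↥V) (hV' : (L.sub V).IsOpen V') :
    Nat.card (modP p ↥(H0 (rsub (rsub D.α V) V'))) =
      p ^ (1 + D.n * V.index * V'.index) * Nat.card ↥(torP p ↥(H0 (rsub (rsub D.α V) V'))) := by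
  rw [LAux.H0_rsub_rsub, D.loc1 _ ((LAux.isOpen_sub_iff hV V').mp hV'), Subgroup.index_map_subtype,
    mul_assoc, mul_comm V.index]

/-- restriction of a local datum to an open subgroup: `n` is multiplied by the index. -/
def LocalDatum.res (D : LocalDatum p H L) (V : Subgroup H) (hV : L.IsOpen V) :
    LocalDatum p ↥V (L.sub V) where
  toKummerDatum := D.toKummerDatum.res V hV
  n := D.n * V.index
  loc1 := D.res_loc1 V hV

@[simp] lemma KummerDatum.res_A (D : KummerDatum p H L) (V : Subgroup H) (hV : L.IsOpen V) :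
    (D.res V hV).A = D.A := rfl

@[simp] lemma KummerDatum.res_α (D : KummerDatum p H L) (V : Subgroup H) (hV : L.IsOpen V) :
    (D.res V hV).α = rsub D.α V := rfl

@[simp] lemma KummerDatum.res_μ (D : KummerDatum p H L) (V : Subgroup H) (hV : L.IsOpen V) :
    (D.res V hV).μ = rsub D.μ V := rfl

@[simp] lemma KummerDatum.res_ι (D : KummerDatum p H L) (V : Subgroup H) (hV : L.IsOpen V) :
    (D.res V hV).ι = D.ι := rfl

@[simp] lemma LocalDatum.res_n (D : LocalDatum p H L) (V : Subgroup H) (hV : L.IsOpen V) :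
    (D.res V hV).n = D.n * V.index := rfl

@[simp] lemma LocalDatum.res_toKummerDatum (D : LocalDatum p H L) (V : Subgroup H)
    (hV : L.IsOpen V) : (D.res V hV).toKummerDatum = D.toKummerDatum.res V hV := rfl

lemma KummerDatum.IsSplit.res {D : KummerDatum p H L} (hs : D.IsSplit) (V : Subgroup H)
    (hV : L.IsOpen V) : (D.res V hV).IsSplit := fun g x => hs g x

/-- a split `μ` is the trivial representation. -/
theorem KummerDatum.IsSplit.μ_eq {D : KummerDatum p H L} (hs : D.IsSplit) :
    D.μ = Representation.trivial (ZMod p) H (ZMod p) :=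
  MonoidHom.ext fun g => LinearMap.ext fun x => hs g x

/-- (Loc1) for the whole group. -/
theorem LocalDatum.loc1_top (D : LocalDatum p H L) :
    Nat.card (modP p ↥(H0 D.α)) = p ^ (1 + D.n) * Nat.card ↥(torP p ↥(H0 D.α)) := by
  have h0 : H0 (rsub D.α ⊤) = H0 D.α := by
    ext x
    exact ⟨fun hx g => hx ⟨g, Subgroup.mem_top g⟩, fun hx g => hx g⟩
  have := D.loc1 ⊤ L.isOpen_top
  rwa [h0, Subgroup.index_top, mul_one] at this

/-- `μ g` is multiplication by `μ g 1`. -/
theorem KummerDatum.μ_apply_eq (D : KummerDatum p H L) (g : H) (x : ZMod p) :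
    D.μ g x = D.μ g 1 * x := by
  have : D.μ g (x • (1 : ZMod p)) = x • D.μ g 1 := map_smul _ _ _
  rw [smul_eq_mul, mul_one, smul_eq_mul, mul_comm] at this
  exact this

/-- the character by which `H` acts on `μ`. -/
def KummerDatum.muChar (D : KummerDatum p H L) : H →* (ZMod p)ˣ :=
  MonoidHom.toHomUnits
    { toFun := fun g => D.μ g 1
      map_one' := by simp
      map_mul' := fun g h => by
        rw [map_mul, Module.End.mul_apply, D.μ_apply_eq g (D.μ h 1)] }

theorem KummerDatum.coe_muChar (D : KummerDatum p H L) (g : H) :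
    ((D.muChar g : (ZMod p)ˣ) : ZMod p) = D.μ g 1 := rfl

theorem KummerDatum.ker_muChar (D : KummerDatum p H L) : D.muChar.ker = MonoidHom.ker D.μ := by
  ext g
  rw [MonoidHom.mem_ker, MonoidHom.mem_ker]
  constructor
  · intro h
    ext
    have := congrArg Units.val h
    rw [D.coe_muChar, Units.val_one] at this
    simpa using this
  · intro h
    apply Units.ext
    rw [D.coe_muChar, h]
    rfl

/-- the kernel of `μ` is open, normal, of index prime to `p`, and the restricted datum is split. -/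
theorem KummerDatum.isOpen_ker_μ (D : KummerDatum p H L) : L.IsOpen (MonoidHom.ker D.μ) := by
  obtain ⟨U, hU, h⟩ := D.smoothμ.exists_isOpen 1
  refine L.isOpen_mono hU fun s hs => ?_
  rw [MonoidHom.mem_ker]
  ext
  simpa using h s hs

theorem KummerDatum.index_ker_μ (D : KummerDatum p H L) : (MonoidHom.ker D.μ).index ∣ p - 1 := by
  rw [← D.ker_muChar, Subgroup.index_ker, ← ZMod.card_units p, ← Nat.card_eq_fintype_card]
  exact Subgroup.card_subgroup_dvd_card _

theorem KummerDatum.isSplit_res_ker (D : KummerDatum p H L) :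
    (D.res (MonoidHom.ker D.μ) D.isOpen_ker_μ).IsSplit := by
  intro g x
  have hg : D.μ (g : H) = 1 := g.2
  show D.μ (g : H) x = x
  rw [hg]
  rfl

/-- a subgroup `V ⊇ N` such that `V/N` is a `p`-group, `N ≤ ker μ`, gives a split datum
(the image of `V` in `𝔽_pˣ` is a `p`-group of order prime to `p`). -/
theorem KummerDatum.isSplit_res_of_pGroup (D : KummerDatum p H L) (V N : Subgroup H)
    (hV : L.IsOpen V) (hN : N ≤ MonoidHom.ker D.μ) [(N.subgroupOf V).Normal]
    (hp : IsPGroup p (↥V ⧸ N.subgroupOf V)) : (D.res V hV).IsSplit := by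
  intro g x
  show D.μ (g : H) x = x
  obtain ⟨n, hn⟩ := hp (g : ↥V ⧸ N.subgroupOf V)
  rw [← QuotientGroup.mk_pow, QuotientGroup.eq_one_iff] at hn
  have hn' : ((g : H)) ^ p ^ n ∈ D.muChar.ker := by
    rw [D.ker_muChar]
    exact hN hn
  rw [MonoidHom.mem_ker, map_pow] at hn'
  have h1 : D.muChar (g : H) ^ (p - 1) = 1 := by
    rw [← ZMod.card_units p]
    exact pow_card_eq_one
  have hpp : p.Prime := Fact.out
  have hcop : Nat.Coprime (p ^ n) (p - 1) :=
    Nat.Coprime.pow_left n ((Nat.coprime_self_sub_right hpp.one_le).mpr (Nat.coprime_one_right p))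
  have h2 : D.muChar (g : H) = 1 := by
    have := pow_gcd_eq_one.mpr ⟨hn', h1⟩
    rwa [hcop.gcd_eq_one, pow_one] at this
  have h3 : D.μ (g : H) 1 = 1 := by
    rw [← D.coe_muChar, h2]
    rfl
  rw [D.μ_apply_eq, h3, one_mul]

end Fermat.Agent.S55

end
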