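import Mathlib

/-!
# S55 (L), (S4): an alternating form all of whose slices have rank one has a one dimensional image
TASK S55/L-LinAlg.   (Mathlib only.)

PROOF.  `B a b = - B b a` (expand `B (a+b) (a+b) = 0`).  For `b ≠ 0` let `K_b = {a | B a b = 0}`, a
proper additive subgroup, `l_b = k w_b`.  For `b, b' ≠ 0` choose `a ∉ K_b ∪ K_b'` (a group is not
the union of two proper subgroups).  Then `a ≠ 0`, `0 ≠ B a b = - B b a ∈ l_b ∩ l_a`, so `l_b = l_a`;
likewise `l_b' = l_a`.
-/

set_option autoImplicit false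

namespace Fermat.Agent.S55

/-- an additive group is not the union of two proper subgroups. -/
theorem exists_not_mem_of_ne_top {V : Type} [AddCommGroup V] (K K' : AddSubgroup V)
    (hK : K ≠ ⊤) (hK' : K' ≠ ⊤) : ∃ a : V, a ∉ K ∧ a ∉ K' := by
  obtain ⟨x, -, hx⟩ := SetLike.exists_of_lt (lt_top_iff_ne_top.2 hK)
  obtain ⟨y, -, hy⟩ := SetLike.exists_of_lt (lt_top_iff_ne_top.2 hK')
  by_cases hx' : x ∈ K'
  · by_cases hy' : y ∈ K
    · refine ⟨x + y, fun h => hx ?_, fun h => hy ?_⟩
      · simpa using K.sub_mem h hy'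
      · simpa using K'.sub_mem h hx'
    · exact ⟨y, hy', hy⟩
  · exact ⟨x, hx, hx'⟩

theorem exists_line_of_alternating {k V W : Type} [Field k] [AddCommGroup V]
    [AddCommGroup W] [Module k W] (B : V → V → W)
    (add_left : ∀ a a' b, B (a + a') b = B a b + B a' b)
    (add_right : ∀ a b b', B a (b + b') = B a b + B a b')
    (alt : ∀ a, B a a = 0)
    (rank : ∀ b, b ≠ 0 → ∃ w : W, w ≠ 0 ∧ (∃ a, B a b = w) ∧ ∀ a, ∃ c : k, B a b = c • w) :
    ∃ w : W, ∀ a b, ∃ c : k, B a b = c • w := by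
  have zero_left : ∀ b, B 0 b = 0 := fun b => by
    have h := add_left 0 0 b
    rw [add_zero] at h
    exact left_eq_add.mp h
  have zero_right : ∀ a, B a 0 = 0 := fun a => by
    have h := add_right a 0 0
    rw [add_zero] at h
    exact left_eq_add.mp h
  have neg_left : ∀ a b, B (-a) b = - B a b := fun a b => by
    have h := add_left a (-a) b
    rw [add_neg_cancel, zero_left] at h
    exact (neg_eq_of_add_eq_zero_right h.symm).symm
  have swap : ∀ a b, B a b = - B b a := fun a b => by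
    have h := alt (a + b)
    rw [add_left, add_right, add_right, alt, alt, zero_add, add_zero] at h
    exact eq_neg_of_add_eq_zero_left h
  -- comparison of two lines
  have key : ∀ (a b : V) (w w' : W), (∀ x, ∃ c : k, B x b = c • w) →
      (∀ x, ∃ c : k, B x a = c • w') → B a b ≠ 0 → ∃ c : k, w = c • w' := by
    intro a b w w' hw hw' hab
    obtain ⟨c, hc⟩ := hw a
    obtain ⟨c', hc'⟩ := hw' b
    have hc0 : c ≠ 0 := by
      rintro rfl
      exact hab (by rw [hc, zero_smul])
    refine ⟨c⁻¹ * (-c'), ?_⟩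
    rw [mul_smul, neg_smul, ← hc', ← swap, hc, smul_smul, inv_mul_cancel₀ hc0, one_smul]
  by_cases hV : ∀ b : V, b = 0
  · exact ⟨0, fun a b => ⟨0, by rw [hV b, zero_right, smul_zero]⟩⟩
  push Not at hV
  obtain ⟨b₀, hb₀⟩ := hV
  obtain ⟨w₀, hw₀, ⟨a₀, ha₀⟩, hline₀⟩ := rank b₀ hb₀
  -- the kernel of a slice
  let Ker : V → AddSubgroup V := fun b =>
    { carrier := {a | B a b = 0}
      zero_mem' := zero_left b
      add_mem' := by
        intro x y hx hy
        change B (x + y) b = 0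
        rw [add_left, show B x b = 0 from hx, show B y b = 0 from hy, add_zero]
      neg_mem' := by
        intro x hx
        change B (-x) b = 0
        rw [neg_left, show B x b = 0 from hx, neg_zero] }
  have hKer : ∀ b, b ≠ 0 → Ker b ≠ ⊤ := by
    intro b hb htop
    obtain ⟨w, hw, ⟨a, ha⟩, -⟩ := rank b hb
    have : a ∈ Ker b := by rw [htop]; trivial
    exact hw (by rw [← ha]; exact this)
  refine ⟨w₀, fun x b => ?_⟩
  by_cases hb : b = 0
  · exact ⟨0, by rw [hb, zero_right, zero_smul]⟩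
  obtain ⟨w, hw, -, hline⟩ := rank b hb
  obtain ⟨a, ha1, ha2⟩ := exists_not_mem_of_ne_top (Ker b) (Ker b₀) (hKer b hb) (hKer b₀ hb₀)
  have ha1' : B a b ≠ 0 := ha1
  have ha2' : B a b₀ ≠ 0 := ha2
  have ha0 : a ≠ 0 := by
    rintro rfl
    exact ha1' (zero_left b)
  obtain ⟨wa, -, -, hlinea⟩ := rank a ha0
  obtain ⟨c1, hc1⟩ := key a b w wa hline hlinea ha1'
  obtain ⟨c2, hc2⟩ := key b₀ a wa w₀ hlinea hline₀ (by rw [swap]; exact neg_ne_zero.2 ha2')
  obtain ⟨c, hc⟩ := hline x
  exact ⟨c * c1 * c2, by rw [hc, hc1, hc2, smul_smul, smul_smul]⟩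

/-- a module in which any two vectors are dependent has dimension at most one. -/
theorem finrank_le_one_of_dependent {k V : Type} [Field k] [AddCommGroup V] [Module k V]
    (h : ∀ x y : V, ∃ a b : k, (a ≠ 0 ∨ b ≠ 0) ∧ a • x + b • y = 0) :
    Module.Finite k V ∧ Module.finrank k V ≤ 1 := by
  have hv : ∃ v : V, ∀ w : V, ∃ c : k, c • v = w := by
    by_cases hV : ∀ x : V, x = 0
    · exact ⟨0, fun w => ⟨0, by rw [hV w, smul_zero]⟩⟩
    push Not at hV
    obtain ⟨x, hx⟩ := hV
    refine ⟨x, fun y => ?_⟩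
    obtain ⟨a, b, hab, he⟩ := h x y
    have hb : b ≠ 0 := by
      rintro rfl
      rw [zero_smul, add_zero] at he
      rcases hab with ha | hb
      · exact hx ((smul_eq_zero.1 he).resolve_left ha)
      · exact hb rfl
    refine ⟨-(b⁻¹ * a), ?_⟩
    have h1 : b • y = -(a • x) := eq_neg_of_add_eq_zero_right he
    rw [neg_smul, mul_smul, ← smul_neg, ← h1, smul_smul, inv_mul_cancel₀ hb, one_smul]
  obtain ⟨v, hv⟩ := hv
  refine ⟨Module.Finite.of_surjective (LinearMap.toSpanSingleton k V v) fun w => ?_,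
    finrank_le_one v hv⟩
  obtain ⟨c, hc⟩ := hv w
  exact ⟨c, by simpa using hc⟩

end Fermat.Agent.S55
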