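import Mathlib

/-!
# S55 (L): group theory of `p`-groups used in the devissage
TASK S55/L-PGroup.   (Mathlib only.)
-/

set_option autoImplicit false
set_option linter.style.haveILetI false

namespace Fermat.Agent.S55

variable {H : Type} [Group H] {p : ℕ} [Fact p.Prime]

/-- a normal subgroup of index `p^(k+1)` is contained in a normal subgroup of index `p`.
[`H ⧸ N` is a nontrivial finite `p`-group: nilpotent, a maximal subgroup is normal
(`IsPGroup.isNilpotent`, `normalizerCondition_of_isNilpotent`, `NormalizerCondition.normal_of_coatom`)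
of index `p`; or: induction on `k` using the centre.] -/
theorem exists_normal_index_p (N : Subgroup H) [N.Normal] (k : ℕ) (hk : N.index = p ^ (k + 1)) :
    ∃ W : Subgroup H, W.Normal ∧ N ≤ W ∧ W.index = p ∧ (N.subgroupOf W).index = p ^ k := by
  have hp : p.Prime := Fact.out
  have hcard : Nat.card (H ⧸ N) = p ^ (k + 1) := by rw [← Subgroup.index_eq_card, hk]
  haveI : Finite (H ⧸ N) := Nat.finite_of_card_ne_zero (by rw [hcard]; exact pow_ne_zero _ hp.ne_zero)
  obtain ⟨K, hK⟩ := Sylow.exists_subgroup_card_pow_prime (G := H ⧸ N) p (n := k)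
    (by rw [hcard]; exact pow_dvd_pow p (Nat.le_succ k))
  have hKi : K.index = p := by
    have h1 := K.card_mul_index
    rw [hK, hcard, pow_succ] at h1
    exact Nat.eq_of_mul_eq_mul_left (pow_pos hp.pos k) h1
  haveI hKn : K.Normal := Subgroup.normal_of_index_eq_minFac_card (by
    rw [hKi, hcard, Nat.pow_minFac (Nat.succ_ne_zero k), hp.minFac_eq])
  have hWi : (K.comap (QuotientGroup.mk' N)).index = p := by
    rw [Subgroup.index_comap_of_surjective _ (QuotientGroup.mk'_surjective N), hKi]
  have hNW : N ≤ K.comap (QuotientGroup.mk' N) := by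
    intro n hn
    rw [Subgroup.mem_comap]
    have : QuotientGroup.mk' N n = 1 := by simpa using hn
    rw [this]; exact K.one_mem
  refine ⟨K.comap (QuotientGroup.mk' N), hKn.comap _, hNW, hWi, ?_⟩
  have h2 := Subgroup.relIndex_mul_index hNW
  rw [hWi, hk, pow_succ] at h2
  exact Nat.eq_of_mul_eq_mul_right hp.pos h2

/-- the preimage of a Sylow `p`-subgroup of `H ⧸ N`. -/
theorem exists_sylow_preimage (N : Subgroup H) [N.Normal] [N.FiniteIndex] :
    ∃ P : Subgroup H, N ≤ P ∧ ¬ p ∣ P.index ∧ P.index ≠ 0 ∧ ∃ k : ℕ, (N.subgroupOf P).index = p ^ k := by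
  have hp : p.Prime := Fact.out
  haveI : Finite (H ⧸ N) := inferInstance
  let P0 : Sylow p (H ⧸ N) := default
  have hPi : ((P0 : Subgroup (H ⧸ N)).comap (QuotientGroup.mk' N)).index =
      (P0 : Subgroup (H ⧸ N)).index := by
    rw [Subgroup.index_comap_of_surjective _ (QuotientGroup.mk'_surjective N)]
  have hNP : N ≤ (P0 : Subgroup (H ⧸ N)).comap (QuotientGroup.mk' N) := by
    intro n hn
    rw [Subgroup.mem_comap]
    have : QuotientGroup.mk' N n = 1 := by simpa using hn
    rw [this]; exact (P0 : Subgroup (H ⧸ N)).one_mem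
  have h0 : (P0 : Subgroup (H ⧸ N)).index ≠ 0 := Subgroup.FiniteIndex.index_ne_zero
  refine ⟨(P0 : Subgroup (H ⧸ N)).comap (QuotientGroup.mk' N), hNP, ?_, ?_, ?_⟩
  · rw [hPi]; exact P0.not_dvd_index
  · rw [hPi]; exact h0
  · obtain ⟨k, hk⟩ := (IsPGroup.iff_card.mp P0.isPGroup')
    refine ⟨k, ?_⟩
    have h2 := Subgroup.relIndex_mul_index hNP
    rw [hPi, Subgroup.index_eq_card N, ← (P0 : Subgroup (H ⧸ N)).card_mul_index] at h2
    rw [← hk]
    exact Nat.eq_of_mul_eq_mul_right (Nat.pos_of_ne_zero h0) h2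

/-- a `p`-group acting on a nonzero `𝔽_p`-vector space of finite dimension has a nonzero fixed
vector.  [orbit counting: `IsPGroup.card_modEq_card_fixedPoints` for `H ⧸ N` acting on `X`] -/
theorem exists_fixed_vector {X : Type} [AddCommGroup X] [Module (ZMod p) X]
    [FiniteDimensional (ZMod p) X] [Nontrivial X] (ρ : Representation (ZMod p) H X)
    (N : Subgroup H) [N.Normal] (k : ℕ) (hk : N.index = p ^ k) (hN : ∀ n ∈ N, ρ n = 1) :
    ∃ v : X, v ≠ 0 ∧ ∀ g, ρ g v = v := by
  have hp : p.Prime := Fact.out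
  have hcard : Nat.card (H ⧸ N) = p ^ k := by rw [← Subgroup.index_eq_card, hk]
  have hG : IsPGroup p (H ⧸ N) := IsPGroup.of_card hcard
  let ρ' : (H ⧸ N) →* (X →ₗ[ZMod p] X) := QuotientGroup.lift N ρ (fun n hn => hN n hn)
  letI : MulAction (H ⧸ N) X := MulAction.compHom X ρ'
  have hsm : ∀ (g : H) (x : X), (QuotientGroup.mk g : H ⧸ N) • x = ρ g x := fun g x => rfl
  haveI : Finite X := Module.finite_of_finite (ZMod p)
  have hdvd : p ∣ Nat.card X := by
    rw [Module.natCard_eq_pow_finrank (K := ZMod p), Nat.card_zmod]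
    exact dvd_pow_self p (Module.finrank_pos (R := ZMod p) (M := X)).ne'
  have h0 : (0 : X) ∈ MulAction.fixedPoints (H ⧸ N) X := by
    intro g
    induction g using QuotientGroup.induction_on with
    | H g => rw [hsm, map_zero]
  obtain ⟨b, hb, hne⟩ := hG.exists_fixed_point_of_prime_dvd_card_of_fixed_point X hdvd h0
  exact ⟨b, hne.symm, fun g => by rw [← hsm]; exact hb _⟩

/-- a subgroup of index prime to `p` and a normal subgroup of index `p`. -/
theorem index_inf_of_coprime (K W : Subgroup H) [W.Normal] (hW : W.index = p)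
    (hK : ¬ p ∣ K.index) (hK0 : K.index ≠ 0) :
    (W.subgroupOf K).index = p ∧ ¬ p ∣ (K.subgroupOf W).index ∧ (K.subgroupOf W).index ≠ 0 := by
  have hp : p.Prime := Fact.out
  have h1 : W.relIndex K = p := by
    have hd : W.relIndex K ∣ p := hW ▸ Subgroup.relIndex_dvd_index_of_normal W K
    rcases (Nat.dvd_prime hp).mp hd with h | h
    · exfalso
      rw [Subgroup.relIndex_eq_one] at h
      apply hK
      rw [← Subgroup.relIndex_mul_index h, hW]
      exact dvd_mul_left _ _
    · exact h
  have h2 : K.relIndex W = K.index := by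
    have e1 := Subgroup.relIndex_mul_index (inf_le_left : K ⊓ W ≤ K)
    have e2 := Subgroup.relIndex_mul_index (inf_le_right : K ⊓ W ≤ W)
    rw [Subgroup.inf_relIndex_left, h1] at e1
    rw [Subgroup.inf_relIndex_right, hW, ← e1, mul_comm p] at e2
    exact Nat.eq_of_mul_eq_mul_right hp.pos e2
  refine ⟨h1, ?_, ?_⟩
  · change ¬ p ∣ K.relIndex W
    rw [h2]; exact hK
  · change K.relIndex W ≠ 0
    rw [h2]; exact hK0

end Fermat.Agent.S55
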