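import Fermat.Agent.S55.L.Symbol
import Fermat.Agent.S55.L.PGroup

/-!
# S55 (L), L3 + L4: `dim H²(H, μ) = 1`
TASK S55/L-H2mu.

L3 (split `D`, `p` odd).  `ker_res_le_line`: induction on `k`, for ALL `(H, L, D)` simultaneously.
`k = 0`: `N = ⊤`, `LAux.res_top_injective2`.  `k+1`: `W ⊇ N` normal of index `p`
(`exists_normal_index_p`; open since it contains `N`); `y = res_W x`; the induction hypothesis for
`(↥W, L.sub W, D.res W, N.subgroupOf W)` (`LAux.res_res_map2_eq_zero_iff`) gives `y ∈ line_W`;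
`cores y = p x = 0` (`cores2_res`), so `y = 0` (`eq_zero_of_cores2_eq_zero`) and `x ∈ line`
(`res_eq_zero_iff_mem_line`).
`finrank_H2_μ_of_split`: `x₁, x₂` die on a common normal open `N₀` (`exists_res_eq_zero2`,
`LAux.res_map2_eq_zero_of_le`); `P ⊇ N₀` of index prime to `p` with `[P:N₀] = p^k`
(`exists_sylow_preimage`); `res_P x_i ∈ line_P`, which has dimension one, so they are dependent;
`res_P` is injective (`res_injective2`).  `finrank_le_one_of_dependent`.  `≥ 1` by `finrank_line`.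
L4 (general `D` with a surjective level character).  `≤ 1`: restriction to `ker μ` (index `∣ p-1`)
is injective.  `≥ 1`: `κ(b) ∪ χ ≠ 0` for `b` not a norm.
-/

set_option autoImplicit false

noncomputable section

namespace Fermat.Agent.S55

variable {p : ℕ} [Fact p.Prime]

namespace LocalDatum

/-- `p` kills every `𝔽_p`-module. -/
theorem H2mu_p_smul {M : Type} [AddCommGroup M] [Module (ZMod p) M] (x : M) : p • x = 0 := by
  rw [← Nat.cast_smul_eq_nsmul (ZMod p), CharP.cast_eq_zero, zero_smul]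

/-- an integer prime to `p` is a unit of `𝔽_p`. -/
theorem H2mu_isUnit {n : ℕ} (hn : ¬ p ∣ n) : IsUnit (n : ZMod p) :=
  IsUnit.mk0 _ (fun h => hn ((ZMod.natCast_eq_zero_iff n p).mp h))

/-- two vectors of a line are dependent. -/
theorem H2mu_dependent {V : Type} [AddCommGroup V] [Module (ZMod p) V] (W : Submodule (ZMod p) V)
    (hW : Module.finrank (ZMod p) ↥W = 1) {y₁ y₂ : V} (h₁ : y₁ ∈ W) (h₂ : y₂ ∈ W) :
    ∃ a b : ZMod p, (a ≠ 0 ∨ b ≠ 0) ∧ a • y₁ + b • y₂ = 0 := by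
  obtain ⟨v, -, hv⟩ := finrank_eq_one_iff'.mp hW
  obtain ⟨c₁, hc₁⟩ := hv ⟨y₁, h₁⟩
  obtain ⟨c₂, hc₂⟩ := hv ⟨y₂, h₂⟩
  have e₁ : y₁ = c₁ • (v : V) := (congrArg Subtype.val hc₁).symm
  have e₂ : y₂ = c₂ • (v : V) := (congrArg Subtype.val hc₂).symm
  by_cases h : c₁ = 0
  · refine ⟨1, 0, Or.inl one_ne_zero, ?_⟩
    rw [e₁, h]
    simp
  · refine ⟨c₂, -c₁, Or.inr (neg_ne_zero.mpr h), ?_⟩
    rw [e₁, e₂, smul_smul, smul_smul, ← add_smul]
    have : c₂ * c₁ + -c₁ * c₂ = 0 := by ring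
    rw [this, zero_smul]

/-- (L3, chains) -/
theorem ker_res_le_line (hp2 : p ≠ 2) (k : ℕ) :
    ∀ {H : Type} [Group H] {L : Levels H} (D : LocalDatum p H L), D.IsSplit →
      ∀ (N : Subgroup H) [N.Normal], L.IsOpen N → N.index = p ^ k →
      ∀ x : H2 L D.μ, (Pair.res L D.μ N).map2 x = 0 → x ∈ D.line := by
  induction k with
  | zero =>
    intro H _ L D hs N _ hN hidx x hx
    rw [pow_zero, Subgroup.index_eq_one] at hidx
    subst hidx
    have : x = 0 := LAux.res_top_injective2 D.μ (by rw [hx, map_zero])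
    rw [this]
    exact zero_mem _
  | succ k ih =>
    intro H _ L D hs N _ hN hidx x hx
    obtain ⟨W, hWn, hNW, hWidx, hNWidx⟩ := exists_normal_index_p N k hidx
    have hWo : L.IsOpen W := L.isOpen_mono hN hNW
    have hy : (Pair.res L D.μ W).map2 x ∈ (D.res W hWo).line :=
      ih (D.res W hWo) (hs.res W hWo) (N.subgroupOf W) (Levels.IsOpen.subgroupOf hN W) hNWidx
        ((Pair.res L D.μ W).map2 x) ((LAux.res_res_map2_eq_zero_iff D.μ hNW x).mpr hx)
    have hc : cores2 L D.μ W hWo ((Pair.res L D.μ W).map2 x) = 0 := by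
      rw [cores2_res, hWidx]
      exact H2mu_p_smul x
    have hy0 := D.eq_zero_of_cores2_eq_zero hs hp2 W hWo hWidx _ hy hc
    exact (D.res_eq_zero_iff_mem_line hs hp2 W hWo hWidx x).mp hy0

variable {H : Type} [Group H] {L : Levels H} (D : LocalDatum p H L)

/-- (L3) -/
theorem finrank_H2_μ_of_split (hs : D.IsSplit) (hp2 : p ≠ 2) :
    Module.finrank (ZMod p) (H2 L D.μ) = 1 := by
  have hdep : ∀ x₁ x₂ : H2 L D.μ, ∃ a b : ZMod p, (a ≠ 0 ∨ b ≠ 0) ∧ a • x₁ + b • x₂ = 0 := by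
    intro x₁ x₂
    obtain ⟨N₁, hN₁, hn₁, hf₁, h₁⟩ := exists_res_eq_zero2 x₁
    obtain ⟨N₂, hN₂, hn₂, hf₂, h₂⟩ := exists_res_eq_zero2 x₂
    have hN₀ : L.IsOpen (N₁ ⊓ N₂) := L.isOpen_inf hN₁ hN₂
    have hf₀ : (N₁ ⊓ N₂).FiniteIndex := Levels.IsOpen.finiteIndex hN₀
    obtain ⟨P, hNP, hPp, hP0, k, hk⟩ := exists_sylow_preimage (p := p) (N₁ ⊓ N₂)
    have hPo : L.IsOpen P := L.isOpen_mono hN₀ hNP
    have key : ∀ x : H2 L D.μ, (Pair.res L D.μ (N₁ ⊓ N₂)).map2 x = 0 →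
        (Pair.res L D.μ P).map2 x ∈ (D.res P hPo).line := fun x hx =>
      ker_res_le_line hp2 k (D.res P hPo) (hs.res P hPo) ((N₁ ⊓ N₂).subgroupOf P)
        (Levels.IsOpen.subgroupOf hN₀ P) hk ((Pair.res L D.μ P).map2 x)
        ((LAux.res_res_map2_eq_zero_iff D.μ hNP x).mpr hx)
    obtain ⟨a, b, hab, h⟩ := H2mu_dependent _ ((D.res P hPo).finrank_line (hs.res P hPo) hp2)
      (key x₁ (LAux.res_map2_eq_zero_of_le D.μ inf_le_left x₁ h₁))
      (key x₂ (LAux.res_map2_eq_zero_of_le D.μ inf_le_right x₂ h₂))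
    refine ⟨a, b, hab, res_injective2 L D.μ P hPo (H2mu_isUnit hPp) ?_⟩
    rw [map_add, map_smul, map_smul, map_zero]
    exact h
  obtain ⟨hfin, hle⟩ := finrank_le_one_of_dependent hdep
  have hge : 1 ≤ Module.finrank (ZMod p) (H2 L D.μ) := by
    rw [← D.finrank_line hs hp2]
    exact Submodule.finrank_le _
  exact le_antisymm hle hge

/-- restriction to `ker μ` is injective on `H²`. -/
theorem H2mu_res_ker_injective :
    Function.Injective (Pair.res L D.μ (MonoidHom.ker D.μ)).map2 := by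
  apply res_injective2 L D.μ _ D.isOpen_ker_μ
  apply H2mu_isUnit
  intro h
  have hpp : p.Prime := Fact.out
  have h1 : p ∣ p - 1 := h.trans D.index_ker_μ
  have h2 := Nat.le_of_dvd (Nat.sub_pos_of_lt hpp.one_lt) h1
  have := hpp.pos
  omega

theorem H2mu_finrank_ker (hp2 : p ≠ 2) :
    Module.finrank (ZMod p) (H2 (L.sub (MonoidHom.ker D.μ)) (rsub D.μ (MonoidHom.ker D.μ))) = 1 :=
  (D.res (MonoidHom.ker D.μ) D.isOpen_ker_μ).finrank_H2_μ_of_split
    D.toKummerDatum.isSplit_res_ker hp2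

theorem finite_H2_μ (hp2 : p ≠ 2) : FiniteDimensional (ZMod p) (H2 L D.μ) := by
  have : FiniteDimensional (ZMod p)
      (H2 (L.sub (MonoidHom.ker D.μ)) (rsub D.μ (MonoidHom.ker D.μ))) :=
    Module.finite_of_finrank_pos (by rw [D.H2mu_finrank_ker hp2]; exact one_pos)
  exact FiniteDimensional.of_injective _ D.H2mu_res_ker_injective

/-- (L4) -/
theorem finrank_H2_μ (hp2 : p ≠ 2) (hc : L.HasChar p) :
    Module.finrank (ZMod p) (H2 L D.μ) = 1 := by
  have hfin := D.finite_H2_μ hp2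
  have : FiniteDimensional (ZMod p)
      (H2 (L.sub (MonoidHom.ker D.μ)) (rsub D.μ (MonoidHom.ker D.μ))) :=
    Module.finite_of_finrank_pos (by rw [D.H2mu_finrank_ker hp2]; exact one_pos)
  have hle : Module.finrank (ZMod p) (H2 L D.μ) ≤ 1 := by
    rw [← D.H2mu_finrank_ker hp2]
    exact LinearMap.finrank_le_finrank_of_injective D.H2mu_res_ker_injective
  obtain ⟨χ, hχ, hsurj⟩ := hc
  obtain ⟨b, hb⟩ := D.exists_not_mem_normSub χ hχ hsurj
  have hne : cup L D.μ χ hχ (D.kappa b) ≠ 0 := fun h =>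
    hb ((D.cup_kappa_eq_zero_iff χ hχ hsurj b).mp h)
  have hge : 0 < Module.finrank (ZMod p) (H2 L D.μ) :=
    Module.finrank_pos_iff_exists_ne_zero.mpr ⟨_, hne⟩
  omega

/-- (L4, complement) every normal open subgroup of index `p` kills `H²(H, μ)`.
[`K = ker μ`; `res` from `N` to `N ⊓ K` is injective (index prime to `p`, `index_inf_of_coprime`);
`N ⊓ K` is normal of index `p` in `K`, `D.res K` is split, `H²(K,μ) = line_K`, (S5).] -/
theorem res_eq_zero_of_index_p (hp2 : p ≠ 2) (N : Subgroup H) [N.Normal] (hN : L.IsOpen N)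
    (hidx : N.index = p) (x : H2 L D.μ) : (Pair.res L D.μ N).map2 x = 0 := by
  have hpp : p.Prime := Fact.out
  have hKo : L.IsOpen (MonoidHom.ker D.μ) := D.isOpen_ker_μ
  have hK0 : (MonoidHom.ker D.μ).index ≠ 0 := (Levels.IsOpen.finiteIndex hKo).index_ne_zero
  have hKp : ¬ p ∣ (MonoidHom.ker D.μ).index := by
    intro h
    have h1 : p ∣ p - 1 := h.trans D.index_ker_μ
    have h2 := Nat.le_of_dvd (Nat.sub_pos_of_lt hpp.one_lt) h1
    have := hpp.pos
    omega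
  obtain ⟨i1, i2, i3⟩ := index_inf_of_coprime (MonoidHom.ker D.μ) N hidx hKp hK0
  have hIo : L.IsOpen (MonoidHom.ker D.μ ⊓ N) := L.isOpen_inf hKo hN
  -- the class dies on `K ⊓ N`
  have hfinK : FiniteDimensional (ZMod p)
      (H2 (L.sub (MonoidHom.ker D.μ)) (rsub D.μ (MonoidHom.ker D.μ))) :=
    Module.finite_of_finrank_pos (by rw [D.H2mu_finrank_ker hp2]; exact one_pos)
  have hsK : (D.res (MonoidHom.ker D.μ) hKo).IsSplit := D.toKummerDatum.isSplit_res_ker
  have hfinK' : FiniteDimensional (ZMod p)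
      (H2 (L.sub (MonoidHom.ker D.μ)) (D.res (MonoidHom.ker D.μ) hKo).μ) := hfinK
  have hline : (D.res (MonoidHom.ker D.μ) hKo).line = ⊤ := by
    apply Submodule.eq_top_of_finrank_eq
    rw [(D.res (MonoidHom.ker D.μ) hKo).finrank_line hsK hp2]
    exact (D.H2mu_finrank_ker hp2).symm
  have hidxK : ((MonoidHom.ker D.μ ⊓ N).subgroupOf (MonoidHom.ker D.μ)).index = p := by
    rw [Subgroup.inf_subgroupOf_left]
    exact i1
  have h1 : (Pair.res (L.sub (MonoidHom.ker D.μ)) (rsub D.μ (MonoidHom.ker D.μ))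
      ((MonoidHom.ker D.μ ⊓ N).subgroupOf (MonoidHom.ker D.μ))).map2
        ((Pair.res L D.μ (MonoidHom.ker D.μ)).map2 x) = 0 :=
    ((D.res (MonoidHom.ker D.μ) hKo).res_eq_zero_iff_mem_line hsK hp2
      ((MonoidHom.ker D.μ ⊓ N).subgroupOf (MonoidHom.ker D.μ))
      (Levels.IsOpen.subgroupOf hIo _) hidxK _).mpr (by rw [hline]; exact Submodule.mem_top)
  have h2 : (Pair.res L D.μ (MonoidHom.ker D.μ ⊓ N)).map2 x = 0 :=
    (LAux.res_res_map2_eq_zero_iff D.μ inf_le_left x).mp h1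
  have h3 := (LAux.res_res_map2_eq_zero_iff D.μ
    (inf_le_right : MonoidHom.ker D.μ ⊓ N ≤ N) x).mpr h2
  have hidxN : ¬ p ∣ ((MonoidHom.ker D.μ ⊓ N).subgroupOf N).index := by
    rw [Subgroup.inf_subgroupOf_right]
    exact i2
  exact res_injective2 (L.sub N) (rsub D.μ N) _ (Levels.IsOpen.subgroupOf hIo N)
    (H2mu_isUnit hidxN) (by rw [h3, map_zero])

/-- (L4, complement) `κ(b) ∪ χ` generates `H²(H,μ)` if `b` is not a norm from `ker χ`. -/
theorem exists_smul_cup_kappa (hp2 : p ≠ 2) (χ : H →* Multiplicative (ZMod p))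
    (hχ : L.IsLevel₁ χ) (hs : Function.Surjective χ) (b : ↥(H0 D.α))
    (hb : b ∉ normSub L D.α χ.ker (isOpen_ker_of_isLevel χ hχ)) (x : H2 L D.μ) :
    ∃ c : ZMod p, x = c • cup L D.μ χ hχ (D.kappa b) := by
  have hne : cup L D.μ χ hχ (D.kappa b) ≠ 0 := fun h =>
    hb ((D.cup_kappa_eq_zero_iff χ hχ hs b).mp h)
  obtain ⟨c, hc⟩ := (finrank_eq_one_iff_of_nonzero' _ hne).mp
    (D.finrank_H2_μ hp2 ⟨χ, hχ, hs⟩) x
  exact ⟨c, hc.symm⟩

end LocalDatum

end Fermat.Agent.S55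

end
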