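import Fermat.Agent.S55.Coh.All

/-!
# S55 (L): linearity of `φ ↦ φ_*` for coefficient maps
TASK S55/L-CoeffLin.   All proofs: `induction z using Submodule.Quotient.induction_on` / `H2.mk_surjective`
and `rfl`-like computations on cochains.
-/

set_option autoImplicit false

noncomputable section

namespace Fermat.Agent.S55

variable {k : Type} [CommRing k] {H : Type} [Group H] (L : Levels H)
variable {X Y Z : Type} [AddCommGroup X] [Module k X] [AddCommGroup Y] [Module k Y]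
  [AddCommGroup Z] [Module k Z]

/-- equivariant linear maps. -/
def homSub (ρ : Representation k H X) (σ : Representation k H Y) : Submodule k (X →ₗ[k] Y) where
  carrier := {φ | ∀ g x, φ (ρ g x) = σ g (φ x)}
  add_mem' := by
    intro φ ψ hφ hψ g x
    simp only [LinearMap.add_apply, map_add]
    rw [hφ g x, hψ g x]
  zero_mem' := by intro g x; simp
  smul_mem' := by
    intro c φ hφ g x
    simp only [LinearMap.smul_apply, map_smul]
    rw [hφ g x]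

variable {ρ : Representation k H X} {σ : Representation k H Y} {τ : Representation k H Z}

lemma mem_homSub {φ : X →ₗ[k] Y} : φ ∈ homSub ρ σ ↔ ∀ g x, φ (ρ g x) = σ g (φ x) := Iff.rfl

theorem coeff_map2_add (φ ψ : X →ₗ[k] Y) (hφ : ∀ g x, φ (ρ g x) = σ g (φ x))
    (hψ : ∀ g x, ψ (ρ g x) = σ g (ψ x)) (h : ∀ g x, (φ + ψ) (ρ g x) = σ g ((φ + ψ) x))
    (z : H2 L ρ) :
    (Pair.coeff L (φ + ψ) h).map2 z = (Pair.coeff L φ hφ).map2 z + (Pair.coeff L ψ hψ).map2 z := by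
  obtain ⟨z, rfl⟩ := H2.mk_surjective L ρ z
  rw [Pair.map2_mk, Pair.map2_mk, Pair.map2_mk, ← map_add]
  congr 1

theorem coeff_map2_smul (c : k) (φ : X →ₗ[k] Y) (hφ : ∀ g x, φ (ρ g x) = σ g (φ x))
    (h : ∀ g x, (c • φ) (ρ g x) = σ g ((c • φ) x)) (z : H2 L ρ) :
    (Pair.coeff L (c • φ) h).map2 z = c • (Pair.coeff L φ hφ).map2 z := by
  obtain ⟨z, rfl⟩ := H2.mk_surjective L ρ z
  rw [Pair.map2_mk, Pair.map2_mk, ← map_smul]
  congr 1

theorem coeff_map2_zero (h : ∀ g x, (0 : X →ₗ[k] Y) (ρ g x) = σ g ((0 : X →ₗ[k] Y) x))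
    (z : H2 L ρ) : (Pair.coeff L (0 : X →ₗ[k] Y) h).map2 z = 0 := by
  obtain ⟨z, rfl⟩ := H2.mk_surjective L ρ z
  rw [Pair.map2_mk, ← map_zero (H2.mk L σ)]
  congr 1

theorem coeff_map2_id (h : ∀ g x, (LinearMap.id : X →ₗ[k] X) (ρ g x) = ρ g (LinearMap.id x))
    (z : H2 L ρ) : (Pair.coeff L (LinearMap.id : X →ₗ[k] X) h).map2 z = z := by
  obtain ⟨z, rfl⟩ := H2.mk_surjective L ρ z
  rw [Pair.map2_mk]
  congr 1

theorem coeff_map2_comp (φ : X →ₗ[k] Y) (ψ : Y →ₗ[k] Z) (hφ : ∀ g x, φ (ρ g x) = σ g (φ x))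
    (hψ : ∀ g y, ψ (σ g y) = τ g (ψ y)) (h : ∀ g x, (ψ ∘ₗ φ) (ρ g x) = τ g ((ψ ∘ₗ φ) x))
    (z : H2 L ρ) :
    (Pair.coeff L (ψ ∘ₗ φ) h).map2 z = (Pair.coeff L ψ hψ).map2 ((Pair.coeff L φ hφ).map2 z) := by
  obtain ⟨z, rfl⟩ := H2.mk_surjective L ρ z
  rw [Pair.map2_mk, Pair.map2_mk, Pair.map2_mk]
  congr 1

theorem coeff_map2_congr {φ ψ : X →ₗ[k] Y} (e : φ = ψ) (hφ : ∀ g x, φ (ρ g x) = σ g (φ x))
    (hψ : ∀ g x, ψ (ρ g x) = σ g (ψ x)) (z : H2 L ρ) :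
    (Pair.coeff L φ hφ).map2 z = (Pair.coeff L ψ hψ).map2 z := by
  subst e; rfl

theorem coeff_map2_sum {ι : Type} (s : Finset ι) (φ : ι → X →ₗ[k] Y)
    (hφ : ∀ i g x, φ i (ρ g x) = σ g (φ i x))
    (h : ∀ g x, (∑ i ∈ s, φ i) (ρ g x) = σ g ((∑ i ∈ s, φ i) x)) (z : H2 L ρ) :
    (Pair.coeff L (∑ i ∈ s, φ i) h).map2 z = ∑ i ∈ s, (Pair.coeff L (φ i) (hφ i)).map2 z := by
  classical
  induction s using Finset.induction_on with
  | empty =>
    exact ((coeff_map2_congr L Finset.sum_empty h (by intro g x; simp) z).trans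
      (coeff_map2_zero L _ z)).trans Finset.sum_empty.symm
  | insert a s ha ih =>
    have hs : ∀ g x, (∑ i ∈ s, φ i) (ρ g x) = σ g ((∑ i ∈ s, φ i) x) := by
      intro g x
      simp only [LinearMap.sum_apply, map_sum, hφ]
    have hadd : ∀ g x, (φ a + ∑ i ∈ s, φ i) (ρ g x) = σ g ((φ a + ∑ i ∈ s, φ i) x) := by
      intro g x
      rw [LinearMap.add_apply, LinearMap.add_apply, map_add, hφ a g x, hs g x]
    have e1 := coeff_map2_congr L (Finset.sum_insert ha) h hadd z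
    have e2 := coeff_map2_add L (φ a) (∑ i ∈ s, φ i) (hφ a) hs hadd z
    rw [e1, e2, ih hs]
    exact (Finset.sum_insert ha).symm

theorem exists_coeffPairing (ρ : Representation k H X) (σ : Representation k H Y) :
    ∃ P : ↥(homSub ρ σ) →ₗ[k] H2 L ρ →ₗ[k] H2 L σ,
      ∀ (φ : ↥(homSub ρ σ)) (z : H2 L ρ), P φ z = (Pair.coeff L (φ : X →ₗ[k] Y) φ.2).map2 z :=
  ⟨{ toFun := fun φ => (Pair.coeff L (φ : X →ₗ[k] Y) φ.2).map2
     map_add' := fun φ ψ => by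
       refine LinearMap.ext fun z => ?_
       exact coeff_map2_add L (φ : X →ₗ[k] Y) (ψ : X →ₗ[k] Y) φ.2 ψ.2 (φ + ψ).2 z
     map_smul' := fun c φ => by
       refine LinearMap.ext fun z => ?_
       exact coeff_map2_smul L c (φ : X →ₗ[k] Y) φ.2 (c • φ).2 z }, fun _ _ => rfl⟩

/-- the bilinear map `(φ, z) ↦ φ_* z`. -/
def coeffPairing (ρ : Representation k H X) (σ : Representation k H Y) :
    ↥(homSub ρ σ) →ₗ[k] H2 L ρ →ₗ[k] H2 L σ := Classical.choose (exists_coeffPairing L ρ σ)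

theorem coeffPairing_apply (φ : ↥(homSub ρ σ)) (z : H2 L ρ) :
    coeffPairing L ρ σ φ z = (Pair.coeff L (φ : X →ₗ[k] Y) φ.2).map2 z :=
  Classical.choose_spec (exists_coeffPairing L ρ σ) φ z

/-- a surjection with an equivariant section is surjective on `H²`. -/
theorem map2_surjective_of_section (π : X →ₗ[k] Y) (hπ : ∀ g x, π (ρ g x) = σ g (π x))
    (s : Y →ₗ[k] X) (hs : ∀ g y, s (σ g y) = ρ g (s y)) (hπs : ∀ y, π (s y) = y) :
    Function.Surjective (Pair.coeff L π hπ).map2 := by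
  intro z
  refine ⟨(Pair.coeff L s hs).map2 z, ?_⟩
  have hc : ∀ g y, (π ∘ₗ s) (σ g y) = σ g ((π ∘ₗ s) y) := by
    intro g y
    simp only [LinearMap.comp_apply, hπs]
  rw [← coeff_map2_comp L s π hs hπ hc z]
  have e : π ∘ₗ s = LinearMap.id := by
    ext y; exact hπs y
  exact (coeff_map2_congr L e hc (fun _ _ => rfl) z).trans (coeff_map2_id L _ z)

end Fermat.Agent.S55

end
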