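import Fermat.Agent.S55.L.Kummer
import Fermat.Agent.S55.L.CycRes

/-!
# S55 (L), F3: cyclic classes are cup products; first consequences
TASK S55/L-CycCup.

`D` a Kummer datum, `χ : H →* Multiplicative (ZMod p)` a level character, `b ∈ A^H`, `p β = b`,
`y` the Kummer cocycle (`ι (y g) = g β - β`).  With `c g = χ~(g) • β`:
`d1 c (g,h) = χ~(h)(β + ι (y g)) - χ~(gh) β + χ~(g) β = carry(g,h) • b + ι (χ(h) y(g))`.
So `⟨χ,b⟩ = - ι_* (κ(b) ∪ χ)`.
-/

set_option autoImplicit false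

noncomputable section

namespace Fermat.Agent.S55

variable {p : ℕ} [Fact p.Prime] {H : Type} [Group H] {L : Levels H}

namespace KummerDatum

variable (D : KummerDatum p H L) (χ : H →* Multiplicative (ZMod p)) (hχ : L.IsLevel₁ χ)

/-- (F3) -/
theorem ι2_cup_kappa (b : ↥(H0 D.α)) :
    D.ι2 (cup L D.μ χ hχ (D.kappa b)) = - cycCl L D.α χ hχ b := by
  obtain ⟨β, hβ⟩ := D.div (b : D.A)
  obtain ⟨y, hy⟩ := D.exists_kummer_cocycle b β hβ
  rw [D.kappa_eq b β y hβ hy, cup_mk, ι2_mk, eq_neg_iff_add_eq_zero, cycCl, ← map_add,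
    H2.mk_eq_zero_iff]
  refine ⟨fun g => chv χ g • β, ?_, fun g h => ?_⟩
  · obtain ⟨U, hU, hh⟩ := hχ
    exact ⟨U, hU, fun g s hs => by simp only [chv, hh g s hs]⟩
  · have hα : D.α g β = β + D.ι ((y : H → ZMod p) g) := by rw [hy g]; abel
    have hI : D.ι (Multiplicative.toAdd (χ h) • (y : H → ZMod p) g)
        = chv χ h • D.ι ((y : H → ZMod p) g) := by
      rw [← map_nsmul, ← chv_cast χ h, smul_eq_mul, nsmul_eq_mul]
    have key : chv χ (g * h) • β + ((chv χ g + chv χ h) / p) • (b : D.A)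
        = chv χ g • β + chv χ h • β := by
      rw [← hβ, ← mul_smul, mul_comm _ p, ← add_smul, chv_mul, add_smul]
    have key' : ((chv χ g + chv χ h) / p) • (b : D.A)
        = chv χ g • β + chv χ h • β - chv χ (g * h) • β := eq_sub_of_add_eq' key
    show D.ι (Multiplicative.toAdd (χ h) • (y : H → ZMod p) g)
        + ((chv χ g + chv χ h) / p) • (b : D.A) = _
    rw [hI, key', map_nsmul, hα, smul_add]
    abel

/-- (S1) `κ(b) ∪ χ = 0` iff `b` is a norm from `ker χ`.  [F3, `ι2_injective`, F2c] -/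
theorem cup_kappa_eq_zero_iff (hs : Function.Surjective χ) (b : ↥(H0 D.α)) :
    cup L D.μ χ hχ (D.kappa b) = 0 ↔
      b ∈ normSub L D.α χ.ker (isOpen_ker_of_isLevel χ hχ) := by
  rw [← cycCl_eq_zero_iff L D.α χ hχ hs (D.h90 χ.ker (isOpen_ker_of_isLevel χ hχ)) b]
  have h := D.ι2_cup_kappa χ hχ b
  constructor
  · intro h0
    rw [h0, map_zero] at h
    exact neg_eq_zero.mp h.symm
  · intro h0
    rw [h0, neg_zero] at h
    exact (map_eq_zero_iff D.ι2 D.ι2_injective).mp h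

/-- (S5, first half) a class of `H²(H,μ)` which dies on `ker χ` is a symbol `κ(b) ∪ χ`.
[`res_ι2`, F2d, F3, `ι2_injective`] -/
theorem exists_cup_kappa_of_res_eq_zero (hs : Function.Surjective χ) (x : H2 L D.μ)
    (hx : (Pair.res L D.μ χ.ker).map2 x = 0) :
    ∃ b : ↥(H0 D.α), x = cup L D.μ χ hχ (D.kappa b) := by
  have hK := isOpen_ker_of_isLevel χ hχ
  have h1 : (Pair.res L D.α χ.ker).map2 (D.ι2 x) = 0 := by
    rw [D.res_ι2 χ.ker hK x, hx]
    exact map_zero _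
  obtain ⟨b, hb⟩ := exists_cycCl_of_res_eq_zero L D.α χ hχ hs (D.h90 χ.ker hK) (D.ι2 x) h1
  refine ⟨-b, D.ι2_injective ?_⟩
  rw [D.ι2_cup_kappa χ hχ (-b), cycCl_neg, neg_neg, hb]

/-- symbols with `χ` die on `ker χ`.  [`Pair.map2_cup`; the restricted character is trivial] -/
theorem res_cup_eq_zero (y : H1 L D.μ) :
    (Pair.res L D.μ χ.ker).map2 (cup L D.μ χ hχ y) = 0 := by
  rw [Pair.map2_cup]
  obtain ⟨z, hz⟩ := H1.mk_surjective _ _ ((Pair.res L D.μ χ.ker).map1 y)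
  rw [← hz, cup_mk]
  have h0 : (⟨cupC (χ.comp (Pair.res L D.μ χ.ker).f) (z : ↥χ.ker → ZMod p),
      cupC_mem_Z2 _ _ _ ((Pair.res L D.μ χ.ker).isLevel_comp_char hχ) z.2⟩ :
      ↥(Z2 (L.sub χ.ker) (rsub D.μ χ.ker))) = 0 := by
    apply Subtype.ext
    funext g
    have hg : χ ((g.2 : ↥χ.ker) : H) = 1 := g.2.2
    show Multiplicative.toAdd (χ ((g.2 : ↥χ.ker) : H)) • (z : ↥χ.ker → ZMod p) g.1 = 0
    rw [hg]
    simp
  rw [h0, map_zero]

/-- `cores κ_V(b') = κ(N b')`.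
DIRECT PROOF: `Ω = H ⧸ V`.  `f ∈ H⁰(Fun α Ω)` with `f 1 = b'` (`sh_bijective0`), `φ : Ω → A` with
`p φ = f` pointwise, `w g := ι⁻¹ (g φ - φ) : Ω → ZMod p` is a level 1-cocycle in `Fun μ Ω`;
`sh [w]` is the Kummer class of `b'` (root `φ 1`), `Sum_* [w]` is the Kummer class of
`Sum f = cores0 b'` (root `Sum φ`); conclude with `cores1_sh`, `cores0_sh`, `kappa_eq`. -/
theorem cores1_kappa (V : Subgroup H) (hV : L.IsOpen V) (b' : ↥(H0 (rsub D.α V))) :
    cores1 L D.μ V hV ((D.res V hV).kappa b') = D.kappa (cores0 L D.α V hV b') := by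
  classical
  have := L.finite_quotient hV
  have := L.smoothSet_quotient' hV
  let _ := Fintype.ofFinite (H ⧸ V)
  obtain ⟨f, rfl⟩ := (sh_bijective0 L D.α V).2 b'
  choose φ hφ using fun ω : H ⧸ V => D.div ((f : H ⧸ V → D.A) ω)
  have hf : ∀ g ω, D.α g ((f : H ⧸ V → D.A) (g⁻¹ • ω)) = (f : H ⧸ V → D.A) ω :=
    fun g ω => congrFun (f.2 g) ω
  have hw0 : ∀ g ω, p • (D.α g (φ (g⁻¹ • ω)) - φ ω) = 0 := by
    intro g ω
    rw [smul_sub, ← map_nsmul, hφ, hφ, hf, sub_self]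
  choose w hw using fun g ω => D.ι_surj _ (hw0 g ω)
  have hwZ : w ∈ Z1 L (Fun D.μ (H ⧸ V)) := by
    rw [mem_Z1]
    constructor
    · intro g h
      funext ω
      apply D.ι_inj
      simp only [Pi.add_apply, Fun_apply, map_add, ← D.ι_equiv, hw, map_sub, mul_inv_rev,
        mul_smul, map_mul, Module.End.mul_apply]
      abel
    · obtain ⟨U, hU, hUφ⟩ := Smooth.exists_isOpen (L := L) (ρ := Fun D.α (H ⧸ V)) φ
      refine ⟨U, hU, fun g s hs => ?_⟩
      funext ω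
      apply D.ι_inj
      rw [hw, hw]
      have := congrFun (hUφ s hs) (g⁻¹ • ω)
      rw [Fun_apply] at this
      rw [map_mul, Module.End.mul_apply, mul_inv_rev, mul_smul, this]
  have h1 : (D.res V hV).kappa ((Pair.sh L D.α V).map0 f)
      = (Pair.sh L D.μ V).map1 (H1.mk L (Fun D.μ (H ⧸ V)) ⟨w, hwZ⟩) := by
    rw [Pair.map1_mk]
    refine (D.res V hV).kappa_eq _ (φ ((1 : H) : H ⧸ V)) _ (hφ _) (fun v => ?_)
    show D.ι (w (v : H) ((1 : H) : H ⧸ V))
      = D.α (v : H) (φ ((1 : H) : H ⧸ V)) - φ ((1 : H) : H ⧸ V)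
    rw [hw]
    have : (v : H)⁻¹ • ((1 : H) : H ⧸ V) = ((1 : H) : H ⧸ V) :=
      (mem_iff_smul_coe_one V _).1 (V.inv_mem v.2)
    rw [this]
  rw [h1, cores1_sh, cores0_sh, Pair.map1_mk]
  symm
  refine D.kappa_eq _ (∑ ω, φ ω) _ ?_ (fun g => ?_)
  · show p • ∑ ω, φ ω = sumMap ℤ D.A (H ⧸ V) (f : H ⧸ V → D.A)
    rw [sumMap_apply, Finset.smul_sum]
    exact Finset.sum_congr rfl fun ω _ => hφ ω
  · show D.ι (sumMap (ZMod p) (ZMod p) (H ⧸ V) (w g)) = _
    rw [sumMap_apply, map_sum]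
    simp only [hw, Finset.sum_sub_distrib, map_sum]
    congr 1
    exact Fintype.sum_equiv (MulAction.toPerm g⁻¹) _ _ (fun _ => rfl)

/-- projection formula for symbols. [`cores2_cup`, `cores1_kappa`] -/
theorem cores2_cup_kappa (V : Subgroup H) (hV : L.IsOpen V) (b' : ↥(H0 (rsub D.α V))) :
    cores2 L D.μ V hV (cup (L.sub V) (rsub D.μ V) (χ.comp V.subtype)
      ((Pair.res L D.μ V).isLevel_comp_char hχ) ((D.res V hV).kappa b')) =
      cup L D.μ χ hχ (D.kappa (cores0 L D.α V hV b')) := by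
  rw [← D.cores1_kappa V hV b']
  exact cores2_cup L D.μ V hV χ hχ _

end KummerDatum

end Fermat.Agent.S55

end
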