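import Fermat.Agent.S55.L.H2mu
import Fermat.Agent.S55.L.CoeffLin

/-!
# S55 (L), L5 first part: the Euler characteristic squeeze for `p`-group quotients
TASKS S55/L-EulerP-a (up to `phi_le_zero`), S55/L-EulerP-b (the rest).

`D` a split local datum, `p` odd.  `φ(X) := χ(H;X) + n dim X`.  CLASS 𝒞(N): finite dimensional `ρ`
trivial on a normal open `N` with `[H:N] = p^k`.
* `eulerChar_μ`: `χ(H;μ) = 1 - (2+n) + 1 = -n`.
* `finite_of_pGroup`, `phi_le_zero`: induction on `dim X` (for all `X`): `X ≠ 0` has a fixed vector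
  `v ≠ 0` (`exists_fixed_vector`); `i : ZMod p → X, c ↦ c • v` is equivariant for `D.μ` (split), SES
  `SES.ofInj i` : `0 → μ → X → X/v → 0`; `finiteDimensional_H*_mid`, `eulerChar_le`.
* `phi_trivial`: for a trivial action the SES above has an equivariant section
  (`map2_surjective_of_section`), so the defect in `eulerChar_ses` vanishes: `φ(X) = φ(μ) + φ(X/v) = 0`.
* `phi_Fun`: Shapiro (`sh_bijective0/1/2`): `φ_H(Fun ρ (H ⧸ V)) = φ_V(ρ|V)` as `n_V = n [H:V]`.
* `phi_eq_zero`: `sumSES ρ (H ⧸ N)`: `0 → R → Fun ρ (H ⧸ N) → X → 0`, all three in 𝒞(N):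
  `0 = φ_N(ρ|N) = φ(Fun) ≤ φ(R) + φ(X) ≤ φ(X) ≤ 0`.
* `map2_surjective_of_pGroup`: `eulerChar_ses` + `phi_eq_zero` for all three terms: the defect
  `dim coker (H² B → H² C)` is `0`.
-/

set_option autoImplicit false

noncomputable section

namespace Fermat.Agent.S55

open Module

variable {p : ℕ} [Fact p.Prime] {H : Type} [Group H] {L : Levels H}

namespace LocalDatum

variable (D : LocalDatum p H L)

/-- `φ(X) = χ(H;X) + n dim X`. -/
def phi {X : Type} [AddCommGroup X] [Module (ZMod p) X] (ρ : Representation (ZMod p) H X) : ℤ :=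
  eulerChar L ρ + D.n * finrank (ZMod p) X

theorem eulerChar_μ (hs : D.IsSplit) (hp2 : p ≠ 2) : eulerChar L D.μ = - (D.n : ℤ) := by
  have h0 : H0 D.μ = ⊤ := by
    rw [eq_top_iff]
    intro x _ g
    exact hs g x
  have h0' : finrank (ZMod p) ↥(H0 D.μ) = 1 := by
    rw [h0, finrank_top, finrank_self]
  unfold eulerChar
  rw [h0', D.finrank_H1_μ hs, D.finrank_H2_μ_of_split hs hp2]
  push_cast
  ring

theorem phi_μ (hs : D.IsSplit) (hp2 : p ≠ 2) : D.phi D.μ = 0 := by
  unfold phi
  rw [D.eulerChar_μ hs hp2, finrank_self]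
  simp

namespace EulerP

/-- cohomology of the zero module. -/
theorem subsingleton_H1 {X : Type} [AddCommGroup X] [Module (ZMod p) X] [Subsingleton X]
    (ρ : Representation (ZMod p) H X) : Subsingleton (H1 L ρ) := by
  refine ⟨fun a b => ?_⟩
  obtain ⟨z, rfl⟩ := H1.mk_surjective L ρ a
  obtain ⟨z', rfl⟩ := H1.mk_surjective L ρ b
  rw [Subsingleton.elim z z']

theorem subsingleton_H2 {X : Type} [AddCommGroup X] [Module (ZMod p) X] [Subsingleton X]
    (ρ : Representation (ZMod p) H X) : Subsingleton (H2 L ρ) := by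
  refine ⟨fun a b => ?_⟩
  obtain ⟨z, rfl⟩ := H2.mk_surjective L ρ a
  obtain ⟨z', rfl⟩ := H2.mk_surjective L ρ b
  rw [Subsingleton.elim z z']

theorem eulerChar_of_subsingleton {X : Type} [AddCommGroup X] [Module (ZMod p) X] [Subsingleton X]
    (ρ : Representation (ZMod p) H X) : eulerChar L ρ = 0 := by
  have := subsingleton_H1 (L := L) ρ
  have := subsingleton_H2 (L := L) ρ
  unfold eulerChar
  rw [finrank_zero_of_subsingleton, finrank_zero_of_subsingleton, finrank_zero_of_subsingleton]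
  simp

section line

variable {X : Type} [AddCommGroup X] [Module (ZMod p) X] (ρ : Representation (ZMod p) H X) (v : X)

/-- `c ↦ c • v`. -/
abbrev lineMap : ZMod p →ₗ[ZMod p] X := LinearMap.toSpanSingleton (ZMod p) X v

variable {D ρ v}

theorem lineMap_comm (hs : D.IsSplit) (hv : ∀ g, ρ g v = v) (g : H) (c : ZMod p) :
    lineMap v (D.μ g c) = ρ g (lineMap v c) := by
  rw [hs g c]
  simp [LinearMap.toSpanSingleton_apply, hv g]

theorem lineMap_injective (hv0 : v ≠ 0) : Function.Injective (lineMap (p := p) v) := by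
  intro c c' h
  simp only [LinearMap.toSpanSingleton_apply] at h
  exact smul_left_injective (ZMod p) hv0 h

theorem finrank_quot [FiniteDimensional (ZMod p) X] (hv0 : v ≠ 0) :
    finrank (ZMod p) (X ⧸ LinearMap.range (lineMap (p := p) v)) + 1 = finrank (ZMod p) X := by
  have h1 := Submodule.finrank_quotient_add_finrank (LinearMap.range (lineMap (p := p) v))
  rw [LinearMap.finrank_range_of_inj (lineMap_injective hv0), finrank_self] at h1
  exact h1

theorem cokerRep_eq_one {A B : Type} [AddCommGroup A] [Module (ZMod p) A] [AddCommGroup B]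
    [Module (ZMod p) B] {ρA : Representation (ZMod p) H A} {ρB : Representation (ZMod p) H B}
    (i : A →ₗ[ZMod p] B) (hi : ∀ h a, i (ρA h a) = ρB h (i a)) {n : H} (hn : ρB n = 1) :
    cokerRep i hi n = 1 := by
  apply LinearMap.ext
  intro y
  obtain ⟨b, rfl⟩ := Submodule.mkQ_surjective _ y
  change Submodule.mkQ _ (ρB n b) = _
  rw [hn]
  rfl

end line

/-- the combined induction. -/
theorem main (hs : D.IsSplit) (hp2 : p ≠ 2) (N : Subgroup H) [N.Normal]
    (hN : L.IsOpen N) (k : ℕ) (hk : N.index = p ^ k) : ∀ (d : ℕ) (X : Type) [AddCommGroup X]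
    [Module (ZMod p) X] [FiniteDimensional (ZMod p) X] (ρ : Representation (ZMod p) H X),
    finrank (ZMod p) X = d → (∀ n ∈ N, ρ n = 1) →
    FiniteDimensional (ZMod p) (H1 L ρ) ∧ FiniteDimensional (ZMod p) (H2 L ρ) ∧ D.phi ρ ≤ 0 := by
  intro d
  induction d with
  | zero =>
    intro X _ _ _ ρ hd _
    have : Subsingleton X := finrank_zero_iff.1 hd
    have := subsingleton_H1 (L := L) ρ
    have := subsingleton_H2 (L := L) ρ
    refine ⟨inferInstance, inferInstance, ?_⟩
    unfold phi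
    rw [eulerChar_of_subsingleton, hd]
    simp
  | succ d ih =>
    intro X _ _ _ ρ hd hρ
    have : Nontrivial X := nontrivial_of_finrank_pos (R := ZMod p) (by omega)
    obtain ⟨v, hv0, hv⟩ := exists_fixed_vector ρ N k hk hρ
    have hsm : Smooth L ρ := Smooth.of_forall_eq_one hN hρ
    have hcomm := lineMap_comm (D := D) (ρ := ρ) (v := v) hs hv
    let σ : Representation (ZMod p) H (X ⧸ LinearMap.range (lineMap (p := p) v)) :=
      cokerRep (ρA := D.μ) (ρB := ρ) (lineMap v) hcomm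
    let E : SES D.μ ρ σ := SES.ofInj (ρA := D.μ) (ρB := ρ) (lineMap (p := p) v) hcomm
      (lineMap_injective hv0)
    have hq := finrank_quot (p := p) hv0
    have hσ1 : ∀ n ∈ N, σ n = 1 := fun n hn =>
      cokerRep_eq_one (ρA := D.μ) (ρB := ρ) (lineMap v) hcomm (hρ n hn)
    obtain ⟨h1, h2, h3⟩ := ih (X ⧸ LinearMap.range (lineMap (p := p) v)) σ (by omega) hσ1
    have h4 := D.finite_H1_μ
    have h5 := D.finite_H2_μ hp2
    have h6 : FiniteDimensional (ZMod p) (H1 L ρ) := finiteDimensional_H1_mid L E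
    have h7 : FiniteDimensional (ZMod p) (H2 L ρ) := finiteDimensional_H2_mid L E
    refine ⟨h6, h7, ?_⟩
    have h8 := eulerChar_le L E
    have h9 := D.eulerChar_μ hs hp2
    unfold phi at h3 ⊢
    rw [← hq]
    push_cast
    linarith

/-- the induction for trivial actions. -/
theorem main_trivial (hs : D.IsSplit) (hp2 : p ≠ 2) : ∀ (d : ℕ) (X : Type) [AddCommGroup X]
    [Module (ZMod p) X] [FiniteDimensional (ZMod p) X] (ρ : Representation (ZMod p) H X),
    finrank (ZMod p) X = d → (∀ g, ρ g = 1) → D.phi ρ = 0 := by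
  have htop : (⊤ : Subgroup H).index = p ^ 0 := by simp
  intro d
  induction d with
  | zero =>
    intro X _ _ _ ρ hd _
    have : Subsingleton X := finrank_zero_iff.1 hd
    unfold phi
    rw [eulerChar_of_subsingleton, hd]
    simp
  | succ d ih =>
    intro X _ _ _ ρ hd hρ
    have : Nontrivial X := nontrivial_of_finrank_pos (R := ZMod p) (by omega)
    obtain ⟨v, hv0⟩ := exists_ne (0 : X)
    have hv : ∀ g, ρ g v = v := fun g => by rw [hρ g]; rfl
    have hsm : Smooth L ρ := Smooth.of_forall_eq_one L.isOpen_top (fun n _ => hρ n)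
    have hcomm := lineMap_comm (D := D) (ρ := ρ) (v := v) hs hv
    let σ : Representation (ZMod p) H (X ⧸ LinearMap.range (lineMap (p := p) v)) :=
      cokerRep (ρA := D.μ) (ρB := ρ) (lineMap v) hcomm
    let E : SES D.μ ρ σ := SES.ofInj (ρA := D.μ) (ρB := ρ) (lineMap (p := p) v) hcomm
      (lineMap_injective hv0)
    have hq := finrank_quot (p := p) hv0
    have hσ : ∀ g, σ g = 1 := fun g =>
      cokerRep_eq_one (ρA := D.μ) (ρB := ρ) (lineMap v) hcomm (hρ g)
    have h3 := ih (X ⧸ LinearMap.range (lineMap (p := p) v)) σ (by omega) hσ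
    obtain ⟨h1, h2, -⟩ := main D hs hp2 ⊤ L.isOpen_top 0 htop _
      (X ⧸ LinearMap.range (lineMap (p := p) v)) σ rfl (fun n _ => hσ n)
    obtain ⟨h6, h7, -⟩ := main D hs hp2 ⊤ L.isOpen_top 0 htop _ X ρ rfl (fun n _ => hρ n)
    have h4 := D.finite_H1_μ
    have h5 := D.finite_H2_μ hp2
    have h8 := eulerChar_ses L E
    have h9 := D.eulerChar_μ hs hp2
    obtain ⟨s, hs'⟩ := LinearMap.exists_rightInverse_of_surjective E.π
      (LinearMap.range_eq_top.2 E.surj)
    have hsurj : Function.Surjective (E.πP L).map2 :=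
      map2_surjective_of_section L E.π E.π_comm s
        (fun g y => by rw [hσ g, hρ g]; rfl) (fun y => LinearMap.congr_fun hs' y)
    have hdef : finrank (ZMod p) (H2 L σ ⧸ LinearMap.range (E.πP L).map2) = 0 := by
      rw [LinearMap.range_eq_top.2 hsurj]
      exact finrank_zero_of_subsingleton
    rw [hdef] at h8
    unfold phi at h3 ⊢
    rw [← hq]
    push_cast at h8 ⊢
    linarith

end EulerP

section
variable {X : Type} [AddCommGroup X] [Module (ZMod p) X] [FiniteDimensional (ZMod p) X]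
  (ρ : Representation (ZMod p) H X)

theorem finite_of_pGroup (hs : D.IsSplit) (hp2 : p ≠ 2) (N : Subgroup H) [N.Normal]
    (hN : L.IsOpen N) (k : ℕ) (hk : N.index = p ^ k) (hρ : ∀ n ∈ N, ρ n = 1) :
    FiniteDimensional (ZMod p) (H1 L ρ) ∧ FiniteDimensional (ZMod p) (H2 L ρ) :=
  have h := EulerP.main D hs hp2 N hN k hk _ X ρ rfl hρ
  ⟨h.1, h.2.1⟩

theorem phi_le_zero (hs : D.IsSplit) (hp2 : p ≠ 2) (N : Subgroup H) [N.Normal]
    (hN : L.IsOpen N) (k : ℕ) (hk : N.index = p ^ k) (hρ : ∀ n ∈ N, ρ n = 1) :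
    D.phi ρ ≤ 0 :=
  (EulerP.main D hs hp2 N hN k hk _ X ρ rfl hρ).2.2

theorem phi_trivial (hs : D.IsSplit) (hp2 : p ≠ 2) (hρ : ∀ g, ρ g = 1) : D.phi ρ = 0 :=
  EulerP.main_trivial D hs hp2 _ X ρ rfl hρ

theorem eulerChar_Fun [Smooth L ρ] (V : Subgroup H) (hV : L.IsOpen V) :
    eulerChar L (Fun ρ (H ⧸ V)) = eulerChar (L.sub V) (rsub ρ V) := by
  unfold eulerChar
  rw [(LinearEquiv.ofBijective _ (sh_bijective0 L ρ V)).finrank_eq,
    (LinearEquiv.ofBijective _ (sh_bijective1 L ρ V hV)).finrank_eq,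
    (LinearEquiv.ofBijective _ (sh_bijective2 L ρ V hV)).finrank_eq]

theorem phi_Fun [Smooth L ρ] (V : Subgroup H) (hV : L.IsOpen V) :
    D.phi (Fun ρ (H ⧸ V)) = (D.res V hV).phi (rsub ρ V) := by
  have := L.finite_quotient hV
  have := Fintype.ofFinite (H ⧸ V)
  unfold phi
  rw [eulerChar_Fun ρ V hV, LocalDatum.res_n, finrank_pi_fintype]
  simp only [Finset.sum_const, Finset.card_univ, smul_eq_mul]
  rw [← Nat.card_eq_fintype_card, ← Subgroup.index_eq_card]
  push_cast
  ring

theorem phi_eq_zero (hs : D.IsSplit) (hp2 : p ≠ 2) (N : Subgroup H) [N.Normal]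
    (hN : L.IsOpen N) (k : ℕ) (hk : N.index = p ^ k) (hρ : ∀ n ∈ N, ρ n = 1) :
    D.phi ρ = 0 := by
  have hfin := L.finite_quotient hN
  have hsm : Smooth L ρ := Smooth.of_forall_eq_one hN hρ
  have hFun : ∀ n ∈ N, Fun ρ (H ⧸ N) n = 1 := by
    intro n hn
    apply LinearMap.ext
    intro f
    funext w
    induction w using QuotientGroup.induction_on with
    | H g =>
      rw [Fun_apply, hρ n hn]
      have : n⁻¹ • (g : H ⧸ N) = (g : H ⧸ N) := by
        change ((n⁻¹ * g : H) : H ⧸ N) = (g : H ⧸ N)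
        rw [QuotientGroup.eq]
        have h1 : (n⁻¹ * g)⁻¹ * g = g⁻¹ * n * g⁻¹⁻¹ := by group
        rw [h1]
        exact ‹N.Normal›.conj_mem n hn g⁻¹
      rw [this]
      rfl
  have hsmF : Smooth L (Fun ρ (H ⧸ N)) := Smooth.of_forall_eq_one hN hFun
  let E := sumSES ρ (H ⧸ N)
  have hR : ∀ n ∈ N, kerRep (sumMap (ZMod p) X (H ⧸ N)) (sumMap_comm ρ (H ⧸ N)) n = 1 := by
    intro n hn
    apply LinearMap.ext
    intro f
    apply Subtype.ext
    change Fun ρ (H ⧸ N) n (f : H ⧸ N → X) = f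
    rw [hFun n hn]
    rfl
  obtain ⟨a1, a2⟩ := D.finite_of_pGroup _ hs hp2 N hN k hk hR
  obtain ⟨b1, b2⟩ := D.finite_of_pGroup _ hs hp2 N hN k hk hFun
  obtain ⟨c1, c2⟩ := D.finite_of_pGroup _ hs hp2 N hN k hk hρ
  have h1 := D.phi_le_zero _ hs hp2 N hN k hk hR
  have h2 := D.phi_le_zero _ hs hp2 N hN k hk hρ
  have h3 : D.phi (Fun ρ (H ⧸ N)) = 0 := by
    rw [D.phi_Fun ρ N hN]
    exact (D.res N hN).phi_trivial _ (hs.res N hN) hp2 (fun g => hρ g g.2)
  have h4 := eulerChar_le L E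
  have h5 : finrank (ZMod p) ↥(LinearMap.ker (sumMap (ZMod p) X (H ⧸ N))) + finrank (ZMod p) X =
      finrank (ZMod p) (H ⧸ N → X) := by
    have := LinearMap.finrank_range_add_finrank_ker (sumMap (ZMod p) X (H ⧸ N))
    rw [LinearMap.range_eq_top.2 (sumMap_surjective (H ⧸ N)), finrank_top] at this
    omega
  unfold phi at h1 h2 h3 ⊢
  rw [← h5] at h3
  push_cast at h3
  nlinarith

end

/-- right exactness of `H²` in the class 𝒞(N). -/
theorem map2_surjective_of_pGroup (hs : D.IsSplit) (hp2 : p ≠ 2)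
    {A B C : Type} [AddCommGroup A] [Module (ZMod p) A] [AddCommGroup B] [Module (ZMod p) B]
    [AddCommGroup C] [Module (ZMod p) C] [FiniteDimensional (ZMod p) B]
    {ρA : Representation (ZMod p) H A} {ρB : Representation (ZMod p) H B}
    {ρC : Representation (ZMod p) H C} (E : SES ρA ρB ρC)
    (N : Subgroup H) [N.Normal] (hN : L.IsOpen N) (k : ℕ) (hk : N.index = p ^ k)
    (hρ : ∀ n ∈ N, ρB n = 1) : Function.Surjective (E.πP L).map2 := by
  have hA : FiniteDimensional (ZMod p) A := FiniteDimensional.of_injective E.i E.inj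
  have hC : FiniteDimensional (ZMod p) C := FiniteDimensional.of_surjective E.π E.surj
  have hsm : Smooth L ρB := Smooth.of_forall_eq_one hN hρ
  have hρA : ∀ n ∈ N, ρA n = 1 := by
    intro n hn
    apply LinearMap.ext
    intro a
    apply E.inj
    rw [E.i_comm, hρ n hn]
    rfl
  have hρC : ∀ n ∈ N, ρC n = 1 := by
    intro n hn
    apply LinearMap.ext
    intro c
    obtain ⟨b, rfl⟩ := E.surj c
    rw [← E.π_comm, hρ n hn]
    rfl
  obtain ⟨a1, a2⟩ := D.finite_of_pGroup _ hs hp2 N hN k hk hρA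
  obtain ⟨b1, b2⟩ := D.finite_of_pGroup _ hs hp2 N hN k hk hρ
  obtain ⟨c1, c2⟩ := D.finite_of_pGroup _ hs hp2 N hN k hk hρC
  have h1 := D.phi_eq_zero _ hs hp2 N hN k hk hρA
  have h2 := D.phi_eq_zero _ hs hp2 N hN k hk hρ
  have h3 := D.phi_eq_zero _ hs hp2 N hN k hk hρC
  have h4 := eulerChar_ses L E
  have h5 : finrank (ZMod p) A + finrank (ZMod p) C = finrank (ZMod p) B := by
    have := LinearMap.finrank_range_add_finrank_ker E.π
    rw [LinearMap.range_eq_top.2 E.surj, finrank_top, (LinearMap.exact_iff.1 E.exact),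
      LinearMap.finrank_range_of_inj E.inj] at this
    omega
  unfold phi at h1 h2 h3
  rw [← h5] at h2
  push_cast at h2
  have h6 : (finrank (ZMod p) (H2 L ρC ⧸ LinearMap.range (E.πP L).map2) : ℤ) = 0 := by
    nlinarith
  have h7 : finrank (ZMod p) (H2 L ρC ⧸ LinearMap.range (E.πP L).map2) = 0 := by exact_mod_cast h6
  have h8 : Subsingleton (H2 L ρC ⧸ LinearMap.range (E.πP L).map2) := finrank_zero_iff.1 h7
  exact LinearMap.range_eq_top.1 (Submodule.Quotient.subsingleton_iff.1 h8)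

end LocalDatum

end Fermat.Agent.S55

end
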