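import Mathlib

/-!
# S55 (L), ALG1a: the index `#coker / #ker` of an endomorphism of an abelian group

Pure algebra (Mathlib only).  For `f : M →+ M` put `c f = f.range.index` (`= #coker f`, `0` if
infinite) and `k f = Nat.card f.ker` (`0` if infinite).  "`f` has an index" means `c f ≠ 0` and
`k f ≠ 0`.  The index `c f / k f` is multiplicative for compositions and in short exact sequences.
-/

set_option autoImplicit false

namespace Fermat.Agent.S55.Ind

variable {M : Type} [AddCommGroup M]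

/-- `f` has finite kernel and cokernel. -/
def Fred (f : M →+ M) : Prop := f.range.index ≠ 0 ∧ Nat.card f.ker ≠ 0

/-- index calculus for a composition. -/
theorem comp_data (f g : M →+ M) : ∃ a b n : ℕ,
    (f.comp g).range.index = a * f.range.index ∧ g.range.index = b * a ∧
      Nat.card f.ker = n * b ∧ Nat.card (f.comp g).ker = Nat.card g.ker * n := by
  refine ⟨(g.range ⊔ f.ker).index, g.range.relIndex f.ker, Nat.card ↥(f.ker ⊓ g.range), ?_, ?_, ?_, ?_⟩
  · rw [← AddMonoidHom.map_range, AddSubgroup.index_map]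
  · rw [← AddSubgroup.relIndex_mul_index (le_sup_left : g.range ≤ g.range ⊔ f.ker),
      AddSubgroup.relIndex_sup_left]
  · rw [← AddSubgroup.relIndex_bot_left, ← AddSubgroup.relIndex_bot_left,
      ← AddSubgroup.inf_relIndex_left (H := f.ker) (K := g.range),
      AddSubgroup.relIndex_mul_relIndex _ _ _ bot_le inf_le_left]
  · have h1 : (f.comp g).ker = f.ker.comap g := rfl
    rw [h1, ← AddSubgroup.relIndex_bot_left, ← AddSubgroup.relIndex_bot_left,
      ← AddSubgroup.relIndex_mul_relIndex ⊥ g.ker (f.ker.comap g) bot_le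
        (fun x hx => by
          rw [AddSubgroup.mem_comap, AddMonoidHom.mem_ker, (AddMonoidHom.mem_ker).mp hx, map_zero]),
      AddSubgroup.relIndex_ker, AddSubgroup.map_comap_eq, inf_comm]

/-- kernel-cokernel sequence `0 → ker g → ker fg → ker f → coker g → coker fg → coker f → 0`. -/
theorem fred_comp {f g : M →+ M} (hf : Fred f) (hg : Fred g) : Fred (f.comp g) := by
  obtain ⟨a, b, n, h1, h2, h3, h4⟩ := comp_data f g
  obtain ⟨hf1, hf2⟩ := hf
  obtain ⟨hg1, hg2⟩ := hg
  rw [h2] at hg1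
  rw [h3] at hf2
  refine ⟨?_, ?_⟩
  · rw [h1]
    exact mul_ne_zero (right_ne_zero_of_mul hg1) hf1
  · rw [h4]
    exact mul_ne_zero hg2 (left_ne_zero_of_mul hf2)

theorem index_comp {f g : M →+ M} (hf : Fred f) (hg : Fred g) :
    (f.comp g).range.index * (Nat.card f.ker * Nat.card g.ker) =
      f.range.index * g.range.index * Nat.card (f.comp g).ker := by
  obtain ⟨a, b, n, h1, h2, h3, h4⟩ := comp_data f g
  rw [h1, h2, h3, h4]
  ring

/-- two endomorphisms with the same kernel and the same range. -/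
theorem fred_congr {f g : M →+ M} (hk : f.ker = g.ker) (hr : f.range = g.range) (hf : Fred f) :
    Fred g := by
  unfold Fred at *
  rw [← hk, ← hr]
  exact hf

variable {K B : Type} [AddCommGroup K] [AddCommGroup B]

/-- index calculus for a short exact sequence (all the content of the snake lemma). -/
theorem ses_data {i : K →+ B} {π : B →+ M} (hi : Function.Injective i)
    (hπ : Function.Surjective π) (hex : ∀ b, π b = 0 ↔ ∃ x, i x = b)
    {fK : K →+ K} {fB : B →+ B} {fM : M →+ M} (h1 : ∀ x, i (fK x) = fB (i x))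
    (h2 : ∀ b, π (fB b) = fM (π b)) : ∃ α s β κ γ : ℕ,
      fB.range.index = α * γ ∧ fK.range.index = s * α ∧ Nat.card fM.ker = β * s ∧
        Nat.card fB.ker = κ * β ∧ Nat.card fK.ker = κ ∧ fM.range.index = γ := by
  set J : AddSubgroup B := π.ker with hJ
  set Z : AddSubgroup B := fB.ker with hZ
  set R : AddSubgroup B := fB.range with hR
  set U : AddSubgroup B := J.comap fB with hU
  have hJi : J = i.range := by
    ext b
    rw [hJ, AddMonoidHom.mem_ker, hex b, AddMonoidHom.mem_range]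
  have hUM : U = fM.ker.comap π := by
    ext b
    rw [hU, AddSubgroup.mem_comap, hJ, AddMonoidHom.mem_ker, h2, AddSubgroup.mem_comap,
      AddMonoidHom.mem_ker]
  have hZU : Z ≤ U := by
    intro b hb
    rw [hU, AddSubgroup.mem_comap, (AddMonoidHom.mem_ker).mp hb]
    exact zero_mem _
  have hJmap : J.map fB = fK.range.map i := by
    rw [hJi, AddMonoidHom.map_range, AddMonoidHom.map_range]
    congr 1
    ext x
    exact (h1 x).symm
  have hJmapJ : J.map fB ≤ J := by
    rw [hJmap, hJi]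
    exact AddSubgroup.map_le_range _ _
  have hJU : J ≤ U := by
    intro b hb
    rw [hU, AddSubgroup.mem_comap]
    exact hJmapJ (AddSubgroup.mem_map_of_mem _ hb)
  have hRJ : R ⊓ J = U.map fB := by
    rw [hU, AddSubgroup.map_comap_eq]
  refine ⟨(R ⊓ J).relIndex J, (J ⊔ Z).relIndex U, (J ⊓ Z).relIndex Z, Nat.card ↥(J ⊓ Z),
    (R ⊔ J).index, ?_, ?_, ?_, ?_, ?_, ?_⟩
  · rw [← AddSubgroup.relIndex_mul_index (le_sup_left : R ≤ R ⊔ J), AddSubgroup.relIndex_sup_left,
      AddSubgroup.inf_relIndex_right]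
  · rw [← AddSubgroup.relIndex_top_right, ← AddSubgroup.relIndex_map_map_of_injective _ _ hi,
      ← AddMonoidHom.range_eq_map, ← hJi, ← hJmap,
      ← AddSubgroup.relIndex_mul_relIndex (J.map fB) (R ⊓ J) J
        (le_inf (AddSubgroup.map_le_range _ _) hJmapJ) inf_le_right,
      hRJ, AddSubgroup.relIndex_map_map, sup_eq_left.mpr hZU]
  · have h3 : fM.ker = U.map π := by
      rw [hUM, AddSubgroup.map_comap_eq_self_of_surjective hπ]
    rw [h3, ← AddSubgroup.relIndex_ker,
      ← AddSubgroup.relIndex_mul_relIndex J (J ⊔ Z) U le_sup_left (sup_le hJU hZU),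
      AddSubgroup.relIndex_sup_left, AddSubgroup.inf_relIndex_right]
  · rw [← AddSubgroup.relIndex_bot_left, ← AddSubgroup.relIndex_bot_left,
      AddSubgroup.relIndex_mul_relIndex _ _ _ bot_le inf_le_right]
  · have h3 : fK.ker.map i = J ⊓ Z := by
      ext b
      rw [AddSubgroup.mem_map, AddSubgroup.mem_inf]
      constructor
      · rintro ⟨x, hx, rfl⟩
        refine ⟨hJi ▸ ⟨x, rfl⟩, ?_⟩
        rw [hZ, AddMonoidHom.mem_ker, ← h1, (AddMonoidHom.mem_ker).mp hx, map_zero]
      · rintro ⟨hb1, hb2⟩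
        rw [hJi] at hb1
        obtain ⟨x, rfl⟩ := hb1
        refine ⟨x, ?_, rfl⟩
        rw [hZ, AddMonoidHom.mem_ker, ← h1] at hb2
        rw [AddMonoidHom.mem_ker]
        exact hi (by rw [hb2, map_zero])
    rw [← h3, ← AddSubgroup.relIndex_bot_left, ← AddSubgroup.relIndex_bot_left,
      ← AddSubgroup.relIndex_map_map_of_injective ⊥ fK.ker hi, AddSubgroup.map_bot]
  · have h3 : R.map π = fM.range := by
      rw [hR, AddMonoidHom.map_range]
      have : π.comp fB = fM.comp π := by
        ext b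
        exact h2 b
      rw [this, ← AddMonoidHom.map_range, AddMonoidHom.range_eq_top.mpr hπ,
        ← AddMonoidHom.range_eq_map]
    rw [← AddSubgroup.index_comap_of_surjective fM.range hπ, ← h3, AddSubgroup.comap_map_eq]

/-- snake lemma: `0 → K → B → M → 0` exact, compatible endomorphisms; if two of them have an index
so has the third (we only need the two cases below), and the index is multiplicative. -/
theorem fred_mid {i : K →+ B} {π : B →+ M} (hi : Function.Injective i)
    (hπ : Function.Surjective π) (hex : ∀ b, π b = 0 ↔ ∃ x, i x = b)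
    {fK : K →+ K} {fB : B →+ B} {fM : M →+ M} (h1 : ∀ x, i (fK x) = fB (i x))
    (h2 : ∀ b, π (fB b) = fM (π b)) (hK : Fred fK) (hM : Fred fM) : Fred fB := by
  obtain ⟨α, s, β, κ, γ, e1, e2, e3, e4, e5, e6⟩ := ses_data hi hπ hex h1 h2
  obtain ⟨hK1, hK2⟩ := hK
  obtain ⟨hM1, hM2⟩ := hM
  rw [e2] at hK1
  rw [e5] at hK2
  rw [e6] at hM1
  rw [e3] at hM2
  refine ⟨?_, ?_⟩
  · rw [e1]
    exact mul_ne_zero (right_ne_zero_of_mul hK1) hM1
  · rw [e4]
    exact mul_ne_zero hK2 (left_ne_zero_of_mul hM2)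

theorem fred_right {i : K →+ B} {π : B →+ M} (hi : Function.Injective i)
    (hπ : Function.Surjective π) (hex : ∀ b, π b = 0 ↔ ∃ x, i x = b)
    {fK : K →+ K} {fB : B →+ B} {fM : M →+ M} (h1 : ∀ x, i (fK x) = fB (i x))
    (h2 : ∀ b, π (fB b) = fM (π b)) (hK : Fred fK) (hB : Fred fB) : Fred fM := by
  obtain ⟨α, s, β, κ, γ, e1, e2, e3, e4, e5, e6⟩ := ses_data hi hπ hex h1 h2
  obtain ⟨hK1, hK2⟩ := hK
  obtain ⟨hB1, hB2⟩ := hB
  rw [e2] at hK1
  rw [e1] at hB1
  rw [e4] at hB2
  refine ⟨?_, ?_⟩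
  · rw [e6]
    exact right_ne_zero_of_mul hB1
  · rw [e3]
    exact mul_ne_zero (right_ne_zero_of_mul hB2) (left_ne_zero_of_mul hK1)

theorem index_ses {i : K →+ B} {π : B →+ M} (hi : Function.Injective i)
    (hπ : Function.Surjective π) (hex : ∀ b, π b = 0 ↔ ∃ x, i x = b)
    {fK : K →+ K} {fB : B →+ B} {fM : M →+ M} (h1 : ∀ x, i (fK x) = fB (i x))
    (h2 : ∀ b, π (fB b) = fM (π b)) (hK : Fred fK) (hB : Fred fB) (hM : Fred fM) :
    fB.range.index * (Nat.card fK.ker * Nat.card fM.ker) =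
      fK.range.index * fM.range.index * Nat.card fB.ker := by
  obtain ⟨α, s, β, κ, γ, e1, e2, e3, e4, e5, e6⟩ := ses_data hi hπ hex h1 h2
  rw [e1, e2, e3, e4, e5, e6]
  ring

end Fermat.Agent.S55.Ind
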