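import Fermat.Agent.S55.L.EulerP

/-!
# S55 (L), L5 second part + L7: right exactness of `H²` and finiteness, for every local datum
TASK S55/L-Local.

`D` any local datum, `p` odd, `ρ` smooth finite dimensional.  `N` := a normal open subgroup acting
trivially on the module(s) and on `μ` (`Smooth.exists_normal_of_fg`, `D.isOpen_ker_μ`, intersect and
take `L.exists_normal`), `P ⊇ N` with `[H:P]` prime to `p`, `[P:N] = p^k` (`exists_sylow_preimage`).
`D.res P` is split (`isSplit_res_of_pGroup`), `N.subgroupOf P` is normal open in `P` of index `p^k`.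
* finiteness: `res_P` is injective (`res_injective1/2`), `finite_of_pGroup` for `D.res P`.
* right exactness: `z ∈ H²(H;C)`; `res_P z = π_* y` (`map2_surjective_of_pGroup` for `E.sub P`);
  `π_* (cores y) = cores (π_* y) = cores res z = [H:P] z` (`cores2_coeff`, `cores2_res`), and `[H:P]`
  is invertible in `ZMod p`.
-/

set_option autoImplicit false
set_option linter.style.haveILetI false

noncomputable section

namespace Fermat.Agent.S55

open Module

variable {p : ℕ} [Fact p.Prime] {H : Type} [Group H] {L : Levels H}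

namespace LocalDatum

variable (D : LocalDatum p H L) (hp2 : p ≠ 2)

/-- the reduction to the split `p`-group situation. -/
theorem exists_good_subgroup {X : Type} [AddCommGroup X] [Module (ZMod p) X]
    [FiniteDimensional (ZMod p) X] (ρ : Representation (ZMod p) H X) [Smooth L ρ] :
    ∃ (N P : Subgroup H) (hP : L.IsOpen P) (k : ℕ), N.Normal ∧ L.IsOpen N ∧ N ≤ P ∧
      (∀ n ∈ N, ρ n = 1) ∧ N ≤ MonoidHom.ker D.μ ∧ IsUnit (P.index : ZMod p) ∧
      (N.subgroupOf P).index = p ^ k ∧ (D.res P hP).IsSplit := by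
  obtain ⟨N₁, hN₁, -, -, hfix⟩ := Smooth.exists_normal_of_fg (L := L) (ρ := ρ)
  obtain ⟨N, hN, hle, hNn, hNf⟩ := L.exists_normal (L.isOpen_inf hN₁ D.isOpen_ker_μ)
  haveI := hNn
  haveI := hNf
  obtain ⟨P, hNP, hpP, -, k, hk⟩ := exists_sylow_preimage (p := p) N
  have hP : L.IsOpen P := L.isOpen_mono hN hNP
  refine ⟨N, P, hP, k, hNn, hN, hNP, fun n hn => hfix n (hle hn).1, fun n hn => (hle hn).2,
    H2mu_isUnit hpP, hk, ?_⟩
  haveI : (N.subgroupOf P).Normal := inferInstance
  refine D.isSplit_res_of_pGroup P N hP (fun n hn => (hle hn).2) ?_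
  exact IsPGroup.of_card (n := k) (by rw [← Subgroup.index_eq_card, hk])

include D hp2 in
/-- (L7) -/
theorem finite_H1 {X : Type} [AddCommGroup X] [Module (ZMod p) X]
    [FiniteDimensional (ZMod p) X] (ρ : Representation (ZMod p) H X) [Smooth L ρ] :
    FiniteDimensional (ZMod p) (H1 L ρ) := by
  obtain ⟨N, P, hP, k, hNn, hN, -, hfix, -, hu, hk, hs⟩ := D.exists_good_subgroup ρ
  haveI := hNn
  haveI := ((D.res P hP).finite_of_pGroup (rsub ρ P) hs hp2 (N.subgroupOf P) (hN.subgroupOf P) k hk
    (fun n hn => hfix n hn)).1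
  exact FiniteDimensional.of_injective (Pair.res L ρ P).map1 (res_injective1 L ρ P hP hu)

include D hp2 in
/-- (L7) -/
theorem finite_H2 {X : Type} [AddCommGroup X] [Module (ZMod p) X]
    [FiniteDimensional (ZMod p) X] (ρ : Representation (ZMod p) H X) [Smooth L ρ] :
    FiniteDimensional (ZMod p) (H2 L ρ) := by
  obtain ⟨N, P, hP, k, hNn, hN, -, hfix, -, hu, hk, hs⟩ := D.exists_good_subgroup ρ
  haveI := hNn
  haveI := ((D.res P hP).finite_of_pGroup (rsub ρ P) hs hp2 (N.subgroupOf P) (hN.subgroupOf P) k hk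
    (fun n hn => hfix n hn)).2
  exact FiniteDimensional.of_injective (Pair.res L ρ P).map2 (res_injective2 L ρ P hP hu)

include D hp2 in
/-- (L5) right exactness of `H²`. -/
theorem map2_surjective
    {A B C : Type} [AddCommGroup A] [Module (ZMod p) A] [AddCommGroup B] [Module (ZMod p) B]
    [AddCommGroup C] [Module (ZMod p) C] [FiniteDimensional (ZMod p) B]
    {ρA : Representation (ZMod p) H A} {ρB : Representation (ZMod p) H B}
    {ρC : Representation (ZMod p) H C} [Smooth L ρB] (E : SES ρA ρB ρC) :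
    Function.Surjective (E.πP L).map2 := by
  intro z
  haveI : Smooth L ρC := Smooth.of_surjective (ρ := ρB) E.π E.π_comm E.surj
  obtain ⟨N, P, hP, k, hNn, hN, -, hfix, -, hu, hk, hs⟩ := D.exists_good_subgroup ρB
  haveI := hNn
  obtain ⟨y, hy⟩ := (D.res P hP).map2_surjective_of_pGroup hs hp2 (E.sub P) (N.subgroupOf P)
    (hN.subgroupOf P) k hk (fun n hn => hfix n hn) ((Pair.res L ρC P).map2 z)
  obtain ⟨u, hu⟩ := hu
  refine ⟨(↑u⁻¹ : ZMod p) • cores2 L ρB P hP y, ?_⟩
  have h1 : (E.πP L).map2 (cores2 L ρB P hP y) =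
      cores2 L ρC P hP ((Pair.coeffSub L P E.π E.π_comm).map2 y) :=
    (cores2_coeff L P hP E.π E.π_comm y).symm
  have h2 : (Pair.coeffSub L P E.π E.π_comm).map2 y = (Pair.res L ρC P).map2 z := hy
  rw [map_smul, h1, h2, cores2_res, ← Nat.cast_smul_eq_nsmul (ZMod p), ← hu, smul_smul, u.inv_mul,
    one_smul]

include D hp2 in
/-- (L5) in the form used most: an equivariant surjection is surjective on `H²`. -/
theorem coeff_map2_surjective {B C : Type} [AddCommGroup B] [Module (ZMod p) B]
    [AddCommGroup C] [Module (ZMod p) C] [FiniteDimensional (ZMod p) B]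
    {ρB : Representation (ZMod p) H B} {ρC : Representation (ZMod p) H C} [Smooth L ρB]
    (π : B →ₗ[ZMod p] C) (hπ : ∀ g b, π (ρB g b) = ρC g (π b)) (hsurj : Function.Surjective π) :
    Function.Surjective (Pair.coeff L π hπ).map2 :=
  D.map2_surjective hp2 (SES.ofSurj π hπ hsurj)

include D hp2 in
/-- corestriction is surjective on `H²` (it is `Sum_*` up to Shapiro). -/
theorem cores2_surjective' {X : Type} [AddCommGroup X] [Module (ZMod p) X]
    [FiniteDimensional (ZMod p) X] (ρ : Representation (ZMod p) H X) [Smooth L ρ]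
    (V : Subgroup H) (hV : L.IsOpen V) : Function.Surjective (cores2 L ρ V hV) := by
  intro x
  haveI := L.finite_quotient hV
  haveI := L.smoothSet_quotient' hV
  obtain ⟨y, hy⟩ := D.coeff_map2_surjective hp2 (ρB := Fun ρ (H ⧸ V)) (ρC := ρ)
    (sumMap (ZMod p) X (H ⧸ V)) (sumMap_comm ρ (H ⧸ V)) (sumMap_surjective (H ⧸ V)) x
  refine ⟨(Pair.sh L ρ V).map2 y, ?_⟩
  rw [cores2_sh]
  exact hy

end LocalDatum

end Fermat.Agent.S55

end
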