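import Fermat.Agent.S55.L.CycCup
import Fermat.Agent.S55.L.NormIndex
import Fermat.Agent.S55.L.LinAlg

/-!
# S55 (L), L2: symbols for a split local datum, `p` odd
TASK S55/L-Symbol (a: `ofChar` API + `cup_ofChar_self`; b: `finrank_line`, `res_eq_zero_iff_mem_line`,
`eq_zero_of_cores2_eq_zero`).

`D` a split local datum.  `H¹(H,μ)` = level characters (`ofChar`), `= A^H/p` (`kappa`), of
dimension `2 + n ≥ 2`.  Symbol `B(y,y') := y ∪ χ_{y'}`.
(S1) `κ(b) ∪ χ = 0 ⇔ b` norm from `ker χ`  (`cup_kappa_eq_zero_iff`).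
(S2) for `χ ≠ 1` the image of `· ∪ χ` is a line (`index_normSub`, `exists_smul_sub_mem_normSub`).
(S3) `χ ∪ χ = 0`: `ofChar χ = κ(a)`, `p β = a`, `g β - β = ι (χ g)`; `β ∈ A^N`, `N = ker χ`, and
     `Nm β = ∑_{i<p} σ^i β = ∑ (β + i ι 1) = p β + (p(p-1)/2) ι 1 = a` as `p` is odd.
(S4) `exists_line_of_alternating`: all symbols lie on one line; it is nonzero.
(S5) `ker (res to N) = line` for `N` normal open of index `p` (`exists_char_of_index_prime`,
     `exists_cup_kappa_of_res_eq_zero`, `res_cup_eq_zero`; the line is spanned by a symbol with `χ_N`).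
(S6) `cores : H²(N) → H²(H)` is injective on the line of `N`: the line of `N` is one dimensional
     (apply `finrank_line` to `D.res N`), so it is enough to find ONE symbol `y₀` of `N` with
     `cores y₀ ≠ 0`.  `χ_a` := the character with kernel `N`.  `Nm A^N` has index `p` in `A^H` and
     `[A^H : pA^H] ≥ p²`, so there is a norm `b = Nm b'` with `κ(b) ≠ 0`; let `χ_b` be its character,
     `c` not a norm from `ker χ_b`, `χ_c` the character of `κ(c)`:
     `κ(b) ∪ χ_c = - κ(c) ∪ χ_b ≠ 0`, and `cores (κ_N(b') ∪ χ_c|N) = κ(b) ∪ χ_c`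
     (`cores2_cup_kappa`).
-/

set_option autoImplicit false

noncomputable section

namespace Fermat.Agent.S55

variable {p : ℕ} [Fact p.Prime] {H : Type} [Group H] {L : Levels H}

namespace KummerDatum

variable (D : KummerDatum p H L) (hs : D.IsSplit)

include hs in
theorem char_mem_Z1 (χ : H →* Multiplicative (ZMod p)) (hχ : L.IsLevel₁ χ) :
    (fun g => Multiplicative.toAdd (χ g)) ∈ Z1 L D.μ := by
  rw [mem_Z1]
  refine ⟨fun g h => ?_, ?_⟩
  · rw [hs, map_mul, toAdd_mul, add_comm]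
  · obtain ⟨U, hU, h⟩ := hχ
    exact ⟨U, hU, fun g s hs' => by simp only [h g s hs']⟩

/-- the class of a level character, for a split datum. -/
def ofChar (χ : H →* Multiplicative (ZMod p)) (hχ : L.IsLevel₁ χ) : H1 L D.μ :=
  H1.mk L D.μ ⟨fun g => Multiplicative.toAdd (χ g), D.char_mem_Z1 hs χ hχ⟩

include hs in
/-- for a split datum two cohomologous cocycles are equal. -/
theorem eq_of_mk_eq_of_split {z z' : ↥(Z1 L D.μ)} (h : H1.mk L D.μ z = H1.mk L D.μ z') :
    z = z' := by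
  have h1 : H1.mk L D.μ (z - z') = 0 := by rw [map_sub, h, sub_self]
  obtain ⟨x, hx⟩ := (H1.mk_eq_zero_iff _).1 h1
  apply Subtype.ext
  funext g
  have := hx g
  rw [hs, sub_self] at this
  exact sub_eq_zero.1 this

theorem ofChar_surjective (y : H1 L D.μ) :
    ∃ (χ : H →* Multiplicative (ZMod p)) (hχ : L.IsLevel₁ χ), D.ofChar hs χ hχ = y := by
  obtain ⟨z, rfl⟩ := H1.mk_surjective L D.μ y
  have hz := mem_Z1.1 z.2
  have hmul : ∀ g h : H, (z : H → ZMod p) (g * h) = (z : H → ZMod p) g + (z : H → ZMod p) h := by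
    intro g h
    rw [hz.1, hs, add_comm]
  have hone : (z : H → ZMod p) 1 = 0 := by
    have := hmul 1 1
    rw [mul_one] at this
    exact (add_eq_left.1 this.symm)
  let χ : H →* Multiplicative (ZMod p) :=
    { toFun := fun g => Multiplicative.ofAdd ((z : H → ZMod p) g)
      map_one' := by rw [hone]; rfl
      map_mul' := fun g h => by rw [hmul]; rfl }
  have hχ : L.IsLevel₁ χ := by
    obtain ⟨U, hU, h⟩ := hz.2
    exact ⟨U, hU, fun g s hs' => by
      show Multiplicative.ofAdd ((z : H → ZMod p) (g * s)) = Multiplicative.ofAdd _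
      rw [h g s hs']⟩
  exact ⟨χ, hχ, rfl⟩

theorem ofChar_injective {χ χ' : H →* Multiplicative (ZMod p)} (hχ : L.IsLevel₁ χ)
    (hχ' : L.IsLevel₁ χ') (h : D.ofChar hs χ hχ = D.ofChar hs χ' hχ') : χ = χ' := by
  have h1 := D.eq_of_mk_eq_of_split hs h
  ext g
  have := congrFun (congrArg Subtype.val h1) g
  exact Multiplicative.toAdd.injective this

theorem ofChar_mul (χ χ' : H →* Multiplicative (ZMod p)) (hχ : L.IsLevel₁ χ)
    (hχ' : L.IsLevel₁ χ') :
    D.ofChar hs (χ * χ') (isLevel_mul_char L hχ hχ') = D.ofChar hs χ hχ + D.ofChar hs χ' hχ' := by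
  unfold ofChar
  rw [← map_add]
  rfl

theorem ofChar_eq_zero_iff (χ : H →* Multiplicative (ZMod p)) (hχ : L.IsLevel₁ χ) :
    D.ofChar hs χ hχ = 0 ↔ χ = 1 := by
  constructor
  · intro h
    have h0 : D.ofChar hs χ hχ = H1.mk L D.μ 0 := by rw [h, map_zero]
    have h1 := D.eq_of_mk_eq_of_split hs h0
    ext g
    have := congrFun (congrArg Subtype.val h1) g
    exact Multiplicative.toAdd.injective this
  · rintro rfl
    have : D.ofChar hs 1 hχ = H1.mk L D.μ 0 := rfl
    rw [this, map_zero]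

/-- cup product with the trivial character. -/
theorem cup_one (h1 : L.IsLevel₁ (1 : H →* Multiplicative (ZMod p))) (y : H1 L D.μ) :
    cup L D.μ 1 h1 y = 0 := by
  obtain ⟨z, rfl⟩ := H1.mk_surjective L D.μ y
  rw [cup_mk]
  have : (⟨cupC 1 (z : H → ZMod p), cupC_mem_Z2 L D.μ 1 h1 z.2⟩ : ↥(Z2 L D.μ)) = 0 := by
    apply Subtype.ext
    funext g
    simp
  rw [this, map_zero]

/-- (S3) -/
theorem cup_ofChar_self (hp2 : p ≠ 2) (χ : H →* Multiplicative (ZMod p)) (hχ : L.IsLevel₁ χ) :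
    cup L D.μ χ hχ (D.ofChar hs χ hχ) = 0 := by
  by_cases h1 : χ = 1
  · rw [(D.ofChar_eq_zero_iff hs χ hχ).2 h1, map_zero]
  have hsurj : Function.Surjective χ := surjective_of_ne_one χ h1
  obtain ⟨a, ha⟩ := D.kappa_surjective (D.ofChar hs χ hχ)
  rw [← ha, D.cup_kappa_eq_zero_iff χ hχ hsurj a]
  obtain ⟨β, hβ⟩ := D.div (a : D.A)
  obtain ⟨y, hy⟩ := D.exists_kummer_cocycle a β hβ
  have hk := D.kappa_eq a β y hβ hy
  rw [ha] at hk
  have hyχ := D.eq_of_mk_eq_of_split hs hk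
  have hact : ∀ g, D.α g β = β + D.ι (Multiplicative.toAdd (χ g)) := by
    intro g
    have h2 := hy g
    rw [← hyχ] at h2
    rw [h2]
    abel
  have hβN : β ∈ H0 (rsub D.α χ.ker) := by
    intro g
    show D.α (g : H) β = β
    rw [hact, MonoidHom.mem_ker.1 g.2]
    simp
  obtain ⟨σ, hσ⟩ := hsurj (Multiplicative.ofAdd 1)
  refine ⟨⟨β, hβN⟩, ?_⟩
  apply Subtype.ext
  rw [cores0_cyclic L D.α χ hχ hsurj σ hσ]
  have hsum : ∀ i : ℕ, D.α (σ ^ i) β = β + i • D.ι 1 := by
    intro i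
    rw [hact, map_pow, hσ, ← ofAdd_nsmul, toAdd_ofAdd, map_nsmul]
  simp only [hsum]
  rw [Finset.sum_add_distrib, Finset.sum_const, Finset.card_range, hβ, ← Finset.sum_smul,
    Finset.sum_range_id]
  have hodd : Odd p := (Fact.out : p.Prime).odd_of_ne_two hp2
  obtain ⟨m, hm⟩ := hodd
  have h3 : p * (p - 1) / 2 = m * p := by
    have : p - 1 = 2 * m := by omega
    rw [this, mul_comm p, mul_assoc, Nat.mul_div_cancel_left _ (by norm_num)]
  rw [h3, mul_smul, D.p_smul_ι, smul_zero, add_zero]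

/-- antisymmetry. -/
theorem cup_ofChar_comm (hp2 : p ≠ 2) (χ χ' : H →* Multiplicative (ZMod p)) (hχ : L.IsLevel₁ χ)
    (hχ' : L.IsLevel₁ χ') :
    cup L D.μ χ hχ (D.ofChar hs χ' hχ') = - cup L D.μ χ' hχ' (D.ofChar hs χ hχ) := by
  have h := D.cup_ofChar_self hs hp2 (χ * χ') (isLevel_mul_char L hχ hχ')
  rw [cup_mul_char L D.μ χ χ' hχ hχ', D.ofChar_mul hs χ χ' hχ hχ', map_add, map_add,
    D.cup_ofChar_self hs hp2 χ hχ,
    D.cup_ofChar_self hs hp2 χ' hχ', zero_add, add_zero] at h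
  exact eq_neg_of_add_eq_zero_left h

end KummerDatum

namespace LocalDatum

variable (D : LocalDatum p H L) (hs : D.IsSplit) (hp2 : p ≠ 2)

/-- the cup product only depends on the character. -/
theorem symb_cup_congr {χ χ' : H →* Multiplicative (ZMod p)} (h : χ = χ') (hχ : L.IsLevel₁ χ)
    (hχ' : L.IsLevel₁ χ') (y : H1 L D.μ) : cup L D.μ χ hχ y = cup L D.μ χ' hχ' y := by
  subst h; rfl

/-- the character of a class. -/
def symbChar (y : H1 L D.μ) : H →* Multiplicative (ZMod p) :=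
  Classical.choose (D.ofChar_surjective hs y)

theorem symbChar_isLevel (y : H1 L D.μ) : L.IsLevel₁ (D.symbChar hs y) :=
  Classical.choose (Classical.choose_spec (D.ofChar_surjective hs y))

theorem ofChar_symbChar (y : H1 L D.μ) :
    D.ofChar hs (D.symbChar hs y) (D.symbChar_isLevel hs y) = y :=
  Classical.choose_spec (Classical.choose_spec (D.ofChar_surjective hs y))

theorem symbChar_ofChar (χ : H →* Multiplicative (ZMod p)) (hχ : L.IsLevel₁ χ) :
    D.symbChar hs (D.ofChar hs χ hχ) = χ :=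
  D.ofChar_injective hs _ hχ (D.ofChar_symbChar hs _)

theorem symbChar_add (y y' : H1 L D.μ) :
    D.symbChar hs (y + y') = D.symbChar hs y * D.symbChar hs y' := by
  refine D.ofChar_injective hs (D.symbChar_isLevel hs _)
    (isLevel_mul_char L (D.symbChar_isLevel hs y) (D.symbChar_isLevel hs y')) ?_
  rw [D.ofChar_symbChar hs, D.ofChar_mul hs _ _ (D.symbChar_isLevel hs y) (D.symbChar_isLevel hs y'),
    D.ofChar_symbChar hs, D.ofChar_symbChar hs]

theorem symbChar_ne_one {y : H1 L D.μ} (hy : y ≠ 0) : D.symbChar hs y ≠ 1 := by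
  intro h
  apply hy
  rw [← D.ofChar_symbChar hs y]
  exact (D.ofChar_eq_zero_iff hs _ _).2 h

theorem symbChar_surjective {y : H1 L D.μ} (hy : y ≠ 0) :
    Function.Surjective (D.symbChar hs y) :=
  surjective_of_ne_one _ (D.symbChar_ne_one hs hy)

include hs in
theorem symb_exists_ne_zero : ∃ y : H1 L D.μ, y ≠ 0 := by
  have := D.finite_H1_μ
  have h := D.finrank_H1_μ hs
  have h2 : 0 < Module.finrank (ZMod p) (H1 L D.μ) := by omega
  have := Module.finrank_pos_iff.1 h2
  exact exists_ne 0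

include hs in
/-- a split local datum has a surjective level character. -/
theorem hasChar_of_split : L.HasChar p := by
  obtain ⟨y, hy⟩ := D.symb_exists_ne_zero hs
  exact ⟨D.symbChar hs y, D.symbChar_isLevel hs y, D.symbChar_surjective hs hy⟩

/-- (S2) the symbols with a fixed surjective character form a line. -/
theorem symb_rank (χ : H →* Multiplicative (ZMod p)) (hχ : L.IsLevel₁ χ)
    (hsurj : Function.Surjective χ) :
    ∃ b : ↥(H0 D.α), cup L D.μ χ hχ (D.kappa b) ≠ 0 ∧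
      ∀ a : H1 L D.μ, ∃ c : ZMod p, cup L D.μ χ hχ a = c • cup L D.μ χ hχ (D.kappa b) := by
  obtain ⟨b, hb⟩ := D.exists_not_mem_normSub χ hχ hsurj
  refine ⟨b, fun h => hb ((D.cup_kappa_eq_zero_iff χ hχ hsurj b).1 h), fun a => ?_⟩
  obtain ⟨b', rfl⟩ := D.kappa_surjective a
  obtain ⟨j, hj⟩ := D.exists_smul_sub_mem_normSub χ hχ hsurj b b' hb
  have h := (D.cup_kappa_eq_zero_iff χ hχ hsurj _).2 hj
  rw [map_sub, map_sub, map_nsmul, map_nsmul, sub_eq_zero] at h
  exact ⟨(j : ZMod p), by rw [h, Nat.cast_smul_eq_nsmul]⟩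

include hs hp2 in
theorem symb_exists_line :
    ∃ w : H2 L D.μ, ∀ (χ : H →* Multiplicative (ZMod p)) (hχ : L.IsLevel₁ χ) (y : H1 L D.μ),
      ∃ c : ZMod p, cup L D.μ χ hχ y = c • w := by
  obtain ⟨w, hw⟩ := exists_line_of_alternating (k := ZMod p)
    (fun y y' : H1 L D.μ => cup L D.μ (D.symbChar hs y') (D.symbChar_isLevel hs y') y)
    (fun a a' b => map_add _ _ _)
    (fun a b b' => by
      show cup L D.μ _ _ a = _
      rw [D.symb_cup_congr (D.symbChar_add hs b b') _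
        (isLevel_mul_char L (D.symbChar_isLevel hs b) (D.symbChar_isLevel hs b')), cup_mul_char])
    (fun a => by
      have h := D.cup_ofChar_self hs hp2 (D.symbChar hs a) (D.symbChar_isLevel hs a)
      rwa [D.ofChar_symbChar hs] at h)
    (fun b hb => by
      obtain ⟨b0, h0, h1⟩ := D.symb_rank _ (D.symbChar_isLevel hs b) (D.symbChar_surjective hs hb)
      exact ⟨_, h0, ⟨_, rfl⟩, h1⟩)
  refine ⟨w, fun χ hχ y => ?_⟩
  obtain ⟨c, hc⟩ := hw y (D.ofChar hs χ hχ)
  refine ⟨c, ?_⟩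
  rw [← hc]
  exact D.symb_cup_congr (D.symbChar_ofChar hs χ hχ).symm _ _ _

theorem symb_mem_line (χ : H →* Multiplicative (ZMod p)) (hχ : L.IsLevel₁ χ) (y : H1 L D.μ) :
    cup L D.μ χ hχ y ∈ D.line :=
  Submodule.subset_span ⟨χ, hχ, y, rfl⟩

include hs hp2 in
/-- the line is spanned by each of its nonzero elements. -/
theorem symb_line_eq_span {w0 : H2 L D.μ} (h0 : w0 ∈ D.line) (hne : w0 ≠ 0) :
    D.line = Submodule.span (ZMod p) {w0} := by
  obtain ⟨w, hw⟩ := D.symb_exists_line hs hp2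
  have hle : D.line ≤ Submodule.span (ZMod p) {w} := by
    refine Submodule.span_le.2 ?_
    rintro x ⟨χ, hχ, y, rfl⟩
    obtain ⟨c, hc⟩ := hw χ hχ y
    rw [hc]
    exact Submodule.smul_mem _ _ (Submodule.mem_span_singleton_self w)
  obtain ⟨c0, hc0⟩ := Submodule.mem_span_singleton.1 (hle h0)
  have hc0ne : c0 ≠ 0 := by
    rintro rfl
    exact hne (by rw [← hc0, zero_smul])
  refine le_antisymm (fun x hx => ?_) ((Submodule.span_singleton_le_iff_mem _ _).2 h0)
  obtain ⟨c, hc⟩ := Submodule.mem_span_singleton.1 (hle hx)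
  refine Submodule.mem_span_singleton.2 ⟨c * c0⁻¹, ?_⟩
  rw [← hc, ← hc0, smul_smul, mul_assoc, inv_mul_cancel₀ hc0ne, mul_one]

include hs hp2 in
/-- (S4) -/
theorem finrank_line : Module.finrank (ZMod p) ↥D.line = 1 := by
  obtain ⟨χ, hχ, hsurj⟩ := D.hasChar_of_split hs
  obtain ⟨b, hb, -⟩ := D.symb_rank χ hχ hsurj
  rw [D.symb_line_eq_span hs hp2 (D.symb_mem_line χ hχ _) hb]
  exact finrank_span_singleton hb

include hs hp2 in
/-- (S5) -/
theorem res_eq_zero_iff_mem_line (N : Subgroup H) [N.Normal] (hN : L.IsOpen N)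
    (hidx : N.index = p) (x : H2 L D.μ) :
    (Pair.res L D.μ N).map2 x = 0 ↔ x ∈ D.line := by
  obtain ⟨χ, hχ, hsurj, rfl⟩ := exists_char_of_index_prime (L := L) N hN hidx
  constructor
  · intro hx
    obtain ⟨b, rfl⟩ := D.exists_cup_kappa_of_res_eq_zero χ hχ hsurj x hx
    exact D.symb_mem_line χ hχ _
  · intro hx
    obtain ⟨b, hb, -⟩ := D.symb_rank χ hχ hsurj
    rw [D.symb_line_eq_span hs hp2 (D.symb_mem_line χ hχ _) hb] at hx
    obtain ⟨c, rfl⟩ := Submodule.mem_span_singleton.1 hx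
    rw [map_smul, D.res_cup_eq_zero χ hχ, smul_zero]

include hs in
/-- there is a norm from `ker χ` which is not a `p`-th power. -/
theorem symb_exists_norm_kappa_ne_zero (χ : H →* Multiplicative (ZMod p)) (hχ : L.IsLevel₁ χ)
    (hsurj : Function.Surjective χ) :
    ∃ b ∈ normSub L D.α χ.ker (isOpen_ker_of_isLevel χ hχ), D.kappa b ≠ 0 := by
  by_contra hcon
  have hcon' : ∀ b ∈ normSub L D.α χ.ker (isOpen_ker_of_isLevel χ hχ), D.kappa b = 0 := by
    intro b hb
    by_contra h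
    exact hcon ⟨b, hb, h⟩
  obtain ⟨b0, hb0⟩ := D.exists_not_mem_normSub χ hχ hsurj
  have hspan : ∀ y : H1 L D.μ, y ∈ Submodule.span (ZMod p) {D.kappa b0} := by
    intro y
    obtain ⟨b', rfl⟩ := D.kappa_surjective y
    obtain ⟨j, hj⟩ := D.exists_smul_sub_mem_normSub χ hχ hsurj b0 b' hb0
    have h := hcon' _ hj
    rw [map_sub, map_nsmul, sub_eq_zero] at h
    exact Submodule.mem_span_singleton.2 ⟨(j : ZMod p), by rw [h, Nat.cast_smul_eq_nsmul]⟩
  have htop : Submodule.span (ZMod p) {D.kappa b0} = ⊤ := Submodule.eq_top_iff'.2 hspan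
  have h1 : Module.finrank (ZMod p) (H1 L D.μ) ≤ 1 := by
    rw [← finrank_top, ← htop]
    exact (finrank_span_le_card _).trans (by simp)
  have h2 := D.finrank_H1_μ hs
  omega

/-- linear algebra: a linear map which does not kill the generator of a line is injective on it. -/
theorem symb_eq_zero_of_span {W W' : Type} [AddCommGroup W] [Module (ZMod p) W]
    [AddCommGroup W'] [Module (ZMod p) W'] (S : Submodule (ZMod p) W) (f : W →ₗ[ZMod p] W')
    (y0 : W) (hS : S = Submodule.span (ZMod p) {y0}) (hf : f y0 ≠ 0) (y : W) (hy : y ∈ S)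
    (hc : f y = 0) : y = 0 := by
  rw [hS] at hy
  obtain ⟨e, rfl⟩ := Submodule.mem_span_singleton.1 hy
  rw [map_smul] at hc
  rcases smul_eq_zero.1 hc with h | h
  · rw [h, zero_smul]
  · exact absurd h hf

include hs hp2 in
/-- a symbol of `ker χ` with non zero corestriction. -/
theorem symb_exists_cores2_ne_zero (χ : H →* Multiplicative (ZMod p)) (hχ : L.IsLevel₁ χ)
    (hsurj : Function.Surjective χ) (hN : L.IsOpen χ.ker) :
    ∃ y0 : H2 (L.sub χ.ker) (D.res χ.ker hN).μ, y0 ∈ (D.res χ.ker hN).line ∧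
      cores2 L D.μ χ.ker hN y0 ≠ 0 := by
  obtain ⟨b, ⟨b', rfl⟩, hb⟩ := D.symb_exists_norm_kappa_ne_zero hs χ hχ hsurj
  -- the character of `κ(b)`
  obtain ⟨c, hc0, -⟩ := D.symb_rank _ (D.symbChar_isLevel hs _) (D.symbChar_surjective hs hb)
  have hcomm := D.cup_ofChar_comm hs hp2 (D.symbChar hs (D.kappa c)) (D.symbChar hs (D.kappa _))
    (D.symbChar_isLevel hs _) (D.symbChar_isLevel hs (D.kappa (cores0 L D.α χ.ker hN b')))
  rw [D.ofChar_symbChar hs, D.ofChar_symbChar hs] at hcomm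
  have hne : cup L D.μ (D.symbChar hs (D.kappa c)) (D.symbChar_isLevel hs _)
      (D.kappa (cores0 L D.α χ.ker hN b')) ≠ 0 := by
    rw [hcomm]
    exact neg_ne_zero.2 hc0
  have hproj := D.cores2_cup_kappa (D.symbChar hs (D.kappa c)) (D.symbChar_isLevel hs _)
    χ.ker hN b'
  rw [← hproj] at hne
  exact ⟨_, (D.res χ.ker hN).symb_mem_line ((D.symbChar hs (D.kappa c)).comp χ.ker.subtype)
    ((Pair.res L D.μ χ.ker).isLevel_comp_char (D.symbChar_isLevel hs _))
    ((D.res χ.ker hN).kappa b'), hne⟩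

include hs hp2 in
/-- (S6) -/
theorem eq_zero_of_cores2_eq_zero (N : Subgroup H) [N.Normal] (hN : L.IsOpen N)
    (hidx : N.index = p) (y : H2 (L.sub N) (rsub D.μ N)) (hy : y ∈ (D.res N hN).line)
    (hc : cores2 L D.μ N hN y = 0) : y = 0 := by
  obtain ⟨χ, hχ, hsurj, hker⟩ := exists_char_of_index_prime (L := L) N hN hidx
  subst hker
  obtain ⟨y0, hmem, hne⟩ := D.symb_exists_cores2_ne_zero hs hp2 χ hχ hsurj hN
  have hne0 : y0 ≠ 0 := by
    rintro rfl
    exact hne (map_zero (cores2 L D.μ χ.ker hN))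
  exact symb_eq_zero_of_span (D.res χ.ker hN).line (cores2 L D.μ χ.ker hN) y0
    ((D.res χ.ker hN).symb_line_eq_span (hs.res χ.ker hN) hp2 hmem hne0) hne y hy hc

end LocalDatum

end Fermat.Agent.S55

end
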